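import Fermat.Agent.Deformation.Residual

/-!
# Burnside's theorem in dimension two

The image of an absolutely irreducible two dimensional representation spans the matrix algebra.
-/

set_option autoImplicit false
set_option linter.unusedSectionVars false

noncomputable section

open IsLocalRing
open scoped TensorProduct

namespace FLTAgent.Deformation

variable {K : Type} [Field K]

theorem exists_vecMulVec_eq_of_det_eq_zero (R : Mat K) (h : R.det = 0) (hR : R ≠ 0) :
    ∃ u φ : Fin 2 → K, u ≠ 0 ∧ φ ≠ 0 ∧ R = Matrix.vecMulVec u φ := by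
  rw [Matrix.det_fin_two, sub_eq_zero] at h
  by_cases h00 : R 0 0 = 0
  · by_cases h01 : R 0 1 = 0
    · refine ⟨![0, 1], ![R 1 0, R 1 1], fun hu => by simpa using congrFun hu 1, fun hφ => hR ?_, ?_⟩
      · have a := congrFun hφ 0
        have b := congrFun hφ 1
        ext i j
        fin_cases i <;> fin_cases j <;> simp_all
      · ext i j
        fin_cases i <;> fin_cases j <;> simp [Matrix.vecMulVec_apply, h00, h01]
    · have h10 : R 1 0 = 0 := by
        rw [h00, zero_mul] at h
        exact (mul_eq_zero.mp h.symm).resolve_left h01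
      refine ⟨![1, R 1 1 / R 0 1], ![0, R 0 1], fun hu => by simpa using congrFun hu 0,
        fun hφ => h01 (by simpa using congrFun hφ 1), ?_⟩
      ext i j
      fin_cases i <;> fin_cases j <;>
        simp [Matrix.vecMulVec_apply, h00, h10, div_mul_cancel₀ _ h01]
  · refine ⟨![1, R 1 0 / R 0 0], ![R 0 0, R 0 1], fun hu => by simpa using congrFun hu 0,
      fun hφ => h00 (by simpa using congrFun hφ 0), ?_⟩
    ext i j
    fin_cases i <;> fin_cases j <;> simp [Matrix.vecMulVec_apply, div_mul_cancel₀ _ h00]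
    rw [div_mul_eq_mul_div, eq_div_iff h00]
    linear_combination h

theorem det2_eq_zero_iff_exists_smul {u w : Fin 2 → K} (hu : u ≠ 0)
    (h : u 0 * w 1 - u 1 * w 0 = 0) : ∃ a : K, w = a • u := by
  by_cases h0 : u 0 = 0
  · have h1 : u 1 ≠ 0 := fun h1 => hu (funext fun i => by fin_cases i <;> assumption)
    refine ⟨w 1 / u 1, funext fun i => ?_⟩
    fin_cases i
    · simpa [h0, h1] using h
    · simp [div_mul_cancel₀ _ h1]
  · refine ⟨w 0 / u 0, funext fun i => ?_⟩
    fin_cases i
    · simp [div_mul_cancel₀ _ h0]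
    · simp [div_mul_eq_mul_div, eq_div_iff h0]
      linear_combination h

/-- Burnside for `2 × 2` matrices over an algebraically closed field. -/
theorem span_range_eq_top_of_no_eigenvector [IsAlgClosed K] (N : Gal →* Mat K)
    (h : ∀ v : Fin 2 → K, v ≠ 0 → ∃ σ, ¬∃ a : K, (N σ).mulVec v = a • v) :
    Submodule.span K (Set.range N) = ⊤ := by
  classical
  set S := Submodule.span K (Set.range N)
  have hmul : ∀ {x y}, x ∈ S → y ∈ S → x * y ∈ S := by
    intro x y hx hy
    induction hx using Submodule.span_induction with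
    | mem x hx =>
      induction hy using Submodule.span_induction with
      | mem y hy =>
        obtain ⟨σ, rfl⟩ := hx
        obtain ⟨τ, rfl⟩ := hy
        exact Submodule.subset_span ⟨σ * τ, map_mul N σ τ⟩
      | zero => simp
      | add a b _ _ ha hb => rw [mul_add]; exact S.add_mem ha hb
      | smul c a _ ha => rw [mul_smul_comm]; exact S.smul_mem c ha
    | zero => simp
    | add a b _ _ ha hb => rw [add_mul]; exact S.add_mem ha hb
    | smul c a _ ha => rw [smul_mul_assoc]; exact S.smul_mem c ha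
  have hone : (1 : Mat K) ∈ S := Submodule.subset_span ⟨1, map_one N⟩
  have hN : ∀ σ, N σ ∈ S := fun σ => Submodule.subset_span ⟨σ, rfl⟩
  have hexr : ∃ R ∈ S, R.det = 0 ∧ R ≠ 0 := by
    by_contra hno
    push Not at hno
    obtain ⟨σ, hσ⟩ := h ![1, 0] (fun h => by simpa using congrFun h 0)
    obtain ⟨l, hl⟩ := IsAlgClosed.exists_root (N σ).charpoly
      (by rw [Matrix.charpoly_degree_eq_dim]; simp)
    have hz : N σ - l • 1 = 0 := by
      refine hno _ (S.sub_mem (hN σ) (S.smul_mem l hone)) ?_
      have h2 : (Matrix.scalar (Fin 2) l - N σ).det = 0 := by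
        rw [← Matrix.eval_charpoly]
        exact hl
      rw [← neg_sub, Matrix.det_neg, Matrix.smul_one_eq_diagonal]
      rw [Matrix.scalar_apply] at h2
      rw [h2, mul_zero]
    apply hσ
    refine ⟨l, ?_⟩
    rw [sub_eq_zero.mp hz, Matrix.smul_mulVec, Matrix.one_mulVec]
  obtain ⟨R, hRS, hRdet, hR0⟩ := hexr
  obtain ⟨u, φ, hu, hφ, rfl⟩ := exists_vecMulVec_eq_of_det_eq_zero R hRdet hR0
  have hsecond : ∃ σ, u 0 * (N σ).mulVec u 1 - u 1 * (N σ).mulVec u 0 ≠ 0 := by
    obtain ⟨σ, hσ⟩ := h u hu
    exact ⟨σ, fun hd => hσ (det2_eq_zero_iff_exists_smul hu hd)⟩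
  have hdual : ∃ τ, φ 0 * Matrix.vecMul φ (N τ) 1 - φ 1 * Matrix.vecMul φ (N τ) 0 ≠ 0 := by
    by_contra hno
    push Not at hno
    obtain ⟨σ, hσ⟩ := h ![-(φ 1), φ 0] (fun hz => hφ (funext fun i => by
      fin_cases i
      · simpa using congrFun hz 1
      · simpa using congrFun hz 0))
    refine hσ ?_
    have hne : ![-(φ 1), φ 0] ≠ 0 := fun hz => hφ (funext fun i => by
      fin_cases i
      · simpa using congrFun hz 1
      · simpa using congrFun hz 0)
    refine det2_eq_zero_iff_exists_smul hne ?_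
    have := hno σ
    simp [Matrix.vecMul, Matrix.mulVec, dotProduct, Fin.sum_univ_two] at this ⊢
    linear_combination (-1 : K) * this
  obtain ⟨σ, hσ⟩ := hsecond
  obtain ⟨τ, hτ⟩ := hdual
  set w := (N σ).mulVec u
  set ψ := Matrix.vecMul φ (N τ)
  have h11 : Matrix.vecMulVec w φ ∈ S := by
    rw [← Matrix.mul_vecMulVec]; exact hmul (hN σ) hRS
  have h12 : Matrix.vecMulVec u ψ ∈ S := by
    rw [← Matrix.vecMulVec_mul]; exact hmul hRS (hN τ)
  have h22 : Matrix.vecMulVec w ψ ∈ S := by
    rw [← Matrix.mul_vecMulVec]; exact hmul (hN σ) h12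
  rw [eq_top_iff]
  intro M _
  set D := u 0 * w 1 - u 1 * w 0
  set E := φ 0 * ψ 1 - φ 1 * ψ 0
  -- Cramer's rule for both bases
  let α : Fin 2 → K := ![w 1 / D, -(w 0) / D]
  let β : Fin 2 → K := ![-(u 1) / D, u 0 / D]
  let γ : Fin 2 → K := ![ψ 1 / E, -(ψ 0) / E]
  let δ : Fin 2 → K := ![-(φ 1) / E, φ 0 / E]
  have hu' : ∀ i j, α i * u j + β i * w j = if i = j then 1 else 0 := by
    intro i j
    fin_cases i <;> fin_cases j <;> simp [α, β] <;> field_simp <;> ring
  have hφ' : ∀ i j, γ i * φ j + δ i * ψ j = if i = j then 1 else 0 := by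
    intro i j
    fin_cases i <;> fin_cases j <;> simp [γ, δ] <;> field_simp <;> ring
  have hexp : M = ∑ i, ∑ j, M i j • ((α i * γ j) • Matrix.vecMulVec u φ +
      (α i * δ j) • Matrix.vecMulVec u ψ + (β i * γ j) • Matrix.vecMulVec w φ +
      (β i * δ j) • Matrix.vecMulVec w ψ) := by
    ext a b
    simp only [Matrix.sum_apply, Matrix.add_apply, Matrix.smul_apply, Matrix.vecMulVec_apply,
      smul_eq_mul]
    have : ∀ i j, M i j * (α i * γ j * (u a * φ b) + α i * δ j * (u a * ψ b) +
        β i * γ j * (w a * φ b) + β i * δ j * (w a * ψ b)) =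
        M i j * ((α i * u a + β i * w a) * (γ j * φ b + δ j * ψ b)) := fun i j => by ring
    simp only [this, hu', hφ']
    simp
  rw [hexp]
  exact S.sum_mem fun i _ => S.sum_mem fun j _ => S.smul_mem _ (S.add_mem (S.add_mem (S.add_mem
    (S.smul_mem _ hRS) (S.smul_mem _ h12)) (S.smul_mem _ h11)) (S.smul_mem _ h22))

/-- The image of an absolutely irreducible representation spans all matrices. -/
theorem span_range_repMatrix_eq_top {k : Type} [Field k] (ρ : ResidualGaloisRep k)
    (habs : ρ.IsAbsolutelyIrreducible) (b : Module.Basis (Fin 2) k ρ.V) :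
    Submodule.span k (Set.range (repMatrix ρ.ρ b)) = ⊤ := by
  by_contra hne
  obtain ⟨f, hf, hle⟩ := Submodule.exists_le_ker_of_lt_top _ (lt_top_iff_ne_top.mpr hne)
  let L := AlgebraicClosure k
  let N : Gal →* Mat L := mapRep (algebraMap k L) (repMatrix ρ.ρ b)
  let c : Module.Basis (Fin 2) L (ρ.baseChange L).V := Algebra.TensorProduct.basis L b
  have hc : repMatrix (ρ.baseChange L).ρ c = N :=
    MonoidHom.ext fun σ => LinearMap.toMatrix_baseChange L (ρ.ρ σ) b b
  have htop : Submodule.span L (Set.range N) = ⊤ := by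
    refine span_range_eq_top_of_no_eigenvector N fun v hv => ?_
    by_contra hall
    push Not at hall
    let x : (ρ.baseChange L).V := c.equivFun.symm v
    have hx : x ≠ 0 := fun hx => hv (c.equivFun.symm.map_eq_zero_iff.mp hx)
    rcases habs (Submodule.span L {x}) (fun σ y hy => by
      obtain ⟨r, rfl⟩ := Submodule.mem_span_singleton.mp hy
      obtain ⟨a, ha⟩ := hall σ
      rw [map_smul]
      refine Submodule.smul_mem _ r (Submodule.mem_span_singleton.mpr ⟨a, ?_⟩)
      apply c.equivFun.injective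
      rw [map_smul, ← repMatrix_mulVec (ρ.baseChange L).ρ c σ x, hc]
      simp only [x, LinearEquiv.apply_symm_apply]
      exact ha.symm) with h | h
    · exact hx (Submodule.span_singleton_eq_bot.mp h)
    · have h1 : Module.finrank L (Submodule.span L {x}) = 1 := finrank_span_singleton hx
      rw [h, finrank_top, (ρ.baseChange L).finrank_eq] at h1
      omega
  apply hf
  let t : Mat k := Matrix.of fun i j => f (Matrix.single i j 1)
  have hfM : ∀ M : Mat k, f M = ∑ i, ∑ j, M i j * t i j := by
    intro M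
    conv_lhs => rw [Matrix.matrix_eq_sum_single M]
    simp only [map_sum]
    refine Finset.sum_congr rfl fun i _ => Finset.sum_congr rfl fun j _ => ?_
    rw [← smul_eq_mul, show t i j = f (Matrix.single i j 1) from rfl, ← map_smul, Matrix.smul_single,
      smul_eq_mul, mul_one]
  let F : Mat L →ₗ[L] L :=
    { toFun := fun M => ∑ i, ∑ j, M i j * algebraMap k L (t i j)
      map_add' := fun M M' => by simp [add_mul, Finset.sum_add_distrib]
      map_smul' := fun a M => by simp [mul_add, mul_assoc] }
  have hF : Submodule.span L (Set.range N) ≤ LinearMap.ker F := by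
    rw [Submodule.span_le]
    rintro _ ⟨σ, rfl⟩
    have h0 : f (repMatrix ρ.ρ b σ) = 0 := LinearMap.mem_ker.mp (hle (Submodule.subset_span ⟨σ, rfl⟩))
    rw [hfM] at h0
    show F (N σ) = 0
    simp only [F, N, LinearMap.coe_mk, AddHom.coe_mk, mapRep_apply, Matrix.map_apply]
    simp only [← map_mul, ← map_sum, h0, map_zero]
  refine LinearMap.ext fun M => ?_
  have := hF (htop ▸ Submodule.mem_top : M.map (algebraMap k L) ∈ _)
  rw [LinearMap.mem_ker] at this
  simp only [F, LinearMap.coe_mk, AddHom.coe_mk, Matrix.map_apply, ← map_mul, ← map_sum,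
    map_eq_zero] at this
  rw [hfM, this]
  rfl

end FLTAgent.Deformation
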