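import Mathlib
import Fermat.Prelude.Def_GaloisRep_DeformationCondition

/-!
# Coefficient algebras

A coefficient algebra over the local ring `𝒪` is a local `𝒪`-algebra with local structure map and
the same residue field. Its residue map is then the unique `𝒪`-algebra map to the residue field
of `𝒪`, which makes locality of algebra maps and functoriality of residual data automatic.
-/

set_option autoImplicit false
set_option linter.unusedSectionVars false

noncomputable section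

open IsLocalRing

namespace FLTAgent.Deformation

section Adic

variable {R : Type*} [CommRing R] {I : Ideal R}

theorem exists_adic_limit [IsPrecomplete I R] (f : ℕ → R)
    (hf : ∀ n, f (n + 1) - f n ∈ I ^ n) : ∃ L, ∀ n, L - f n ∈ I ^ n := by
  have hmn : ∀ {m n}, m ≤ n → f n - f m ∈ I ^ m := by
    intro m n h
    induction n, h using Nat.le_induction with
    | base => simp
    | succ n hn ih =>
      have : f (n + 1) - f m = (f (n + 1) - f n) + (f n - f m) := by ring
      rw [this]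
      exact Ideal.add_mem _ (Ideal.pow_le_pow_right hn (hf n)) ih
  obtain ⟨L, hL⟩ := IsPrecomplete.prec (I := I) ‹_› (f := f) (fun {m n} h => by
    rw [SModEq.sub_mem, smul_eq_mul, Ideal.mul_top, ← neg_sub]
    exact neg_mem (hmn h))
  refine ⟨L, fun n => ?_⟩
  have := hL n
  rw [SModEq.sub_mem, smul_eq_mul, Ideal.mul_top, ← neg_sub] at this
  exact neg_mem_iff.mp this

theorem eq_zero_of_forall_mem_pow [IsHausdorff I R] {x : R} (h : ∀ n, x ∈ I ^ n) : x = 0 :=
  IsHausdorff.haus (I := I) ‹_› x fun n => by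
    rw [SModEq.sub_mem, sub_zero, smul_eq_mul, Ideal.mul_top]
    exact h n

theorem isAdicComplete_of_pow_eq_bot {n : ℕ} (h : I ^ n = ⊥) : IsAdicComplete I R where
  haus' x hx := by
    have := hx n
    rwa [SModEq.sub_mem, sub_zero, smul_eq_mul, Ideal.mul_top, h, Ideal.mem_bot] at this
  prec' f hf := by
    refine ⟨f n, fun m => ?_⟩
    rcases le_total m n with hm | hm
    · exact hf hm
    · have := hf hm
      rw [SModEq.sub_mem, smul_eq_mul, Ideal.mul_top, h, Ideal.mem_bot, sub_eq_zero] at this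
      rw [this]

/-- An ideal contained in `J + I ^ 2` is contained in `J` when `I` is nilpotent. -/
theorem le_of_le_sup_sq {J : Ideal R} (hI : I ≤ J ⊔ I ^ 2) (n : ℕ) (hn : I ^ n = ⊥) : I ≤ J := by
  have : ∀ j, I ≤ J ⊔ I ^ (j + 1) := by
    intro j
    induction j with
    | zero => simp
    | succ j ih =>
      refine ih.trans (sup_le le_sup_left ?_)
      calc I ^ (j + 1) = I ^ j * I := pow_succ _ _
        _ ≤ I ^ j * (J ⊔ I ^ 2) := Ideal.mul_mono le_rfl hI
        _ = I ^ j * J ⊔ I ^ (j + 2) := by rw [Ideal.mul_sup, ← pow_add]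
        _ ≤ J ⊔ I ^ (j + 2) := sup_le_sup Ideal.mul_le_right le_rfl
  refine (this n).trans (sup_le le_rfl ?_)
  rw [pow_succ, hn, Ideal.bot_mul]
  exact bot_le

end Adic

variable {𝒪 : Type} [CommRing 𝒪] [IsLocalRing 𝒪]

/-- A local `𝒪`-algebra with local structure map and the same residue field as `𝒪`. -/
structure IsCoeff (𝒪 : Type) [CommRing 𝒪] [IsLocalRing 𝒪] (A : Type) [CommRing A] [IsLocalRing A]
    [Algebra 𝒪 A] : Prop where
  isLocalHom : IsLocalHom (algebraMap 𝒪 A)
  residue_surjective : Function.Surjective (residue A ∘ algebraMap 𝒪 A)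

theorem _root_.GaloisRep.IsArtinianTestAlgebra.isCoeff {A : Type} [CommRing A] [IsLocalRing A]
    [Algebra 𝒪 A] (h : GaloisRep.IsArtinianTestAlgebra 𝒪 A) : IsCoeff 𝒪 A :=
  ⟨h.isLocalHom, h.residue_surjective⟩

theorem isCoeff_residueField : IsCoeff 𝒪 (ResidueField 𝒪) := by
  refine ⟨IsLocalHom.of_surjective _ IsLocalRing.residue_surjective, fun x => ?_⟩
  obtain ⟨y, rfl⟩ := residue_surjective x
  obtain ⟨z, rfl⟩ := residue_surjective y
  exact ⟨z, rfl⟩

section

variable {A : Type} [CommRing A] [IsLocalRing A] [Algebra 𝒪 A]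
variable {B : Type} [CommRing B] [IsLocalRing B] [Algebra 𝒪 B]

/-- The identification of the residue fields. -/
def IsCoeff.resEquiv (hA : IsCoeff 𝒪 A) : ResidueField 𝒪 ≃+* ResidueField A :=
  have := hA.isLocalHom
  RingEquiv.ofBijective (ResidueField.map (algebraMap 𝒪 A))
    ⟨RingHom.injective _, fun x => by
      obtain ⟨y, rfl⟩ := hA.residue_surjective x
      exact ⟨residue 𝒪 y, rfl⟩⟩

theorem IsCoeff.resEquiv_residue (hA : IsCoeff 𝒪 A) (r : 𝒪) :
    hA.resEquiv (residue 𝒪 r) = residue A (algebraMap 𝒪 A r) := rfl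

/-- The residue map of a coefficient algebra, with values in the residue field of `𝒪`. -/
def IsCoeff.toK (hA : IsCoeff 𝒪 A) : A →ₐ[𝒪] ResidueField 𝒪 :=
  { hA.resEquiv.symm.toRingHom.comp (residue A) with
    commutes' := fun r => by
      show hA.resEquiv.symm (residue A (algebraMap 𝒪 A r)) = _
      rw [← hA.resEquiv_residue, RingEquiv.symm_apply_apply]
      rfl }

theorem IsCoeff.toK_eq_zero (hA : IsCoeff 𝒪 A) {x : A} :
    hA.toK x = 0 ↔ x ∈ maximalIdeal A := by
  show hA.resEquiv.symm (residue A x) = 0 ↔ _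
  rw [map_eq_zero, residue_eq_zero_iff]

theorem IsCoeff.isUnit_iff (hA : IsCoeff 𝒪 A) {x : A} : IsUnit x ↔ hA.toK x ≠ 0 := by
  rw [Ne, hA.toK_eq_zero, notMem_maximalIdeal]

theorem IsCoeff.resEquiv_toK (hA : IsCoeff 𝒪 A) (x : A) :
    hA.resEquiv (hA.toK x) = residue A x :=
  RingEquiv.apply_symm_apply _ _

theorem IsCoeff.toK_surjective (hA : IsCoeff 𝒪 A) : Function.Surjective hA.toK := fun x => by
  obtain ⟨r, rfl⟩ := IsLocalRing.residue_surjective x
  exact ⟨algebraMap 𝒪 A r, hA.toK.commutes r⟩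

theorem IsCoeff.algHom_eq_toK (hA : IsCoeff 𝒪 A) (f : A →ₐ[𝒪] ResidueField 𝒪) : f = hA.toK := by
  have hf : Function.Surjective f := fun x => by
    obtain ⟨r, rfl⟩ := IsLocalRing.residue_surjective x
    exact ⟨algebraMap 𝒪 A r, f.commutes r⟩
  have hker : RingHom.ker (f : A →+* ResidueField 𝒪) = maximalIdeal A :=
    IsLocalRing.eq_maximalIdeal (RingHom.ker_isMaximal_of_surjective _ hf)
  ext x
  obtain ⟨r, hr⟩ := hA.residue_surjective (residue A x)
  have hx : x - algebraMap 𝒪 A r ∈ maximalIdeal A := by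
    rw [← residue_eq_zero_iff, map_sub, sub_eq_zero]
    exact hr.symm
  have h1 : f (x - algebraMap 𝒪 A r) = 0 := RingHom.mem_ker.mp (hker.symm ▸ hx)
  have h2 : hA.toK (x - algebraMap 𝒪 A r) = 0 := hA.toK_eq_zero.mpr hx
  rw [map_sub, sub_eq_zero] at h1 h2
  rw [h1, h2, f.commutes, hA.toK.commutes]

theorem IsCoeff.toK_comp (hA : IsCoeff 𝒪 A) (hB : IsCoeff 𝒪 B) (f : A →ₐ[𝒪] B) :
    hB.toK.comp f = hA.toK :=
  hA.algHom_eq_toK _

theorem IsCoeff.toK_map (hA : IsCoeff 𝒪 A) (hB : IsCoeff 𝒪 B) (f : A →ₐ[𝒪] B) (x : A) :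
    hB.toK (f x) = hA.toK x :=
  DFunLike.congr_fun (hA.toK_comp hB f) x

theorem IsCoeff.isLocalHom_algHom (hA : IsCoeff 𝒪 A) (hB : IsCoeff 𝒪 B) (f : A →ₐ[𝒪] B) :
    IsLocalHom (f : A →+* B) :=
  ⟨fun x hx => by
    rw [hA.isUnit_iff, ← hA.toK_map hB f]
    exact hB.isUnit_iff.mp hx⟩

theorem IsCoeff.map_mem_maximalIdeal (hA : IsCoeff 𝒪 A) (hB : IsCoeff 𝒪 B) (f : A →ₐ[𝒪] B)
    {x : A} (hx : x ∈ maximalIdeal A) : f x ∈ maximalIdeal B := by
  rw [← hB.toK_eq_zero, hA.toK_map hB f]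
  exact hA.toK_eq_zero.mpr hx

theorem IsCoeff.map_mem_maximalIdeal_pow (hA : IsCoeff 𝒪 A) (hB : IsCoeff 𝒪 B) (f : A →ₐ[𝒪] B)
    {x : A} {n : ℕ} (hx : x ∈ maximalIdeal A ^ n) : f x ∈ maximalIdeal B ^ n := by
  have : (maximalIdeal A ^ n).map f ≤ maximalIdeal B ^ n := by
    rw [Ideal.map_pow]
    refine Ideal.pow_right_mono (Ideal.map_le_iff_le_comap.mpr ?_) n
    exact fun y hy => hA.map_mem_maximalIdeal hB f hy
  exact this (Ideal.mem_map_of_mem f hx)

theorem IsCoeff.finite_residueField (hA : IsCoeff 𝒪 A) [Finite (ResidueField 𝒪)] :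
    Finite (ResidueField A) :=
  Finite.of_equiv _ hA.resEquiv.toEquiv

theorem IsCoeff.isArtinianTestAlgebra (hA : IsCoeff 𝒪 A) [IsArtinianRing A] :
    GaloisRep.IsArtinianTestAlgebra 𝒪 A :=
  ⟨hA.isLocalHom, hA.residue_surjective, inferInstance⟩

/-- An Artinian test algebra is a finite ring when the residue field is finite. -/
theorem _root_.GaloisRep.IsArtinianTestAlgebra.finite (h : GaloisRep.IsArtinianTestAlgebra 𝒪 A)
    [Finite (ResidueField 𝒪)] : Finite A := by
  have := h.isArtinian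
  have := h.isCoeff.finite_residueField
  obtain ⟨n, hn⟩ := (isArtinianRing_iff_isNilpotent_maximalIdeal A).mp inferInstance
  have : Finite (A ⧸ (⊥ : Ideal A)) :=
    IsLocalRing.finite_quotient_iff.mpr ⟨n, le_of_eq hn⟩
  exact Finite.of_equiv _ (RingEquiv.quotientBot A).toEquiv

theorem _root_.GaloisRep.IsArtinianTestAlgebra.exists_pow_eq_bot
    (h : GaloisRep.IsArtinianTestAlgebra 𝒪 A) : ∃ n, maximalIdeal A ^ (n + 1) = ⊥ := by
  have := h.isArtinian
  obtain ⟨n, hn⟩ := (isArtinianRing_iff_isNilpotent_maximalIdeal A).mp inferInstance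
  exact ⟨n, by rw [pow_succ, hn]; exact Ideal.bot_mul _⟩

end

section Quotient

variable {A : Type} [CommRing A] [IsLocalRing A] [Algebra 𝒪 A]

theorem isLocalRing_quotient {I : Ideal A} (hI : I ≠ ⊤) : IsLocalRing (A ⧸ I) :=
  have : Nontrivial (A ⧸ I) := Ideal.Quotient.nontrivial_iff.mpr hI
  IsLocalRing.of_surjective' (Ideal.Quotient.mk I) Ideal.Quotient.mk_surjective

theorem IsCoeff.quotient (hA : IsCoeff 𝒪 A) (I : Ideal A) [IsLocalRing (A ⧸ I)] :
    IsCoeff 𝒪 (A ⧸ I) := by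
  have := hA.isLocalHom
  have : IsLocalHom (Ideal.Quotient.mk I) :=
    IsLocalHom.of_surjective _ Ideal.Quotient.mk_surjective
  refine ⟨RingHom.isLocalHom_comp (Ideal.Quotient.mk I) (algebraMap 𝒪 A), fun x => ?_⟩
  obtain ⟨y, rfl⟩ := IsLocalRing.residue_surjective x
  obtain ⟨z, rfl⟩ := Ideal.Quotient.mk_surjective y
  obtain ⟨r, hr⟩ := hA.residue_surjective (residue A z)
  refine ⟨r, ?_⟩
  have hz : algebraMap 𝒪 A r - z ∈ maximalIdeal A := by
    rw [← residue_eq_zero_iff, map_sub, sub_eq_zero]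
    exact hr
  show residue _ (Ideal.Quotient.mk I (algebraMap 𝒪 A r)) = _
  rw [← sub_eq_zero, ← map_sub, residue_eq_zero_iff, ← map_sub]
  exact map_nonunit _ _ hz

theorem maximalIdeal_quotient_eq {I : Ideal A} [IsLocalRing (A ⧸ I)] :
    maximalIdeal (A ⧸ I) = (maximalIdeal A).map (Ideal.Quotient.mk I) := by
  have h : I ≤ maximalIdeal A :=
    le_maximalIdeal (Ideal.Quotient.nontrivial_iff.mp inferInstance)
  have : ((maximalIdeal A).map (Ideal.Quotient.mk I)).IsMaximal :=
    Ideal.IsMaximal.map_of_surjective_of_ker_le Ideal.Quotient.mk_surjective (by simpa using h)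
  exact (IsLocalRing.eq_maximalIdeal this).symm

end Quotient

end FLTAgent.Deformation
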