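import Fermat.Agent.Deformation.PowerSeries

/-!
# Tangent space and generators

If a Noetherian coefficient algebra has at most `#k ^ r` maps to `k[ε]`, its maximal ideal is
generated by that of `𝒪` and `r` elements modulo its square; if it is complete it is then a
quotient of `𝒪⟦X₁,…,Xᵣ⟧`.
-/

set_option autoImplicit false
set_option linter.unusedSectionVars false

noncomputable section

open IsLocalRing

namespace FLTAgent.Deformation

variable (𝒪 : Type) [CommRing 𝒪] [IsLocalRing 𝒪]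

/-- The algebra structure on `k[ε]` used in the definition of the tangent space. -/
@[implicit_reducible]
def dualAlg : Algebra 𝒪 (DualNumber (ResidueField 𝒪)) :=
  ((algebraMap (ResidueField 𝒪) (DualNumber (ResidueField 𝒪))).comp
    (algebraMap 𝒪 (ResidueField 𝒪))).toAlgebra

attribute [local instance] dualAlg

variable {𝒪}

theorem dualAlg_algebraMap (r : 𝒪) :
    algebraMap 𝒪 (DualNumber (ResidueField 𝒪)) r = TrivSqZeroExt.inl (residue 𝒪 r) := rfl

theorem isCoeff_dual : IsCoeff 𝒪 (DualNumber (ResidueField 𝒪)) := by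
  refine ⟨⟨fun r hr => ?_⟩, fun x => ?_⟩
  · rw [dualAlg_algebraMap, TrivSqZeroExt.isUnit_iff_isUnit_fst, TrivSqZeroExt.fst_inl] at hr
    exact (IsLocalHom.of_surjective (residue 𝒪) IsLocalRing.residue_surjective).map_nonunit r hr
  · obtain ⟨y, rfl⟩ := IsLocalRing.residue_surjective x
    obtain ⟨r, hr⟩ := IsLocalRing.residue_surjective y.fst
    refine ⟨r, ?_⟩
    show residue _ (algebraMap 𝒪 _ r) = _
    rw [← sub_eq_zero, ← map_sub, residue_eq_zero_iff, IsLocalRing.mem_maximalIdeal,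
      mem_nonunits_iff, TrivSqZeroExt.isUnit_iff_isUnit_fst]
    simp [dualAlg_algebraMap, hr]

instance finite_dualNumber [Finite (ResidueField 𝒪)] : Finite (DualNumber (ResidueField 𝒪)) :=
  inferInstanceAs (Finite (ResidueField 𝒪 × ResidueField 𝒪))

theorem isArtinianTestAlgebra_dual [Finite (ResidueField 𝒪)] :
    GaloisRep.IsArtinianTestAlgebra 𝒪 (DualNumber (ResidueField 𝒪)) :=
  isCoeff_dual.isArtinianTestAlgebra

variable {A : Type} [CommRing A] [IsLocalRing A] [Algebra 𝒪 A]

theorem exists_tangent_generators [Finite (ResidueField 𝒪)] [IsNoetherianRing A]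
    (hA : IsCoeff 𝒪 A) (r : ℕ) [Finite (A →ₐ[𝒪] DualNumber (ResidueField 𝒪))]
    (hcard : Nat.card (A →ₐ[𝒪] DualNumber (ResidueField 𝒪)) ≤ Nat.card (ResidueField 𝒪) ^ r) :
    ∃ x : Fin r → A, (∀ i, x i ∈ maximalIdeal A) ∧
      maximalIdeal A ≤ (Ideal.span (Set.range x) ⊔ (maximalIdeal 𝒪).map (algebraMap 𝒪 A)) ⊔
        maximalIdeal A ^ 2 := by
  classical
  let W : Ideal A := (maximalIdeal 𝒪).map (algebraMap 𝒪 A) ⊔ maximalIdeal A ^ 2
  have hWm : W ≤ maximalIdeal A :=
    sup_le (((local_hom_TFAE (algebraMap 𝒪 A)).out 0 2).mp hA.isLocalHom)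
      (Ideal.pow_le_self two_ne_zero)
  let ι : ResidueField 𝒪 →+* A ⧸ W :=
    Ideal.Quotient.lift (maximalIdeal 𝒪) ((Ideal.Quotient.mk W).comp (algebraMap 𝒪 A)) fun a ha =>
      Ideal.Quotient.eq_zero_iff_mem.mpr (Ideal.mem_sup_left (Ideal.mem_map_of_mem _ ha))
  letI : Algebra (ResidueField 𝒪) (A ⧸ W) := ι.toAlgebra
  have hι : ∀ a : 𝒪, algebraMap (ResidueField 𝒪) (A ⧸ W) (residue 𝒪 a) =
      Ideal.Quotient.mk W (algebraMap 𝒪 A a) := fun a => rfl
  let mQ : Submodule (ResidueField 𝒪) (A ⧸ W) :=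
    ((maximalIdeal A).map (Ideal.Quotient.mk W)).restrictScalars (ResidueField 𝒪)
  have hmQ : ∀ {z : A}, z ∈ maximalIdeal A → Ideal.Quotient.mk W z ∈ mQ := fun hz =>
    Ideal.mem_map_of_mem _ hz
  have hscal : ∀ (c : A) {z : A}, z ∈ maximalIdeal A →
      Ideal.Quotient.mk W (c * z) = hA.toK c • Ideal.Quotient.mk W z := by
    intro c z hz
    obtain ⟨t, ht⟩ := IsLocalRing.residue_surjective (hA.toK c)
    rw [← ht, Algebra.smul_def, hι, ← map_mul, Ideal.Quotient.eq, ← sub_mul]
    refine Ideal.mem_sup_right ?_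
    rw [pow_two]
    refine Ideal.mul_mem_mul (hA.toK_eq_zero.mp ?_) hz
    rw [map_sub, AlgHom.commutes, ← ht]
    exact sub_self _
  haveI hfin : Module.Finite (ResidueField 𝒪) mQ := by
    obtain ⟨S, hS⟩ := IsNoetherian.noetherian (maximalIdeal A)
    let g : (S → ResidueField 𝒪) →ₗ[ResidueField 𝒪] mQ :=
      Fintype.linearCombination (ResidueField 𝒪) fun s : S =>
        (⟨Ideal.Quotient.mk W s, hmQ (hS ▸ Ideal.subset_span s.2)⟩ : mQ)
    refine Module.Finite.of_surjective g fun z => ?_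
    obtain ⟨a, ha, haz⟩ := (Ideal.mem_map_iff_of_surjective _ Ideal.Quotient.mk_surjective).mp z.2
    rw [← hS] at ha
    suffices ∃ v, (g v : A ⧸ W) = Ideal.Quotient.mk W a from
      this.imp fun v hv => Subtype.ext (hv.trans haz)
    refine Submodule.span_induction (p := fun a _ => ∃ v, (g v : A ⧸ W) = Ideal.Quotient.mk W a)
      ?_ ⟨0, by simp⟩ ?_ ?_ ha
    · intro s hs
      refine ⟨Pi.single ⟨s, hs⟩ 1, ?_⟩
      simp [g, Fintype.linearCombination_apply_single]
    · rintro a b - - ⟨u, hu⟩ ⟨v, hv⟩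
      exact ⟨u + v, by simp [hu, hv]⟩
    · rintro c a hspan ⟨v, hv⟩
      refine ⟨hA.toK c • v, ?_⟩
      rw [map_smul, Submodule.coe_smul, hv, smul_eq_mul, hscal c]
      rw [← hS]
      exact hspan
  choose sec hsec using (IsLocalRing.residue_surjective : Function.Surjective (residue 𝒪))
  let dlt : A → mQ := fun a =>
    ⟨Ideal.Quotient.mk W (a - algebraMap 𝒪 A (sec (hA.toK a))), hmQ (hA.toK_eq_zero.mp (by
      rw [map_sub, AlgHom.commutes]
      exact sub_eq_zero.mpr (hsec (hA.toK a)).symm))⟩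
  have hdlt : ∀ a, (dlt a : A ⧸ W) =
      Ideal.Quotient.mk W a - algebraMap (ResidueField 𝒪) (A ⧸ W) (hA.toK a) := by
    intro a
    show Ideal.Quotient.mk W _ = _
    rw [map_sub, ← hι, hsec]
  have hdlt_alg : ∀ a : 𝒪, dlt (algebraMap 𝒪 A a) = 0 := fun a => Subtype.ext <| by
    rw [hdlt, AlgHom.commutes, Submodule.coe_zero]
    exact sub_eq_zero.mpr (hι a).symm
  have hdlt_add : ∀ a b, dlt (a + b) = dlt a + dlt b := fun a b => Subtype.ext <| by
    rw [Submodule.coe_add, hdlt, hdlt, hdlt, map_add, map_add, map_add]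
    ring
  have hdlt_mul : ∀ a b, dlt (a * b) = hA.toK a • dlt b + hA.toK b • dlt a := fun a b =>
    Subtype.ext <| by
      have h0 : (dlt a : A ⧸ W) * (dlt b : A ⧸ W) = 0 := by
        obtain ⟨u, hu, hu'⟩ :=
          (Ideal.mem_map_iff_of_surjective _ Ideal.Quotient.mk_surjective).mp (dlt a).2
        obtain ⟨v, hv, hv'⟩ :=
          (Ideal.mem_map_iff_of_surjective _ Ideal.Quotient.mk_surjective).mp (dlt b).2
        rw [← hu', ← hv', ← map_mul, Ideal.Quotient.eq_zero_iff_mem]
        exact Ideal.mem_sup_right (pow_two (maximalIdeal A) ▸ Ideal.mul_mem_mul hu hv)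
      rw [hdlt a, hdlt b] at h0
      rw [Submodule.coe_add, Submodule.coe_smul, Submodule.coe_smul, Algebra.smul_def,
        Algebra.smul_def, hdlt, hdlt, hdlt, map_mul, map_mul, map_mul]
      linear_combination h0
  let F : Module.Dual (ResidueField 𝒪) mQ → (A →ₐ[𝒪] DualNumber (ResidueField 𝒪)) := fun φ =>
    { toFun := fun a => TrivSqZeroExt.inl (hA.toK a) + TrivSqZeroExt.inr (φ (dlt a))
      map_one' := by
        have : dlt 1 = 0 := by rw [← map_one (algebraMap 𝒪 A)]; exact hdlt_alg 1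
        simp [this]
      map_mul' := fun a b => by
        ext <;> simp [hdlt_mul, map_add, map_smul]
        ring
      map_zero' := by
        have : dlt 0 = 0 := by rw [← map_zero (algebraMap 𝒪 A)]; exact hdlt_alg 0
        simp [this]
      map_add' := fun a b => by
        ext <;> simp [hdlt_add]
      commutes' := fun a => by
        show TrivSqZeroExt.inl (hA.toK (algebraMap 𝒪 A a)) + _ = _
        rw [hdlt_alg, AlgHom.commutes, map_zero, TrivSqZeroExt.inr_zero, add_zero]
        rfl }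
  have hF : Function.Injective F := by
    intro φ ψ h
    refine LinearMap.ext fun z => ?_
    obtain ⟨a, ha, haz⟩ := (Ideal.mem_map_iff_of_surjective _ Ideal.Quotient.mk_surjective).mp z.2
    have h2 := congrArg TrivSqZeroExt.snd (DFunLike.congr_fun h a)
    have hz : dlt a = z := Subtype.ext <| by
      rw [hdlt, hA.toK_eq_zero.mpr ha, map_zero, sub_zero, haz]
    simpa [F, hz] using h2
  have hrank : Module.finrank (ResidueField 𝒪) mQ ≤ r := by
    haveI : Finite (Module.Dual (ResidueField 𝒪) mQ) := Finite.of_injective F hF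
    have h1 := (Nat.card_le_card_of_injective F hF).trans hcard
    rw [Module.natCard_eq_pow_finrank (K := ResidueField 𝒪), Subspace.dual_finrank_eq] at h1
    exact (Nat.pow_le_pow_iff_right Finite.one_lt_card).mp h1
  let b := Module.finBasis (ResidueField 𝒪) mQ
  have hlift : ∀ i, ∃ a ∈ maximalIdeal A, Ideal.Quotient.mk W a = (b i : A ⧸ W) := fun i =>
    (Ideal.mem_map_iff_of_surjective _ Ideal.Quotient.mk_surjective).mp (b i).2
  choose y hym hy using hlift
  refine ⟨fun i => if h : (i : ℕ) < Module.finrank (ResidueField 𝒪) mQ then y ⟨i, h⟩ else 0,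
    fun i => ?_, fun a ha => ?_⟩
  · dsimp only
    split_ifs
    · exact hym _
    · exact zero_mem _
  · set x : Fin r → A :=
      fun i => if h : (i : ℕ) < Module.finrank (ResidueField 𝒪) mQ then y ⟨i, h⟩ else 0
    let K : Submodule (ResidueField 𝒪) (A ⧸ W) :=
      ((Ideal.span (Set.range x)).map (Ideal.Quotient.mk W)).restrictScalars (ResidueField 𝒪)
    have hK : (⊤ : Submodule (ResidueField 𝒪) mQ) ≤ K.comap mQ.subtype := by
      rw [← b.span_eq, Submodule.span_le]
      rintro _ ⟨i, rfl⟩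
      show (b i : A ⧸ W) ∈ (Ideal.span (Set.range x)).map (Ideal.Quotient.mk W)
      rw [← hy i]
      refine Ideal.mem_map_of_mem _ (Ideal.subset_span ⟨⟨i, lt_of_lt_of_le i.2 hrank⟩, ?_⟩)
      simp [x]
    have h1 : Ideal.Quotient.mk W a ∈ (Ideal.span (Set.range x)).map (Ideal.Quotient.mk W) :=
      hK (show (⟨Ideal.Quotient.mk W a, hmQ ha⟩ : mQ) ∈ ⊤ from trivial)
    rw [Ideal.mem_quotient_iff_mem_sup, ← sup_assoc] at h1
    exact h1

/-- A complete Noetherian coefficient algebra with at most `#k ^ r` maps to `k[ε]` is a quotient of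
`𝒪⟦X₁,…,Xᵣ⟧`. -/
theorem exists_powerSeries_surjective_of_card_algHom_le [Finite (ResidueField 𝒪)]
    [IsAdicComplete (maximalIdeal 𝒪) 𝒪] [IsNoetherianRing A] [IsAdicComplete (maximalIdeal A) A]
    (hA : IsCoeff 𝒪 A) (r : ℕ) [Finite (A →ₐ[𝒪] DualNumber (ResidueField 𝒪))]
    (hcard : Nat.card (A →ₐ[𝒪] DualNumber (ResidueField 𝒪)) ≤ Nat.card (ResidueField 𝒪) ^ r) :
    ∃ γ : MvPowerSeries (Fin r) 𝒪 →ₐ[𝒪] A, Function.Surjective γ := by
  obtain ⟨x, hx, hgen⟩ := exists_tangent_generators hA r hcard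
  refine ⟨psEval x hx, powerSeries_surjective hA.residue_surjective _ ?_⟩
  refine le_antisymm (Ideal.map_le_iff_le_comap.mpr fun f hf => ?_) ?_
  · exact isCoeff_powerSeries.map_mem_maximalIdeal hA _ hf
  · refine Submodule.le_of_le_smul_of_le_jacobson_bot (I := maximalIdeal A)
      (IsNoetherian.noetherian _) (jacobson_eq_maximalIdeal ⊥ bot_ne_top).ge ?_
    rw [smul_eq_mul, ← pow_two]
    refine hgen.trans (sup_le_sup (sup_le ?_ ?_) le_rfl)
    · rw [Ideal.span_le]
      rintro _ ⟨i, rfl⟩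
      rw [SetLike.mem_coe, ← psEval_X (𝒪 := 𝒪) x hx i]
      exact Ideal.mem_map_of_mem _ (span_X_le_maximalIdeal (Ideal.subset_span ⟨i, rfl⟩))
    · rw [Ideal.map_le_iff_le_comap]
      intro a ha
      rw [Ideal.mem_comap, ← (psEval x hx).commutes a]
      refine Ideal.mem_map_of_mem _ (mem_maximalIdeal_powerSeries.mpr ?_)
      rwa [constantCoeff_algebraMap]

end FLTAgent.Deformation
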