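import Fermat.Agent.Deformation.Normal
import Fermat.Agent.Deformation.Tangent

/-!
# Deformation ideals

The ideals of the polynomial ring in the matrix entries which cut out an Artinian normalised
deformation satisfying the condition, their stability under intersection, and the bound on their
quotients which comes from the finiteness of the tangent space.
-/

set_option autoImplicit false
set_option linter.unusedSectionVars false

noncomputable section

open IsLocalRing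

namespace FLTAgent.Deformation

/-- The indices of the matrix entries. -/
abbrev Entry : Type := Gal × Fin 2 × Fin 2

/-- Polynomials in the matrix entries. -/
abbrev EntryRing (𝒪 : Type) [CommRing 𝒪] : Type := MvPolynomial Entry 𝒪

variable {𝒪 : Type} [CommRing 𝒪]

/-- Evaluation of the matrix entries. -/
def evalRep {A : Type} [CommRing A] [Algebra 𝒪 A] (N : Gal → Mat A) : EntryRing 𝒪 →ₐ[𝒪] A :=
  MvPolynomial.aeval fun v : Entry => N v.1 v.2.1 v.2.2

theorem evalRep_X {A : Type} [CommRing A] [Algebra 𝒪 A] (N : Gal → Mat A) (σ : Gal) (i j : Fin 2) :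
    evalRep (𝒪 := 𝒪) N (MvPolynomial.X (σ, i, j)) = N σ i j :=
  MvPolynomial.aeval_X _ _

/-- The tautological matrices modulo an ideal. -/
def tautMat (I : Ideal (EntryRing 𝒪)) (σ : Gal) : Mat (EntryRing 𝒪 ⧸ I) :=
  Matrix.of fun i j => Ideal.Quotient.mk I (MvPolynomial.X (σ, i, j))

theorem comp_evalRep {A B : Type} [CommRing A] [Algebra 𝒪 A] [CommRing B] [Algebra 𝒪 B]
    (f : A →ₐ[𝒪] B) (N : Gal →* Mat A) :
    f.comp (evalRep N) = evalRep (mapRep (f : A →+* B) N) :=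
  MvPolynomial.algHom_ext fun v => by
    rw [AlgHom.comp_apply, evalRep_X, evalRep_X]
    rfl

theorem evalRep_tautMat (I : Ideal (EntryRing 𝒪)) :
    evalRep (tautMat I) = Ideal.Quotient.mkₐ 𝒪 I :=
  MvPolynomial.algHom_ext fun v => by rw [evalRep_X]; rfl

theorem algHom_ext_of_evalRep {A : Type} [CommRing A] [Algebra 𝒪 A] {B : Type} [CommRing B]
    [Algebra 𝒪 B] {N : Gal → Mat A} (hN : Function.Surjective (evalRep (𝒪 := 𝒪) N))
    {f g : A →ₐ[𝒪] B} (h : ∀ σ i j, f (N σ i j) = g (N σ i j)) : f = g := by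
  have he : f.comp (evalRep N) = g.comp (evalRep N) :=
    MvPolynomial.algHom_ext fun v => by
      rw [AlgHom.comp_apply, AlgHom.comp_apply, evalRep_X]
      exact h _ _ _
  ext x
  obtain ⟨p, rfl⟩ := hN x
  exact DFunLike.congr_fun he p

variable [IsLocalRing 𝒪]

/-- A finite `𝒪`-algebra with a map to `k` whose nonvanishing makes an element regular is a
coefficient algebra. -/
theorem isLocalRing_of_finite {R : Type} [CommRing R] [Algebra 𝒪 R] [Finite R]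
    (χ : R →ₐ[𝒪] ResidueField 𝒪) (h : ∀ x, χ x ≠ 0 → ∀ y, x * y = 0 → y = 0) :
    ∃ _ : IsLocalRing R, GaloisRep.IsArtinianTestAlgebra 𝒪 R := by
  have hunit : ∀ x, χ x ≠ 0 → IsUnit x := fun x hx => by
    have hinj : Function.Injective (x * ·) := fun y z hyz =>
      sub_eq_zero.mp (h x hx _ (by rw [mul_sub]; exact sub_eq_zero.mpr hyz))
    obtain ⟨y, hy⟩ := (Finite.injective_iff_surjective.mp hinj) 1
    exact IsUnit.of_mul_eq_one y hy
  have : Nontrivial R := ⟨0, 1, fun h01 => zero_ne_one (α := ResidueField 𝒪)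
    (((map_zero χ).symm.trans (congrArg χ h01)).trans (map_one χ))⟩
  have hloc : IsLocalRing R := IsLocalRing.of_isUnit_or_isUnit_one_sub_self fun x => by
    by_cases hx : χ x = 0
    · exact Or.inr (hunit _ (by rw [map_sub, map_one, hx, sub_zero]; exact one_ne_zero))
    · exact Or.inl (hunit _ hx)
  refine ⟨hloc, ⟨fun r hr => ?_⟩, fun z => ?_, inferInstance⟩
  · have := hr.map χ
    rw [AlgHom.commutes] at this
    exact (IsLocalHom.of_surjective (residue 𝒪) IsLocalRing.residue_surjective).map_nonunit r this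
  · obtain ⟨x, rfl⟩ := IsLocalRing.residue_surjective z
    obtain ⟨r, hr⟩ := IsLocalRing.residue_surjective (χ x)
    refine ⟨r, ?_⟩
    show residue R (algebraMap 𝒪 R r) = _
    rw [← sub_eq_zero, ← map_sub, residue_eq_zero_iff, IsLocalRing.mem_maximalIdeal, mem_nonunits_iff]
    intro hu
    have := hu.map χ
    rw [map_sub, AlgHom.commutes, ← hr] at this
    rw [show algebraMap 𝒪 (ResidueField 𝒪) r - residue 𝒪 r = 0 from sub_self _] at this
    exact not_isUnit_zero this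

theorem isCoeff_of_surjective {A B : Type} [CommRing A] [IsLocalRing A] [Algebra 𝒪 A] [CommRing B]
    [IsLocalRing B] [Algebra 𝒪 B] (hA : IsCoeff 𝒪 A) (f : A →ₐ[𝒪] B)
    (hf : Function.Surjective f) : IsCoeff 𝒪 B := by
  have : IsLocalHom (f : A →+* B) := IsLocalHom.of_surjective _ hf
  refine ⟨⟨fun r hr => ?_⟩, fun z => ?_⟩
  · rw [← f.commutes] at hr
    exact hA.isLocalHom.map_nonunit r ((‹IsLocalHom (f : A →+* B)›).map_nonunit _ hr)
  · obtain ⟨y, rfl⟩ := IsLocalRing.residue_surjective z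
    obtain ⟨x, rfl⟩ := hf y
    obtain ⟨r, hr⟩ := hA.residue_surjective (residue A x)
    refine ⟨r, ?_⟩
    have hx : algebraMap 𝒪 A r - x ∈ maximalIdeal A := by
      rw [← residue_eq_zero_iff, map_sub, sub_eq_zero]
      exact hr
    show residue B (algebraMap 𝒪 B r) = _
    rw [← sub_eq_zero, ← map_sub, residue_eq_zero_iff, ← f.commutes, ← map_sub]
    exact map_nonunit (f : A →+* B) _ hx

theorem toK_residueField (h : IsCoeff 𝒪 (ResidueField 𝒪)) :
    h.toK = AlgHom.id 𝒪 (ResidueField 𝒪) :=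
  (h.algHom_eq_toK _).symm

variable {𝒟 : ∀ ⦃A : Type⦄ [CommRing A] [IsLocalRing A] [Algebra 𝒪 A], GaloisRepAdic A → Prop}

section Condition

variable {A B : Type} [CommRing A] [IsLocalRing A] [Algebra 𝒪 A] [CommRing B] [IsLocalRing B]
  [Algebra 𝒪 B]

theorem cond_mapRep (h𝒟 : GaloisRep.IsDeformationCondition 𝒪 𝒟)
    (hA : GaloisRep.IsArtinianTestAlgebra 𝒪 A) (hB : GaloisRep.IsArtinianTestAlgebra 𝒪 B)
    (f : A →ₐ[𝒪] B) {N : Gal →* Mat A} {hN : MatCont N} (hD : 𝒟 (matRep N hN))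
    (hN' : MatCont (mapRep (f : A →+* B) N)) : 𝒟 (matRep (mapRep (f : A →+* B) N) hN') :=
  h𝒟.of_isEquiv hB (matRep_baseChangeAlong _ _ N hN)
    (h𝒟.baseChangeAlong hA hB f (hA.isCoeff.isLocalHom_algHom hB.isCoeff f) hD)

theorem cond_of_mapRep (h𝒟 : GaloisRep.IsDeformationCondition 𝒪 𝒟)
    (hA : GaloisRep.IsArtinianTestAlgebra 𝒪 A) (hB : GaloisRep.IsArtinianTestAlgebra 𝒪 B)
    (f : A →ₐ[𝒪] B) (hf : Function.Injective f) {N : Gal →* Mat A} (hN : MatCont N)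
    {hN' : MatCont (mapRep (f : A →+* B) N)} (hD : 𝒟 (matRep (mapRep (f : A →+* B) N) hN')) :
    𝒟 (matRep N hN) :=
  h𝒟.of_baseChangeAlong_injective hA hB f (hA.isCoeff.isLocalHom_algHom hB.isCoeff f) hf
    (h𝒟.of_isEquiv hB (isEquiv_baseChangeAlong_matRep _ _ N hN) hD)

theorem cond_congr (h𝒟 : GaloisRep.IsDeformationCondition 𝒪 𝒟)
    (hA : GaloisRep.IsArtinianTestAlgebra 𝒪 A) {N N' : Gal →* Mat A} (h : N = N')
    {hN : MatCont N} {hN' : MatCont N'} (hD : 𝒟 (matRep N hN)) : 𝒟 (matRep N' hN') :=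
  h𝒟.of_isEquiv hA (matRep_congr hN hN' h) hD

end Condition

variable {ρbar : ResidualGaloisRep (ResidueField 𝒪)} (F : Frame ρbar)

variable (ρbar) in
/-- Evaluation at the residual matrices. -/
def barEval : EntryRing 𝒪 →ₐ[𝒪] ResidueField 𝒪 := evalRep (barMatrix ρbar)

variable (ρbar) in
/-- The kernel of the evaluation at the residual matrices. -/
def barIdeal : Ideal (EntryRing 𝒪) := RingHom.ker (barEval ρbar)

theorem toK_evalRep {A : Type} [CommRing A] [IsLocalRing A] [Algebra 𝒪 A] {hA : IsCoeff 𝒪 A}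
    {N : Gal →* Mat A} (hl : IsLift ρbar hA N) : hA.toK.comp (evalRep N) = barEval ρbar := by
  rw [comp_evalRep, show mapRep (hA.toK : A →+* ResidueField 𝒪) N = barMatrix ρbar from hl]
  rfl

variable (𝒟) in
/-- The ideals cutting out an Artinian normalised deformation satisfying `𝒟`. -/
def IsDefIdeal (I : Ideal (EntryRing 𝒪)) : Prop :=
  ∃ (_ : IsLocalRing (EntryRing 𝒪 ⧸ I))
    (ht : GaloisRep.IsArtinianTestAlgebra 𝒪 (EntryRing 𝒪 ⧸ I))
    (N : Gal →* Mat (EntryRing 𝒪 ⧸ I)) (hN : MatCont N),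
    (⇑N = tautMat I) ∧ IsLift ρbar ht.isCoeff N ∧ F.IsNormal N ∧ 𝒟 (matRep N hN)

variable {F}

theorem IsDefIdeal.toK_mk {I : Ideal (EntryRing 𝒪)} [IsLocalRing (EntryRing 𝒪 ⧸ I)]
    (hI : IsDefIdeal 𝒟 F I) (hc : IsCoeff 𝒪 (EntryRing 𝒪 ⧸ I)) (p : EntryRing 𝒪) :
    hc.toK (Ideal.Quotient.mk I p) = barEval ρbar p := by
  obtain ⟨_, ht, N, hN, heq, hl, -, -⟩ := hI
  have h := DFunLike.congr_fun (toK_evalRep hl) p
  rw [AlgHom.comp_apply, heq, evalRep_tautMat] at h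
  exact h

theorem IsDefIdeal.le_barIdeal {I : Ideal (EntryRing 𝒪)} (hI : IsDefIdeal 𝒟 F I) :
    I ≤ barIdeal ρbar := fun p hp => by
  obtain ⟨_, ht, -⟩ := id hI
  rw [barIdeal, RingHom.mem_ker, ← hI.toK_mk ht.isCoeff p,
    Ideal.Quotient.eq_zero_iff_mem.mpr hp, map_zero]

theorem IsDefIdeal.maximalIdeal_eq {I : Ideal (EntryRing 𝒪)} [IsLocalRing (EntryRing 𝒪 ⧸ I)]
    (hI : IsDefIdeal 𝒟 F I) :
    maximalIdeal (EntryRing 𝒪 ⧸ I) = (barIdeal ρbar).map (Ideal.Quotient.mk I) := by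
  obtain ⟨_, ht, -⟩ := id hI
  ext x
  obtain ⟨p, rfl⟩ := Ideal.Quotient.mk_surjective x
  rw [← ht.isCoeff.toK_eq_zero, hI.toK_mk, Ideal.mem_quotient_iff_mem_sup,
    sup_eq_left.mpr hI.le_barIdeal]
  rfl

/-- The kernel of evaluation at an Artinian normalised deformation is a deformation ideal. -/
theorem isDefIdeal_ker [Finite (ResidueField 𝒪)] (h𝒟 : GaloisRep.IsDeformationCondition 𝒪 𝒟)
    {A : Type} [CommRing A] [IsLocalRing A] [Algebra 𝒪 A]
    (hA : GaloisRep.IsArtinianTestAlgebra 𝒪 A) (N : Gal →* Mat A) (hN : MatCont N)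
    (hl : IsLift ρbar hA.isCoeff N) (hn : F.IsNormal N) (hD : 𝒟 (matRep N hN)) :
    IsDefIdeal 𝒟 F (RingHom.ker (evalRep (𝒪 := 𝒪) N)) := by
  set I := RingHom.ker (evalRep (𝒪 := 𝒪) N)
  have := hA.finite
  let ψ : EntryRing 𝒪 ⧸ I →ₐ[𝒪] A := Ideal.kerLiftAlg (evalRep N)
  have hψ : Function.Injective ψ := Ideal.kerLiftAlg_injective _
  have : Finite (EntryRing 𝒪 ⧸ I) := Finite.of_injective ψ hψ
  obtain ⟨hloc, ht⟩ := isLocalRing_of_finite (hA.isCoeff.toK.comp ψ) fun x hx y hxy => by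
    have hu : IsUnit (ψ x) := hA.isCoeff.isUnit_iff.mpr hx
    exact hψ (hu.mul_left_cancel (by simp only [← map_mul, hxy, mul_zero, map_zero]))
  have hmap : ∀ σ, (tautMat I σ).map ψ = N σ := fun σ => Matrix.ext fun i j => evalRep_X N σ i j
  have hinj : Function.Injective fun M : Mat (EntryRing 𝒪 ⧸ I) => M.map ψ :=
    fun M M' h => Matrix.ext fun i j => hψ (congrFun (congrFun h i) j)
  let T : Gal →* Mat (EntryRing 𝒪 ⧸ I) :=
    { toFun := tautMat I
      map_one' := hinj (by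
        show (tautMat I 1).map ψ = (1 : Mat _).map ψ
        rw [hmap, map_one, Matrix.map_one ψ (map_zero ψ) (map_one ψ)])
      map_mul' := fun σ τ => hinj (by
        show (tautMat I (σ * τ)).map ψ = (tautMat I σ * tautMat I τ).map ψ
        rw [hmap, map_mul, Matrix.map_mul, hmap, hmap]) }
  have hT : mapRep (ψ : EntryRing 𝒪 ⧸ I →+* A) T = N := MonoidHom.ext hmap
  obtain ⟨n, hn0⟩ := hA.exists_pow_eq_bot
  obtain ⟨L, hL, hL1⟩ := hN.exists_eq_one hn0
  have hTc : MatCont T := MatCont.of_eventually_one L fun σ hσ => hinj (by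
    show (tautMat I σ).map ψ = (1 : Mat _).map ψ
    rw [hmap, hL1 σ hσ, Matrix.map_one ψ (map_zero ψ) (map_one ψ)])
  refine ⟨hloc, ht, T, hTc, rfl, ?_, F.isNormal_of_map ψ hψ (hT.symm ▸ hn), ?_⟩
  · rw [IsLift, ← show (hA.isCoeff.toK : A →+* ResidueField 𝒪).comp
      (ψ : EntryRing 𝒪 ⧸ I →+* A) = (ht.isCoeff.toK : _ →+* ResidueField 𝒪) from
      RingHom.ext (ht.isCoeff.toK_map hA.isCoeff ψ), ← mapRep_mapRep, hT]
    exact hl
  · exact cond_of_mapRep h𝒟 ht hA ψ hψ hTc (hN' := hTc.map _ (ht.isCoeff.isLocalHom_algHom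
      hA.isCoeff ψ)) (cond_congr h𝒟 hA hT.symm hD)

/-- The residual representation gives a deformation ideal. -/
theorem isDefIdeal_barIdeal [Finite (ResidueField 𝒪)] (h𝒟 : GaloisRep.IsDeformationCondition 𝒪 𝒟)
    (hbar : 𝒟 (GaloisRepAdic.ofResidualGaloisRep ρbar)) :
    IsDefIdeal 𝒟 F (barIdeal ρbar) := by
  have hk : GaloisRep.IsArtinianTestAlgebra 𝒪 (ResidueField 𝒪) :=
    isCoeff_residueField.isArtinianTestAlgebra
  have hN : MatCont (barMatrix ρbar) :=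
    matCont_repMatrix (GaloisRepAdic.ofResidualGaloisRep ρbar) (residualBasis ρbar)
  have hl : IsLift ρbar hk.isCoeff (barMatrix ρbar) := by
    rw [IsLift, toK_residueField]
    rfl
  have hX : ∀ (c : Gal → 𝒪), ∑ σ ∈ F.s, c σ • barMatrix ρbar σ =
      ∑ σ ∈ F.s, residue 𝒪 (c σ) • barMatrix ρbar σ := fun c =>
    Finset.sum_congr rfl fun σ _ => by
      rw [← IsScalarTower.algebraMap_smul (ResidueField 𝒪) (c σ)]; rfl
  refine isDefIdeal_ker h𝒟 hk (barMatrix ρbar) hN hl ⟨?_, ?_, ?_⟩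
    (h𝒟.of_isEquiv hk (isEquiv_matRep (GaloisRepAdic.ofResidualGaloisRep ρbar)
      (residualBasis ρbar)) hbar)
  · rw [Frame.X, hX, F.hc]; rfl
  · rw [Frame.Y, hX, F.hd]; rfl
  · rw [Frame.Y, hX, F.hd]; rfl

/-- Reducing a deformation modulo a power of the maximal ideal. -/
theorem isDefIdeal_ker_mk [Finite (ResidueField 𝒪)] (h𝒟 : GaloisRep.IsDeformationCondition 𝒪 𝒟)
    {A : Type} [CommRing A] [IsLocalRing A] [Algebra 𝒪 A]
    (ht : GaloisRep.IsArtinianTestAlgebra 𝒪 A) (N : Gal →* Mat A) (hN : MatCont N)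
    (hl : IsLift ρbar ht.isCoeff N) (hn : F.IsNormal N) (hD : 𝒟 (matRep N hN)) (K : Ideal A)
    [IsLocalRing (A ⧸ K)] :
    IsDefIdeal 𝒟 F (RingHom.ker ((Ideal.Quotient.mkₐ 𝒪 K).comp (evalRep (𝒪 := 𝒪) N))) := by
  have := ht.isArtinian
  have hB : GaloisRep.IsArtinianTestAlgebra 𝒪 (A ⧸ K) :=
    (ht.isCoeff.quotient K).isArtinianTestAlgebra
  have hq := hN.map _ (ht.isCoeff.isLocalHom_algHom hB.isCoeff (Ideal.Quotient.mkₐ 𝒪 K))
  rw [comp_evalRep]
  exact isDefIdeal_ker h𝒟 hB _ hq (hl.map hB.isCoeff _) (F.isNormal_map hn _)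
    (cond_mapRep h𝒟 ht hB _ hD hq)

/-- Reducing modulo a power of the maximal ideal. -/
theorem IsDefIdeal.sup_pow [Finite (ResidueField 𝒪)] (h𝒟 : GaloisRep.IsDeformationCondition 𝒪 𝒟)
    {I : Ideal (EntryRing 𝒪)} (hI : IsDefIdeal 𝒟 F I) (n : ℕ) :
    IsDefIdeal 𝒟 F (I ⊔ barIdeal ρbar ^ (n + 1)) := by
  obtain ⟨_, ht, N, hN, heq, hl, hn, hD⟩ := id hI
  have : IsLocalRing ((EntryRing 𝒪 ⧸ I) ⧸ maximalIdeal (EntryRing 𝒪 ⧸ I) ^ (n + 1)) :=
    isLocalRing_quotient (fun h => (maximalIdeal.isMaximal _).ne_top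
      (top_le_iff.mp (h ▸ Ideal.pow_le_self (Nat.succ_ne_zero n))))
  have := isDefIdeal_ker_mk h𝒟 ht N hN hl hn hD (maximalIdeal (EntryRing 𝒪 ⧸ I) ^ (n + 1))
  convert this using 1
  rw [show evalRep (𝒪 := 𝒪) N = Ideal.Quotient.mkₐ 𝒪 I from heq.symm ▸ evalRep_tautMat I]
  ext p
  rw [RingHom.mem_ker, AlgHom.comp_apply]
  show p ∈ _ ↔ Ideal.Quotient.mk _ (Ideal.Quotient.mk I p) = 0
  rw [Ideal.Quotient.eq_zero_iff_mem, hI.maximalIdeal_eq, ← Ideal.map_pow,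
    Ideal.mem_quotient_iff_mem_sup, sup_comm]

/-- Deformation ideals are stable under intersection. -/
theorem IsDefIdeal.inf [Finite (ResidueField 𝒪)] (h𝒟 : GaloisRep.IsDeformationCondition 𝒪 𝒟)
    {I J : Ideal (EntryRing 𝒪)} (hI : IsDefIdeal 𝒟 F I) (hJ : IsDefIdeal 𝒟 F J) :
    IsDefIdeal 𝒟 F (I ⊓ J) := by
  obtain ⟨hlocI, htI, NI, hNI, heqI, hlI, hnI, hDI⟩ := id hI
  obtain ⟨hlocJ, htJ, NJ, hNJ, heqJ, hlJ, hnJ, hDJ⟩ := id hJ
  have := htI.finite
  have := htJ.finite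
  let pI : EntryRing 𝒪 ⧸ (I ⊓ J) →ₐ[𝒪] EntryRing 𝒪 ⧸ I := Ideal.Quotient.factorₐ 𝒪 inf_le_left
  let pJ : EntryRing 𝒪 ⧸ (I ⊓ J) →ₐ[𝒪] EntryRing 𝒪 ⧸ J := Ideal.Quotient.factorₐ 𝒪 inf_le_right
  have hinj : Function.Injective fun x => (pI x, pJ x) := by
    intro x y h
    obtain ⟨a, rfl⟩ := Ideal.Quotient.mk_surjective x
    obtain ⟨b, rfl⟩ := Ideal.Quotient.mk_surjective y
    exact Ideal.Quotient.eq.mpr ⟨Ideal.Quotient.eq.mp (congrArg Prod.fst h),
      Ideal.Quotient.eq.mp (congrArg Prod.snd h)⟩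
  have : Finite (EntryRing 𝒪 ⧸ (I ⊓ J)) := Finite.of_injective _ hinj
  have hcomp : htI.isCoeff.toK.comp pI = htJ.isCoeff.toK.comp pJ := AlgHom.ext fun x => by
    obtain ⟨a, rfl⟩ := Ideal.Quotient.mk_surjective x
    exact (hI.toK_mk htI.isCoeff a).trans (hJ.toK_mk htJ.isCoeff a).symm
  obtain ⟨hlocP, htP⟩ := isLocalRing_of_finite (htI.isCoeff.toK.comp pI) fun x hx y hxy => by
    have h1 : IsUnit (pI x) := htI.isCoeff.isUnit_iff.mpr hx
    have h2 : IsUnit (pJ x) := htJ.isCoeff.isUnit_iff.mpr (by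
      rw [← AlgHom.comp_apply, ← hcomp]; exact hx)
    refine hinj (Prod.ext (h1.mul_left_cancel ?_) (h2.mul_left_cancel ?_)) <;>
      simp only [← map_mul, hxy, map_zero, mul_zero]
  let fI : EntryRing 𝒪 ⧸ I →ₐ[𝒪] EntryRing 𝒪 ⧸ (I ⊔ J) := Ideal.Quotient.factorₐ 𝒪 le_sup_left
  let fJ : EntryRing 𝒪 ⧸ J →ₐ[𝒪] EntryRing 𝒪 ⧸ (I ⊔ J) := Ideal.Quotient.factorₐ 𝒪 le_sup_right
  have hfI : Function.Surjective fI := Ideal.Quotient.factor_surjective le_sup_left
  have : Nontrivial (EntryRing 𝒪 ⧸ (I ⊔ J)) := Ideal.Quotient.nontrivial_iff.mpr fun h =>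
    RingHom.ker_ne_top _ (top_le_iff.mp (h ▸ sup_le hI.le_barIdeal hJ.le_barIdeal) :
      barIdeal ρbar = ⊤)
  have : IsLocalRing (EntryRing 𝒪 ⧸ (I ⊔ J)) := IsLocalRing.of_surjective' fI.toRingHom hfI
  have : Finite (EntryRing 𝒪 ⧸ (I ⊔ J)) := Finite.of_surjective fI hfI
  have htC := (isCoeff_of_surjective htI.isCoeff fI hfI).isArtinianTestAlgebra
  have hmI : ∀ σ, (tautMat (I ⊓ J) σ).map pI = NI σ := fun σ => by rw [heqI]; rfl
  have hmJ : ∀ σ, (tautMat (I ⊓ J) σ).map pJ = NJ σ := fun σ => by rw [heqJ]; rfl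
  have hext : ∀ M M' : Mat (EntryRing 𝒪 ⧸ (I ⊓ J)), M.map pI = M'.map pI → M.map pJ = M'.map pJ →
      M = M' := fun M M' h h' => Matrix.ext fun i j =>
    hinj (Prod.ext (congrFun (congrFun h i) j) (congrFun (congrFun h' i) j))
  let N : Gal →* Mat (EntryRing 𝒪 ⧸ (I ⊓ J)) :=
    { toFun := tautMat (I ⊓ J)
      map_one' := hext _ _
        (by rw [hmI, map_one, Matrix.map_one pI (map_zero pI) (map_one pI)])
        (by rw [hmJ, map_one, Matrix.map_one pJ (map_zero pJ) (map_one pJ)])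
      map_mul' := fun σ τ => hext _ _ (by rw [hmI, map_mul, Matrix.map_mul, hmI, hmI])
        (by rw [hmJ, map_mul, Matrix.map_mul, hmJ, hmJ]) }
  have hNIeq : mapRep (pI : _ →+* EntryRing 𝒪 ⧸ I) N = NI := MonoidHom.ext hmI
  have hNJeq : mapRep (pJ : _ →+* EntryRing 𝒪 ⧸ J) N = NJ := MonoidHom.ext hmJ
  obtain ⟨n₁, hn₁⟩ := htI.exists_pow_eq_bot
  obtain ⟨n₂, hn₂⟩ := htJ.exists_pow_eq_bot
  obtain ⟨L₁, hL₁, hone₁⟩ := hNI.exists_eq_one hn₁
  obtain ⟨L₂, hL₂, hone₂⟩ := hNJ.exists_eq_one hn₂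
  have hNc : MatCont N := MatCont.of_eventually_one (L₁ ⊔ L₂) fun σ hσ => hext _ _
    (by show (tautMat _ σ).map pI = _
        rw [hmI, hone₁ σ fun x hx => hσ x (le_sup_left (α := IntermediateField ℚ _) hx),
          Matrix.map_one pI (map_zero pI) (map_one pI)])
    (by show (tautMat _ σ).map pJ = _
        rw [hmJ, hone₂ σ fun x hx => hσ x (le_sup_right (α := IntermediateField ℚ _) hx),
          Matrix.map_one pJ (map_zero pJ) (map_one pJ)])
  refine ⟨hlocP, htP, N, hNc, rfl, ?_, ?_, ?_⟩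
  · rw [IsLift, ← show (htI.isCoeff.toK : EntryRing 𝒪 ⧸ I →+* ResidueField 𝒪).comp
      (pI : EntryRing 𝒪 ⧸ (I ⊓ J) →+* EntryRing 𝒪 ⧸ I) =
        (htP.isCoeff.toK : EntryRing 𝒪 ⧸ (I ⊓ J) →+* ResidueField 𝒪) from
      RingHom.ext (htP.isCoeff.toK_map htI.isCoeff pI), ← mapRep_mapRep, hNIeq]
    exact hlI
  · obtain ⟨a1, a2, a3⟩ := hNIeq.symm ▸ hnI
    obtain ⟨b1, b2, b3⟩ := hNJeq.symm ▸ hnJ
    rw [show F.X (mapRep (pI : _ →+* EntryRing 𝒪 ⧸ I) N) = (F.X N).map pI from F.X_map pI N] at a1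
    rw [show F.Y (mapRep (pI : _ →+* EntryRing 𝒪 ⧸ I) N) = (F.Y N).map pI from F.Y_map pI N]
      at a2 a3
    rw [show F.X (mapRep (pJ : _ →+* EntryRing 𝒪 ⧸ J) N) = (F.X N).map pJ from F.X_map pJ N] at b1
    rw [show F.Y (mapRep (pJ : _ →+* EntryRing 𝒪 ⧸ J) N) = (F.Y N).map pJ from F.Y_map pJ N]
      at b2 b3
    exact ⟨hinj (Prod.ext (a1.trans (map_zero pI).symm) (b1.trans (map_zero pJ).symm)),
      hinj (Prod.ext (a2.trans (map_zero pI).symm) (b2.trans (map_zero pJ).symm)),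
      hinj (Prod.ext (a3.trans (map_one pI).symm) (b3.trans (map_one pJ).symm))⟩
  · have hlI' := htP.isCoeff.isLocalHom_algHom htI.isCoeff pI
    have hlJ' := htP.isCoeff.isLocalHom_algHom htJ.isCoeff pJ
    refine h𝒟.of_fibreProduct htI htJ htC htP fI fJ pI pJ hlI' hlJ' (AlgHom.ext fun x => ?_) hinj
      (fun a b hab => ?_)
      (h𝒟.of_isEquiv htI (isEquiv_baseChangeAlong_matRep _ _ N hNc)
        (cond_congr h𝒟 htI hNIeq.symm hDI))
      (h𝒟.of_isEquiv htJ (isEquiv_baseChangeAlong_matRep _ _ N hNc)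
        (cond_congr h𝒟 htJ hNJeq.symm hDJ))
    · obtain ⟨a, rfl⟩ := Ideal.Quotient.mk_surjective x
      rfl
    · obtain ⟨a, rfl⟩ := Ideal.Quotient.mk_surjective a
      obtain ⟨b, rfl⟩ := Ideal.Quotient.mk_surjective b
      have hab' : a - b ∈ I ⊔ J := Ideal.Quotient.eq.mp hab
      obtain ⟨u, hu, v, hv, huv⟩ := Submodule.mem_sup.mp hab'
      exact ⟨Ideal.Quotient.mk _ (a - u), Ideal.Quotient.eq.mpr (by simpa using hu),
        Ideal.Quotient.eq.mpr (by rwa [show a - u - b = v by linear_combination -huv])⟩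

/-! ### The bound from the tangent space -/

section Bound

attribute [local instance] dualAlg

variable (ρbar 𝒟) in
/-- The set of deformations to `k[ε]` up to equivalence, as in `TangentFinite`. -/
def TangentClasses : Type 1 :=
  letI : Algebra (ResidueField 𝒪) (ResidueField (DualNumber (ResidueField 𝒪))) :=
    ((IsLocalRing.residue (DualNumber (ResidueField 𝒪))).comp
      (algebraMap (ResidueField 𝒪) (DualNumber (ResidueField 𝒪)))).toAlgebra
  Quotient (⟨fun ρ ρ' : {ρ : GaloisRepAdic (DualNumber (ResidueField 𝒪)) //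
      𝒟 ρ ∧ ρ.residual.IsEquiv (ρbar.baseChange (ResidueField (DualNumber (ResidueField 𝒪)))) } =>
      ρ.1.IsEquiv ρ'.1, ⟨fun ρ => ⟨GaloisRepAdic.Equiv.refl ρ.1⟩,
        fun ⟨e⟩ => ⟨e.symm⟩, fun ⟨e⟩ ⟨e'⟩ => ⟨e.trans e'⟩⟩⟩ : Setoid _)

/-- A deformation to `k[ε]` gives a tangent class. -/
def tangentClass {N : Gal →* Mat (DualNumber (ResidueField 𝒪))}
    (hl : IsLift ρbar (isCoeff_dual (𝒪 := 𝒪)) N) (hN : MatCont N) (hD : 𝒟 (matRep N hN)) :
    TangentClasses 𝒟 ρbar :=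
  Quotient.mk _ ⟨matRep N hN, hD, residual_isEquiv_of_isLift isCoeff_dual hl hN fun _ => rfl⟩

theorem eq_of_tangentClass_eq {N N' : Gal →* Mat (DualNumber (ResidueField 𝒪))}
    (hl : IsLift ρbar (isCoeff_dual (𝒪 := 𝒪)) N) (hN : MatCont N) (hD : 𝒟 (matRep N hN))
    (hl' : IsLift ρbar (isCoeff_dual (𝒪 := 𝒪)) N') (hN' : MatCont N') (hD' : 𝒟 (matRep N' hN'))
    (hn : F.IsNormal N) (hn' : F.IsNormal N')
    (h : tangentClass hl hN hD = tangentClass hl' hN' hD') : N' = N := by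
  obtain ⟨u, hu⟩ := (isEquiv_matRep_iff hN hN').mp (Quotient.exact h)
  exact F.eq_of_conj isCoeff_dual hl hl' hn hn' u hu

/-- Maps to `k[ε]` from a normalised deformation generated by its entries inject in the tangent
classes. -/
theorem card_algHom_dual_le_of_rep [Finite (ResidueField 𝒪)]
    (h𝒟 : GaloisRep.IsDeformationCondition 𝒪 𝒟) [Finite (TangentClasses 𝒟 ρbar)]
    {A : Type} [CommRing A] [IsLocalRing A] [Algebra 𝒪 A]
    (ht : GaloisRep.IsArtinianTestAlgebra 𝒪 A) (N : Gal →* Mat A) (hN : MatCont N)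
    (hgen : Function.Surjective (evalRep (𝒪 := 𝒪) N))
    (hl : IsLift ρbar ht.isCoeff N) (hn : F.IsNormal N) (hD : 𝒟 (matRep N hN)) :
    Finite (A →ₐ[𝒪] DualNumber (ResidueField 𝒪)) ∧
      Nat.card (A →ₐ[𝒪] DualNumber (ResidueField 𝒪)) ≤ Nat.card (TangentClasses 𝒟 ρbar) := by
  have hE := isArtinianTestAlgebra_dual (𝒪 := 𝒪)
  have hc := fun f : A →ₐ[𝒪] DualNumber (ResidueField 𝒪) =>
    hN.map _ (ht.isCoeff.isLocalHom_algHom hE.isCoeff f)
  let cls : (A →ₐ[𝒪] DualNumber (ResidueField 𝒪)) → TangentClasses 𝒟 ρbar :=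
    fun f => tangentClass (hl.map hE.isCoeff f) (hc f) (cond_mapRep h𝒟 ht hE f hD (hc f))
  have hinj : Function.Injective cls := by
    intro f g hfg
    have heq' := eq_of_tangentClass_eq _ _ _ _ _ _ (F.isNormal_map hn f) (F.isNormal_map hn g) hfg
    exact (algHom_ext_of_evalRep hgen fun σ i j =>
      congrFun (congrFun (DFunLike.congr_fun heq' σ) i) j).symm
  exact ⟨Finite.of_injective cls hinj, Nat.card_le_card_of_injective cls hinj⟩

/-- Maps from an Artinian normalised deformation ring to `k[ε]` inject in the tangent classes. -/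
theorem card_algHom_dual_le [Finite (ResidueField 𝒪)]
    (h𝒟 : GaloisRep.IsDeformationCondition 𝒪 𝒟)
    (hfin : GaloisRep.TangentFinite 𝒪 ρbar 𝒟) {I : Ideal (EntryRing 𝒪)}
    (hI : IsDefIdeal 𝒟 F I) :
    Finite ((EntryRing 𝒪 ⧸ I) →ₐ[𝒪] DualNumber (ResidueField 𝒪)) ∧
      Nat.card ((EntryRing 𝒪 ⧸ I) →ₐ[𝒪] DualNumber (ResidueField 𝒪)) ≤
        Nat.card (TangentClasses 𝒟 ρbar) := by
  have : Finite (TangentClasses 𝒟 ρbar) := hfin
  obtain ⟨_, ht, N, hN, heq, hl, hn, hD⟩ := hI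
  refine card_algHom_dual_le_of_rep h𝒟 ht N hN ?_ hl hn hD
  rw [heq, evalRep_tautMat]
  exact Ideal.Quotient.mk_surjective

/-- A quotient by a deformation ideal containing `M ^ (n+1)` is a quotient of a fixed finite ring. -/
theorem IsDefIdeal.exists_powerSeries_surjective [Finite (ResidueField 𝒪)]
    [IsAdicComplete (maximalIdeal 𝒪) 𝒪]
    (h𝒟 : GaloisRep.IsDeformationCondition 𝒪 𝒟)
    (hfin : GaloisRep.TangentFinite 𝒪 ρbar 𝒟) {I : Ideal (EntryRing 𝒪)}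
    (hI : IsDefIdeal 𝒟 F I) :
    ∃ γ : MvPowerSeries (Fin (Nat.card (TangentClasses 𝒟 ρbar))) 𝒪 →ₐ[𝒪] EntryRing 𝒪 ⧸ I,
      Function.Surjective γ := by
  obtain ⟨_, ht, -⟩ := id hI
  have := ht.finite
  obtain ⟨n, hn⟩ := ht.exists_pow_eq_bot
  have : IsAdicComplete (maximalIdeal (EntryRing 𝒪 ⧸ I)) (EntryRing 𝒪 ⧸ I) :=
    isAdicComplete_of_pow_eq_bot hn
  obtain ⟨hfinite, hcard⟩ := card_algHom_dual_le h𝒟 hfin hI
  exact exists_powerSeries_surjective_of_card_algHom_le ht.isCoeff _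
    (hcard.trans (Nat.lt_pow_self Finite.one_lt_card).le)

/-- The cardinality bound. -/
theorem IsDefIdeal.natCard_le [Finite (ResidueField 𝒪)] [IsNoetherianRing 𝒪]
    [IsAdicComplete (maximalIdeal 𝒪) 𝒪]
    (h𝒟 : GaloisRep.IsDeformationCondition 𝒪 𝒟)
    (hfin : GaloisRep.TangentFinite 𝒪 ρbar 𝒟) (n : ℕ) {I : Ideal (EntryRing 𝒪)}
    (hI : IsDefIdeal 𝒟 F I) (hMI : barIdeal ρbar ^ (n + 1) ≤ I) :
    Nat.card (EntryRing 𝒪 ⧸ I) ≤
      Nat.card (MvPowerSeries (Fin (Nat.card (TangentClasses 𝒟 ρbar))) 𝒪 ⧸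
        maximalIdeal (MvPowerSeries (Fin (Nat.card (TangentClasses 𝒟 ρbar))) 𝒪) ^ (n + 1)) := by
  obtain ⟨γ, hγ⟩ := hI.exists_powerSeries_surjective h𝒟 hfin
  obtain ⟨_, ht, -⟩ := id hI
  set P' := MvPowerSeries (Fin (Nat.card (TangentClasses 𝒟 ρbar))) 𝒪
  have : Finite (ResidueField P') := isCoeff_powerSeries.finite_residueField
  have : Finite (P' ⧸ maximalIdeal P' ^ (n + 1)) :=
    IsLocalRing.finite_quotient_iff.mpr ⟨n + 1, le_rfl⟩
  have hker : ∀ x ∈ maximalIdeal P' ^ (n + 1), γ x = 0 := by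
    intro x hx
    have := isCoeff_powerSeries.map_mem_maximalIdeal_pow ht.isCoeff γ hx
    rw [hI.maximalIdeal_eq, ← Ideal.map_pow] at this
    have hle : (barIdeal ρbar ^ (n + 1)).map (Ideal.Quotient.mk I) = ⊥ := by
      rw [Ideal.map_eq_bot_iff_le_ker, Ideal.mk_ker]
      exact hMI
    rwa [hle, Ideal.mem_bot] at this
  refine Nat.card_le_card_of_surjective (Ideal.Quotient.lift _ (γ : P' →+* EntryRing 𝒪 ⧸ I) hker)
    fun y => ?_
  obtain ⟨x, rfl⟩ := hγ y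
  exact ⟨Ideal.Quotient.mk _ x, rfl⟩

end Bound

end FLTAgent.Deformation
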