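import Fermat.Agent.Deformation.Universal

/-!
# The tangent space of a deformation ring

For any `DeformationRingData`, the maps `R → k[ε]` inject in the deformations to `k[ε]`; if there
are at most `#k ^ r` of the latter up to equivalence then `R` is a quotient of `𝒪⟦X₁,…,Xᵣ⟧`.
-/

set_option autoImplicit false
set_option linter.unusedSectionVars false

noncomputable section

open IsLocalRing

namespace FLTAgent.Deformation

attribute [local instance] dualAlg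

variable {𝒪 : Type} [CommRing 𝒪] [IsDomain 𝒪] [IsDiscreteValuationRing 𝒪]
  [IsAdicComplete (maximalIdeal 𝒪) 𝒪] [Finite (ResidueField 𝒪)]
  {ρbar : ResidualGaloisRep (ResidueField 𝒪)}
  {𝒟 : ∀ ⦃A : Type⦄ [CommRing A] [IsLocalRing A] [Algebra 𝒪 A], GaloisRepAdic A → Prop}

theorem isCoeff_deformationRing (D : GaloisRep.DeformationRingData 𝒪 ρbar 𝒟) : IsCoeff 𝒪 D.R :=
  ⟨D.instIsLocalHom, D.residue_surjective⟩

theorem cond_baseChangeAlong_comp (h𝒟 : GaloisRep.IsDeformationCondition 𝒪 𝒟)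
    {A Q B : Type} [CommRing A] [IsLocalRing A] [Algebra 𝒪 A] [CommRing Q] [IsLocalRing Q]
    [Algebra 𝒪 Q] [CommRing B] [IsLocalRing B] [Algebra 𝒪 B]
    (hQ : GaloisRep.IsArtinianTestAlgebra 𝒪 Q) (hB : GaloisRep.IsArtinianTestAlgebra 𝒪 B)
    (q : A →ₐ[𝒪] Q) (hq : IsLocalHom (q : A →+* Q)) (θ : Q →ₐ[𝒪] B) {ρ : GaloisRepAdic A}
    (hρ : 𝒟 (ρ.baseChangeAlong (q : A →+* Q) hq))
    (hf : IsLocalHom ((θ.comp q : A →ₐ[𝒪] B) : A →+* B)) :
    𝒟 (ρ.baseChangeAlong ((θ.comp q : A →ₐ[𝒪] B) : A →+* B) hf) := by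
  have hN := matCont_repMatrix ρ (stdBasis ρ)
  have he := isEquiv_matRep ρ (stdBasis ρ)
  have hθ := hQ.isCoeff.isLocalHom_algHom hB.isCoeff θ
  have h1 := h𝒟.of_isEquiv hQ (baseChangeAlong_isEquiv_matRep _ hq he) hρ
  have h2 := cond_mapRep h𝒟 hQ hB θ h1 ((hN.map _ hq).map _ hθ)
  have heq : mapRep (θ : Q →+* B) (mapRep (q : A →+* Q) (repMatrix ρ.ρ (stdBasis ρ))) =
      mapRep ((θ.comp q : A →ₐ[𝒪] B) : A →+* B) (repMatrix ρ.ρ (stdBasis ρ)) :=
    MonoidHom.ext fun σ => Matrix.ext fun i j => rfl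
  exact h𝒟.of_isEquiv hB (isEquiv_symm (baseChangeAlong_isEquiv_matRep _ hf he))
    (cond_congr h𝒟 hB heq h2)

/-- A deformation condition is preserved by base change from a complete algebra to a test
algebra. -/
theorem cond_baseChangeAlong_of_complete (h𝒟 : GaloisRep.IsDeformationCondition 𝒪 𝒟)
    {A B : Type} [CommRing A] [IsLocalRing A] [IsNoetherianRing A]
    [IsAdicComplete (maximalIdeal A) A] [Algebra 𝒪 A] [CommRing B] [IsLocalRing B] [Algebra 𝒪 B]
    (hA : IsCoeff 𝒪 A) (hB : GaloisRep.IsArtinianTestAlgebra 𝒪 B) (f : A →ₐ[𝒪] B)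
    (hf : IsLocalHom (f : A →+* B)) {ρ : GaloisRepAdic A} (hρ : 𝒟 ρ) :
    𝒟 (ρ.baseChangeAlong (f : A →+* B) hf) := by
  have := hA.finite_residueField
  obtain ⟨n, hn⟩ := hB.exists_pow_eq_bot
  have : Finite (A ⧸ maximalIdeal A ^ (n + 1)) := IsLocalRing.finite_quotient_iff.mpr ⟨n + 1, le_rfl⟩
  have : IsLocalRing (A ⧸ maximalIdeal A ^ (n + 1)) := isLocalRing_quotient fun h =>
    (maximalIdeal.isMaximal A).ne_top (top_le_iff.mp (h ▸ Ideal.pow_le_self n.succ_ne_zero))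
  have hQ : GaloisRep.IsArtinianTestAlgebra 𝒪 (A ⧸ maximalIdeal A ^ (n + 1)) :=
    (hA.quotient _).isArtinianTestAlgebra
  let q : A →ₐ[𝒪] A ⧸ maximalIdeal A ^ (n + 1) := Ideal.Quotient.mkₐ 𝒪 _
  have hq := hA.isLocalHom_algHom hQ.isCoeff q
  obtain ⟨θ, rfl⟩ := exists_algHom_factor q Ideal.Quotient.mk_surjective f fun x hx => by
    have := hA.map_mem_maximalIdeal_pow hB.isCoeff f (Ideal.Quotient.eq_zero_iff_mem.mp hx)
    rwa [hn, Ideal.mem_bot] at this
  exact cond_baseChangeAlong_comp h𝒟 hQ hB q hq θ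
    ((h𝒟.iff_forall_surjective hA.isLocalHom hA.residue_surjective ρ).mp hρ hQ q hq
      Ideal.Quotient.mk_surjective) hf

/-- The base change of the universal representation reduces to `ρbar`. -/
theorem residual_baseChangeAlong_isEquiv (D : GaloisRep.DeformationRingData 𝒪 ρbar 𝒟) {B : Type}
    [CommRing B] [IsLocalRing B] [Algebra 𝒪 B] (hB : IsCoeff 𝒪 B) (f : D.R →ₐ[𝒪] B)
    (hf : IsLocalHom (f : D.R →+* B)) {ι : ResidueField 𝒪 →+* ResidueField B}
    (hι : ∀ r, ι (residue 𝒪 r) = residue B (algebraMap 𝒪 B r)) :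
    (D.ρ.baseChangeAlong (f : D.R →+* B) hf).residual.IsEquiv (ρbar.baseChangeAlong ι) := by
  obtain ⟨N, hN, hl, hD⟩ := exists_isLift_of_residual_isEquiv (isCoeff_deformationRing D) D.ρ
    (fun _ => rfl) D.residual_isEquiv
  obtain ⟨e⟩ := baseChangeAlong_isEquiv_matRep _ hf hD
  obtain ⟨e'⟩ := residual_isEquiv_of_isLift hB (hl.map hB f) (hN.map _ hf) hι
  exact ⟨e.residual.trans e'⟩

/-- Two maps to an Artinian test algebra giving equivalent deformations are equal. -/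
theorem algHom_eq_of_isEquiv (D : GaloisRep.DeformationRingData 𝒪 ρbar 𝒟) {B : Type}
    [CommRing B] [IsLocalRing B] [Algebra 𝒪 B] (hB : GaloisRep.IsArtinianTestAlgebra 𝒪 B)
    {f g : D.R →ₐ[𝒪] B} (hf : IsLocalHom (f : D.R →+* B)) (hg : IsLocalHom (g : D.R →+* B))
    (hD : 𝒟 (D.ρ.baseChangeAlong (f : D.R →+* B) hf))
    (h : (D.ρ.baseChangeAlong (f : D.R →+* B) hf).IsEquiv
      (D.ρ.baseChangeAlong (g : D.R →+* B) hg)) : f = g := by
  have := hB.isArtinian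
  have := hB.isLocalHom
  obtain ⟨n, hn⟩ := hB.exists_pow_eq_bot
  have : IsAdicComplete (maximalIdeal B) B := isAdicComplete_of_pow_eq_bot hn
  have hres : (D.ρ.baseChangeAlong (f : D.R →+* B) hf).residual.IsEquiv
      (ρbar.baseChangeAlong (ResidueField.map (algebraMap 𝒪 B))) :=
    residual_baseChangeAlong_isEquiv D hB.isCoeff f hf fun _ => rfl
  obtain ⟨φ, -, huniq⟩ := D.universal B hB.residue_surjective _ hD hres
  exact (huniq f ⟨hf, ⟨GaloisRepAdic.Equiv.refl _⟩⟩).trans (huniq g ⟨hg, isEquiv_symm h⟩).symm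

/-- If the deformations to `k[ε]` obtained from a deformation ring fall in at most `#k ^ r`
classes, the ring is a quotient of `𝒪⟦X₁,…,Xᵣ⟧`. -/
theorem exists_mvPowerSeries_surjective_of_classes (D : GaloisRep.DeformationRingData 𝒪 ρbar 𝒟)
    (hbc : ∀ (f : D.R →ₐ[𝒪] DualNumber (ResidueField 𝒪))
      (hf : IsLocalHom (f : D.R →+* DualNumber (ResidueField 𝒪))),
        𝒟 (D.ρ.baseChangeAlong (f : D.R →+* DualNumber (ResidueField 𝒪)) hf))
    {X : Type*} [Finite X] (r : ℕ) (hX : Nat.card X ≤ Nat.card (ResidueField 𝒪) ^ r)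
    (cls : ∀ ρ : GaloisRepAdic (DualNumber (ResidueField 𝒪)), 𝒟 ρ →
      ρ.residual.IsEquiv (ρbar.baseChangeAlong
        ((residue (DualNumber (ResidueField 𝒪))).comp
          (algebraMap (ResidueField 𝒪) (DualNumber (ResidueField 𝒪))))) → X)
    (hcls : ∀ ρ ρ' h₁ h₂ h₁' h₂', cls ρ h₁ h₂ = cls ρ' h₁' h₂' → ρ.IsEquiv ρ') :
    ∃ γ : MvPowerSeries (Fin r) 𝒪 →ₐ[𝒪] D.R, Function.Surjective γ := by
  have hE := isArtinianTestAlgebra_dual (𝒪 := 𝒪)
  have hR := isCoeff_deformationRing D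
  have hloc := fun f : D.R →ₐ[𝒪] DualNumber (ResidueField 𝒪) =>
    hR.isLocalHom_algHom hE.isCoeff f
  let c : (D.R →ₐ[𝒪] DualNumber (ResidueField 𝒪)) → X := fun f =>
    cls _ (hbc f (hloc f))
      (residual_baseChangeAlong_isEquiv D hE.isCoeff f (hloc f) fun _ => rfl)
  have hc : Function.Injective c := fun f g hfg =>
    algHom_eq_of_isEquiv D hE (hloc f) (hloc g) (hbc f (hloc f)) (hcls _ _ _ _ _ _ hfg)
  have : Finite (D.R →ₐ[𝒪] DualNumber (ResidueField 𝒪)) := Finite.of_injective c hc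
  exact exists_powerSeries_surjective_of_card_algHom_le hR r
    ((Nat.card_le_card_of_injective c hc).trans hX)

/-- If the tangent space has at most `#k ^ r` elements, every deformation ring is a quotient of
`𝒪⟦X₁,…,Xᵣ⟧`. -/
theorem exists_mvPowerSeries_surjective_of_tangent (D : GaloisRep.DeformationRingData 𝒪 ρbar 𝒟)
    (h𝒟 : GaloisRep.IsDeformationCondition 𝒪 𝒟) (hfin : GaloisRep.TangentFinite 𝒪 ρbar 𝒟) (r : ℕ)
    (hr : Nat.card (TangentClasses 𝒟 ρbar) ≤ Nat.card (ResidueField 𝒪) ^ r) :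
    ∃ γ : MvPowerSeries (Fin r) 𝒪 →ₐ[𝒪] D.R, Function.Surjective γ := by
  have : Finite (TangentClasses 𝒟 ρbar) := hfin
  exact exists_mvPowerSeries_surjective_of_classes D
    (fun f hf => cond_baseChangeAlong_of_complete h𝒟 (isCoeff_deformationRing D)
      isArtinianTestAlgebra_dual f hf D.isOfType) r hr
    (fun ρ h₁ h₂ => Quotient.mk _ ⟨ρ, h₁, h₂⟩) fun ρ ρ' _ _ _ _ h => Quotient.exact h

end FLTAgent.Deformation
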