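import Fermat.Agent.Deformation.DefIdeal
import Fermat.Prelude.Def_GaloisRep_DeformationRingData

/-!
# The deformation ring as a limit

From a tower `Q n` of Artinian normalised deformations which are universal for algebras with
`𝔪 ^ (n+1) = 0`, presented compatibly as quotients of `𝒪⟦X₁,…,Xᵣ⟧`, we build a
`DeformationRingData`.
-/

set_option autoImplicit false
set_option linter.unusedSectionVars false

noncomputable section

open IsLocalRing

namespace FLTAgent.Deformation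

theorem isEquiv_symm {A : Type} [CommRing A] [IsLocalRing A] {ρ ρ' : GaloisRepAdic A}
    (h : ρ.IsEquiv ρ') : ρ'.IsEquiv ρ :=
  h.elim fun e => ⟨e.symm⟩

theorem isEquiv_trans {A : Type} [CommRing A] [IsLocalRing A] {ρ ρ' ρ'' : GaloisRepAdic A}
    (h : ρ.IsEquiv ρ') (h' : ρ'.IsEquiv ρ'') : ρ.IsEquiv ρ'' :=
  h.elim fun e => h'.elim fun e' => ⟨e.trans e'⟩

theorem exists_algHom_factor {𝒪 R Q B : Type} [CommRing 𝒪] [CommRing R] [Algebra 𝒪 R] [CommRing Q]
    [Algebra 𝒪 Q] [CommRing B] [Algebra 𝒪 B] (q : R →ₐ[𝒪] Q) (hq : Function.Surjective q)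
    (f : R →ₐ[𝒪] B) (h : ∀ x, q x = 0 → f x = 0) : ∃ θ : Q →ₐ[𝒪] B, θ.comp q = f := by
  refine ⟨(Ideal.Quotient.liftₐ (RingHom.ker q) f fun x hx => h x (RingHom.mem_ker.mp hx)).comp
    (Ideal.quotientKerAlgEquivOfSurjective hq).symm.toAlgHom, AlgHom.ext fun x => ?_⟩
  have : (Ideal.quotientKerAlgEquivOfSurjective hq).symm (q x) = Ideal.Quotient.mk _ x := by
    rw [AlgEquiv.symm_apply_eq]
    rfl
  show Ideal.Quotient.liftₐ (RingHom.ker q) f (fun x hx => h x (RingHom.mem_ker.mp hx))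
    ((Ideal.quotientKerAlgEquivOfSurjective hq).symm (q x)) = f x
  rw [this]
  rfl

section Chain

variable {R : Type} [CommRing R] {M : Ideal R} [IsPrecomplete M R] {K : ℕ → Ideal R}

theorem exists_chain_limit (hpow : ∀ n, M ^ (n + 1) ≤ K n)
    (hle : ∀ n, K n ≤ K (n + 1) ⊔ M ^ (n + 1)) (g : ℕ → R) (hg : ∀ n, g (n + 1) - g n ∈ K n) :
    ∃ f, ∀ n, f - g n ∈ K n := by
  have hex : ∀ n, ∀ a : R, ∃ b, a - g n ∈ K n →
      b - g (n + 1) ∈ K (n + 1) ∧ b - a ∈ M ^ (n + 1) := by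
    intro n a
    by_cases h : a - g n ∈ K n
    · have h' : g (n + 1) - a ∈ K n := by
        have := Ideal.sub_mem _ (hg n) h
        rwa [sub_sub_sub_cancel_right] at this
      obtain ⟨z, hz, w, hw, hzw⟩ := Submodule.mem_sup.mp (hle n h')
      refine ⟨a + w, fun _ => ⟨?_, by simpa using hw⟩⟩
      rw [show a + w - g (n + 1) = -z by linear_combination hzw]
      exact neg_mem hz
    · exact ⟨a, fun h' => absurd h' h⟩
  choose next hnext using hex
  let seq : ℕ → R := fun n => n.rec (g 0) next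
  have hseq : ∀ n, seq n - g n ∈ K n := by
    intro n
    induction n with
    | zero => simp [seq]
    | succ n ih => exact (hnext n (seq n) ih).1
  obtain ⟨L, hL⟩ := exists_adic_limit (I := M) seq fun n =>
    Ideal.pow_le_pow_right n.le_succ (hnext n (seq n) (hseq n)).2
  refine ⟨L, fun n => ?_⟩
  rw [show L - g n = (L - seq (n + 1)) + (seq (n + 1) - seq n) + (seq n - g n) by ring]
  exact add_mem (add_mem (hpow n (hL (n + 1))) (hpow n (hnext n (seq n) (hseq n)).2)) (hseq n)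

theorem le_iInf_sup_pow (hanti : ∀ n, K (n + 1) ≤ K n) (hpow : ∀ n, M ^ (n + 1) ≤ K n)
    (hle : ∀ n, K n ≤ K (n + 1) ⊔ M ^ (n + 1)) (n : ℕ) : K n ≤ (⨅ m, K m) ⊔ M ^ (n + 1) := by
  intro x hx
  have hK : ∀ {m m'}, m ≤ m' → K m' ≤ K m := fun h => antitone_nat_of_succ_le hanti h
  have hex : ∀ m, ∀ a : R, ∃ b, a ∈ K (n + m) → b ∈ K (n + m + 1) ∧ a - b ∈ M ^ (n + m + 1) := by
    intro m a
    by_cases h : a ∈ K (n + m)
    · obtain ⟨z, hz, w, hw, hzw⟩ := Submodule.mem_sup.mp (hle _ h)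
      exact ⟨z, fun _ => ⟨hz, by rwa [show a - z = w by linear_combination -hzw]⟩⟩
    · exact ⟨a, fun h' => absurd h' h⟩
  choose next hnext using hex
  let seq : ℕ → R := fun m => m.rec x next
  have hseq : ∀ m, seq m ∈ K (n + m) := by
    intro m
    induction m with
    | zero => exact hx
    | succ m ih => exact (hnext m (seq m) ih).1
  have hstep : ∀ m, seq (m + 1) - seq m ∈ M ^ (n + m + 1) := fun m => by
    rw [← neg_sub]
    exact neg_mem (hnext m (seq m) (hseq m)).2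
  obtain ⟨L, hL⟩ := exists_adic_limit (I := M) seq fun m =>
    Ideal.pow_le_pow_right (by omega) (hstep m)
  refine Submodule.mem_sup.mpr ⟨L, ?_, x - L, ?_, by ring⟩
  · rw [Submodule.mem_iInf]
    intro i
    rw [show L = (L - seq (i + 1)) + seq (i + 1) by ring]
    exact add_mem (hpow i (hL _)) (hK (by omega) (hseq (i + 1)))
  · have hsum : ∀ m, seq m - x ∈ M ^ (n + 1) := by
      intro m
      induction m with
      | zero => simp [seq]
      | succ m ih =>
        rw [show seq (m + 1) - x = (seq (m + 1) - seq m) + (seq m - x) by ring]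
        exact add_mem (Ideal.pow_le_pow_right (by omega) (hstep m)) ih
    rw [show x - L = -((L - seq (n + 1)) + (seq (n + 1) - x)) by ring]
    exact neg_mem (add_mem (hL (n + 1)) (hsum (n + 1)))

end Chain

variable {𝒪 : Type} [CommRing 𝒪] [IsDomain 𝒪] [IsDiscreteValuationRing 𝒪]
  [IsAdicComplete (maximalIdeal 𝒪) 𝒪] [Finite (ResidueField 𝒪)]
  {ρbar : ResidualGaloisRep (ResidueField 𝒪)}
  {𝒟 : ∀ ⦃A : Type⦄ [CommRing A] [IsLocalRing A] [Algebra 𝒪 A], GaloisRepAdic A → Prop}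

variable (𝒟) in
/-- A tower of Artinian normalised deformations, universal at each level, presented by power
series. -/
structure Tower (F : Frame ρbar) (r : ℕ) (Q : ℕ → Type) [∀ n, CommRing (Q n)]
    [∀ n, IsLocalRing (Q n)] [∀ n, Algebra 𝒪 (Q n)] where
  test : ∀ n, GaloisRep.IsArtinianTestAlgebra 𝒪 (Q n)
  N : ∀ n, Gal →* Mat (Q n)
  cont : ∀ n, MatCont (N n)
  lift : ∀ n, IsLift ρbar (test n).isCoeff (N n)
  normal : ∀ n, F.IsNormal (N n)
  cond : ∀ n, 𝒟 (matRep (N n) (cont n))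
  gen : ∀ n, Function.Surjective (evalRep (𝒪 := 𝒪) (N n))
  pres : ∀ n, MvPowerSeries (Fin r) 𝒪 →ₐ[𝒪] Q n
  pres_surjective : ∀ n, Function.Surjective (pres n)
  trans : ∀ n, Q (n + 1) →ₐ[𝒪] Q n
  trans_N : ∀ n σ i j, trans n (N (n + 1) σ i j) = N n σ i j
  trans_pres : ∀ n, (trans n).comp (pres (n + 1)) = pres n
  pres_pow : ∀ n, maximalIdeal (MvPowerSeries (Fin r) 𝒪) ^ (n + 1) ≤ RingHom.ker (pres n)
  pres_le : ∀ n, RingHom.ker (pres n) ≤
    RingHom.ker (pres (n + 1)) ⊔ maximalIdeal (MvPowerSeries (Fin r) 𝒪) ^ (n + 1)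
  univ : ∀ (n : ℕ) {A : Type} [CommRing A] [IsLocalRing A] [Algebra 𝒪 A]
    (hA : GaloisRep.IsArtinianTestAlgebra 𝒪 A), maximalIdeal A ^ (n + 1) = ⊥ →
    ∀ (M : Gal →* Mat A) (hM : MatCont M), IsLift ρbar hA.isCoeff M → F.IsNormal M →
      𝒟 (matRep M hM) → ∃ θ : Q n →ₐ[𝒪] A, ∀ σ i j, θ (N n σ i j) = M σ i j

namespace Tower

variable {F : Frame ρbar} {r : ℕ} {Q : ℕ → Type} [∀ n, CommRing (Q n)] [∀ n, IsLocalRing (Q n)]
  [∀ n, Algebra 𝒪 (Q n)] (T : Tower 𝒟 F r Q)

/-- The relations of the limit ring. -/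
def rel : Ideal (MvPowerSeries (Fin r) 𝒪) := ⨅ n, RingHom.ker (T.pres n)

/-- The limit ring. -/
abbrev Ring : Type := MvPowerSeries (Fin r) 𝒪 ⧸ T.rel

/-- The projection to a level. -/
def proj (n : ℕ) : T.Ring →ₐ[𝒪] Q n :=
  Ideal.Quotient.liftₐ T.rel (T.pres n) fun _ hx => RingHom.mem_ker.mp (Submodule.mem_iInf _ |>.mp hx n)

theorem proj_surjective (n : ℕ) : Function.Surjective (T.proj n) := fun y => by
  obtain ⟨x, rfl⟩ := T.pres_surjective n y
  exact ⟨Ideal.Quotient.mk _ x, rfl⟩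

theorem proj_ext {x y : T.Ring} (h : ∀ n, T.proj n x = T.proj n y) : x = y := by
  obtain ⟨a, rfl⟩ := Ideal.Quotient.mk_surjective x
  obtain ⟨b, rfl⟩ := Ideal.Quotient.mk_surjective y
  rw [Ideal.Quotient.eq]
  refine (Submodule.mem_iInf _).mpr fun n => ?_
  rw [RingHom.mem_ker, map_sub, sub_eq_zero]
  exact h n

theorem isLocalRing_ring : IsLocalRing T.Ring :=
  isLocalRing_quotient fun h => RingHom.ker_ne_top (T.pres 0)
    (top_le_iff.mp (h ▸ iInf_le (fun n => RingHom.ker (T.pres n)) 0))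

theorem exists_limit_rep : ∃ N : Gal →* Mat T.Ring, ∀ n σ i j, T.proj n (N σ i j) = T.N n σ i j := by
  haveI := isAdicComplete_powerSeries (σ := Fin r) (𝒪 := 𝒪)
  have hex : ∀ σ i j, ∃ f : MvPowerSeries (Fin r) 𝒪, ∀ n, T.pres n f = T.N n σ i j := by
    intro σ i j
    choose g hg using fun n => T.pres_surjective n (T.N n σ i j)
    obtain ⟨f, hf⟩ := exists_chain_limit T.pres_pow T.pres_le g fun n => by
      rw [RingHom.mem_ker, map_sub, sub_eq_zero, hg, ← T.trans_pres, AlgHom.comp_apply, hg,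
        T.trans_N]
    exact ⟨f, fun n => by
      have := hf n
      rw [RingHom.mem_ker, map_sub, sub_eq_zero] at this
      rw [this, hg]⟩
  choose f hf using hex
  let e : Gal → Mat T.Ring := fun σ => Matrix.of fun i j => Ideal.Quotient.mk _ (f σ i j)
  have he : ∀ n σ i j, T.proj n (e σ i j) = T.N n σ i j := fun n σ i j => hf σ i j n
  refine ⟨{ toFun := e, map_one' := ?_, map_mul' := ?_ }, he⟩
  · refine Matrix.ext fun i j => T.proj_ext fun n => ?_
    rw [he, map_one, Matrix.one_apply, Matrix.one_apply, apply_ite (T.proj n), map_one, map_zero]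
  · intro σ τ
    refine Matrix.ext fun i j => T.proj_ext fun n => ?_
    rw [he, map_mul, Matrix.mul_apply, Matrix.mul_apply, map_sum]
    simp only [map_mul, he]

variable [IsLocalRing T.Ring]

theorem isCoeff_ring : IsCoeff 𝒪 T.Ring := (isCoeff_powerSeries (σ := Fin r)).quotient _

theorem isAdicComplete_ring : IsAdicComplete (maximalIdeal T.Ring) T.Ring := by
  haveI := isAdicComplete_powerSeries (σ := Fin r) (𝒪 := 𝒪)
  haveI : IsLocalHom (algebraMap (MvPowerSeries (Fin r) 𝒪) T.Ring) :=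
    IsLocalHom.of_surjective _ Ideal.Quotient.mk_surjective
  exact IsLocalRing.isAdicComplete_of_module_finite (𝒪 := MvPowerSeries (Fin r) 𝒪)

theorem mem_pow_of_proj_eq_zero {n : ℕ} {x : T.Ring} (hx : T.proj n x = 0) :
    x ∈ maximalIdeal T.Ring ^ (n + 1) := by
  haveI := isAdicComplete_powerSeries (σ := Fin r) (𝒪 := 𝒪)
  obtain ⟨p, rfl⟩ := Ideal.Quotient.mk_surjective x
  rw [maximalIdeal_quotient_eq, ← Ideal.map_pow, Ideal.mem_quotient_iff_mem_sup, sup_comm]
  exact le_iInf_sup_pow (fun m x hx => by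
    rw [RingHom.mem_ker] at hx ⊢
    rw [← T.trans_pres, AlgHom.comp_apply, hx, map_zero]) T.pres_pow T.pres_le n
    (RingHom.mem_ker.mpr hx)

variable {B : Type} [CommRing B] [IsLocalRing B] [Algebra 𝒪 B]

theorem exists_factor (hB : IsCoeff 𝒪 B) {n : ℕ} (hn : maximalIdeal B ^ (n + 1) = ⊥)
    (f : T.Ring →ₐ[𝒪] B) : ∃ θ : Q n →ₐ[𝒪] B, θ.comp (T.proj n) = f :=
  exists_algHom_factor _ (T.proj_surjective n) f fun x hx => by
    have := T.isCoeff_ring.map_mem_maximalIdeal_pow hB f (T.mem_pow_of_proj_eq_zero hx)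
    rwa [hn, Ideal.mem_bot] at this

theorem algHom_ext_of_entries {N : Gal →* Mat T.Ring}
    (hN : ∀ n σ i j, T.proj n (N σ i j) = T.N n σ i j) (hB : IsCoeff 𝒪 B) {n : ℕ}
    (hn : maximalIdeal B ^ (n + 1) = ⊥) {f g : T.Ring →ₐ[𝒪] B}
    (h : ∀ σ i j, f (N σ i j) = g (N σ i j)) : f = g := by
  obtain ⟨θ, rfl⟩ := T.exists_factor hB hn f
  obtain ⟨θ', rfl⟩ := T.exists_factor hB hn g
  congr 1
  refine algHom_ext_of_evalRep (T.gen n) fun σ i j => ?_
  have := h σ i j
  rwa [AlgHom.comp_apply, AlgHom.comp_apply, hN] at this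

end Tower

section Universal

variable {F : Frame ρbar} {r : ℕ} {Q : ℕ → Type} [∀ n, CommRing (Q n)] [∀ n, IsLocalRing (Q n)]
  [∀ n, Algebra 𝒪 (Q n)] (T : Tower 𝒟 F r Q) [IsLocalRing T.Ring]

theorem Tower.exists_lift (h𝒟 : GaloisRep.IsDeformationCondition 𝒪 𝒟) {N : Gal →* Mat T.Ring}
    (hN : ∀ n σ i j, T.proj n (N σ i j) = T.N n σ i j) {A : Type} [CommRing A] [IsLocalRing A]
    [IsNoetherianRing A] [IsAdicComplete (maximalIdeal A) A] [Algebra 𝒪 A] (hA : IsCoeff 𝒪 A)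
    (M : Gal →* Mat A) (hM : MatCont M) (hl : IsLift ρbar hA M) (hn : F.IsNormal M)
    (hD : 𝒟 (matRep M hM)) :
    ∃ φ : T.Ring →ₐ[𝒪] A, (∀ σ i j, φ (N σ i j) = M σ i j) ∧
      ∀ φ' : T.Ring →ₐ[𝒪] A, (∀ σ i j, φ' (N σ i j) = M σ i j) → φ' = φ := by
  haveI := hA.finite_residueField
  haveI hfin : ∀ n, Finite (A ⧸ maximalIdeal A ^ (n + 1)) := fun n =>
    IsLocalRing.finite_quotient_iff.mpr ⟨n + 1, le_rfl⟩
  haveI hloc : ∀ n, IsLocalRing (A ⧸ maximalIdeal A ^ (n + 1)) := fun n =>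
    isLocalRing_quotient fun h => (maximalIdeal.isMaximal A).ne_top
      (top_le_iff.mp (h ▸ Ideal.pow_le_self n.succ_ne_zero))
  have hAn : ∀ n, GaloisRep.IsArtinianTestAlgebra 𝒪 (A ⧸ maximalIdeal A ^ (n + 1)) := fun n =>
    (hA.quotient _).isArtinianTestAlgebra
  have hzero : ∀ n, maximalIdeal (A ⧸ maximalIdeal A ^ (n + 1)) ^ (n + 1) = ⊥ := fun n => by
    rw [maximalIdeal_quotient_eq, ← Ideal.map_pow, Ideal.map_quotient_self]
  have hex : ∀ n, ∃ φ : T.Ring →ₐ[𝒪] A ⧸ maximalIdeal A ^ (n + 1),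
      ∀ σ i j, φ (N σ i j) = Ideal.Quotient.mk _ (M σ i j) := by
    intro n
    let q : A →ₐ[𝒪] A ⧸ maximalIdeal A ^ (n + 1) := Ideal.Quotient.mkₐ 𝒪 _
    have hq := hA.isLocalHom_algHom (hAn n).isCoeff q
    obtain ⟨θ, hθ⟩ := T.univ n (hAn n) (hzero n) _ (hM.map _ hq) (hl.map (hAn n).isCoeff q)
      (F.isNormal_map hn q) (h𝒟.of_isEquiv (hAn n) (matRep_baseChangeAlong _ hq M hM)
        ((h𝒟.iff_forall_surjective hA.isLocalHom hA.residue_surjective _).mp hD (hAn n) q hq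
          Ideal.Quotient.mk_surjective))
    exact ⟨θ.comp (T.proj n), fun σ i j => by
      rw [AlgHom.comp_apply, hN, hθ, mapRep_apply, Matrix.map_apply]
      rfl⟩
  choose φ hφ using hex
  have hcompat : ∀ m n (h : m ≤ n),
      (Ideal.Quotient.factorₐ 𝒪 (Ideal.pow_le_pow_right (by omega : m + 1 ≤ n + 1))).comp (φ n) =
        φ m := fun m n h =>
    T.algHom_ext_of_entries hN (hAn m).isCoeff (hzero m) fun σ i j => by
      rw [AlgHom.comp_apply, hφ, hφ]
      rfl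
  let f : ∀ n, T.Ring →ₐ[𝒪] A ⧸ maximalIdeal A ^ n := fun n =>
    (Ideal.Quotient.factorₐ 𝒪 (Ideal.pow_le_pow_right n.le_succ)).comp (φ n)
  have hf : ∀ {m n : ℕ} (hle : m ≤ n),
      (Ideal.Quotient.factorₐ 𝒪 (Ideal.pow_le_pow_right hle)).comp (f n) = f m := by
    intro m n hle
    ext x
    obtain ⟨a, ha⟩ := Ideal.Quotient.mk_surjective (φ n x)
    simp only [f, AlgHom.comp_apply, ← hcompat m n hle]
    rw [← ha]
    rfl
  let Φ : T.Ring →ₐ[𝒪] A := IsAdicComplete.liftAlgHom (maximalIdeal A) f hf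
  have hΦ : ∀ σ i j, Φ (N σ i j) = M σ i j := by
    intro σ i j
    rw [← sub_eq_zero]
    refine eq_zero_of_forall_mem_pow (I := maximalIdeal A) fun n => ?_
    rw [← Ideal.Quotient.eq]
    show Ideal.Quotient.mk _ (IsAdicComplete.liftAlgHom _ _ _ _) = _
    rw [IsAdicComplete.mk_liftAlgHom]
    show Ideal.Quotient.factor (Ideal.pow_le_pow_right (I := maximalIdeal A) n.le_succ) (φ n (N σ i j)) = _
    rw [hφ]
    rfl
  refine ⟨Φ, hΦ, fun φ' hφ' => ?_⟩
  ext x
  rw [← sub_eq_zero]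
  refine eq_zero_of_forall_mem_pow (I := maximalIdeal A) fun n => ?_
  have := T.algHom_ext_of_entries hN (hAn n).isCoeff (hzero n)
    (f := (Ideal.Quotient.mkₐ 𝒪 _).comp φ') (g := (Ideal.Quotient.mkₐ 𝒪 _).comp Φ) fun σ i j => by
      rw [AlgHom.comp_apply, AlgHom.comp_apply, hφ', hΦ]
  refine Ideal.pow_le_pow_right n.le_succ ?_
  exact Ideal.Quotient.eq.mp (DFunLike.congr_fun this x)

include T in
/-- The deformation ring data attached to a tower. -/
theorem Tower.nonempty_deformationRingData (habs : ρbar.IsAbsolutelyIrreducible)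
    (h𝒟 : GaloisRep.IsDeformationCondition 𝒪 𝒟) :
    Nonempty (GaloisRep.DeformationRingData 𝒪 ρbar 𝒟) := by
  haveI := T.isAdicComplete_ring
  have hR := T.isCoeff_ring
  haveI := hR.isLocalHom
  obtain ⟨N, hN⟩ := T.exists_limit_rep
  have hproj : ∀ n, mapRep (T.proj n : T.Ring →+* Q n) N = T.N n := fun n =>
    MonoidHom.ext fun σ => Matrix.ext fun i j => hN n σ i j
  have hNc : MatCont N := by
    intro n
    obtain ⟨m, hm⟩ := (T.test n).exists_pow_eq_bot
    obtain ⟨L, hL, h1⟩ := (T.cont n).exists_eq_one hm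
    refine ⟨L, hL, fun σ hσ i j => Ideal.pow_le_pow_right n.le_succ (T.mem_pow_of_proj_eq_zero ?_)⟩
    rw [map_sub, hN, h1 σ hσ, Matrix.one_apply, Matrix.one_apply, apply_ite (T.proj n), map_one,
      map_zero, sub_self]
  have hl : IsLift ρbar hR N := by
    rw [IsLift, ← show ((T.test 0).isCoeff.toK : Q 0 →+* ResidueField 𝒪).comp
      (T.proj 0 : T.Ring →+* Q 0) = (hR.toK : T.Ring →+* ResidueField 𝒪) from
      RingHom.ext (hR.toK_map (T.test 0).isCoeff (T.proj 0)), ← mapRep_mapRep, hproj]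
    exact T.lift 0
  have hn : F.IsNormal N := by
    have hm : ∀ n, F.IsNormal (mapRep (T.proj n : T.Ring →+* Q n) N) := fun n =>
      (hproj n).symm ▸ T.normal n
    refine ⟨T.proj_ext fun n => ?_, T.proj_ext fun n => ?_, T.proj_ext fun n => ?_⟩
    · have := (hm n).1
      rw [show F.X (mapRep (T.proj n : T.Ring →+* Q n) N) = (F.X N).map (T.proj n) from
        F.X_map (T.proj n) N] at this
      exact this.trans (map_zero _).symm
    · have := (hm n).2.1
      rw [show F.Y (mapRep (T.proj n : T.Ring →+* Q n) N) = (F.Y N).map (T.proj n) from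
        F.Y_map (T.proj n) N] at this
      exact this.trans (map_zero _).symm
    · have := (hm n).2.2
      rw [show F.Y (mapRep (T.proj n : T.Ring →+* Q n) N) = (F.Y N).map (T.proj n) from
        F.Y_map (T.proj n) N] at this
      exact this.trans (map_one _).symm
  have hD : 𝒟 (matRep N hNc) := by
    refine (h𝒟.iff_forall_surjective hR.isLocalHom hR.residue_surjective _).mpr ?_
    intro B _ _ _ hB q hq _
    obtain ⟨n, hn0⟩ := hB.exists_pow_eq_bot
    obtain ⟨θ, rfl⟩ := T.exists_factor hB.isCoeff hn0 q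
    refine h𝒟.of_isEquiv hB (isEquiv_baseChangeAlong_matRep _ hq N hNc)
      (cond_congr h𝒟 hB (?_ : mapRep (θ : Q n →+* B) (T.N n) = _)
        (cond_mapRep h𝒟 (T.test n) hB θ (T.cond n)
          ((T.cont n).map _ ((T.test n).isCoeff.isLocalHom_algHom hB.isCoeff θ))))
    rw [← hproj n, mapRep_mapRep]
    rfl
  refine ⟨{ R := T.Ring
            residue_surjective := hR.residue_surjective
            absIrr := habs
            ρ := matRep N hNc
            isOfType := hD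
            residual_isEquiv := residual_isEquiv_of_isLift hR hl hNc fun _ => rfl
            universal := ?_ }⟩
  intro A _ _ _ _ _ _ hsurj ρA hDA hres
  have hA : IsCoeff 𝒪 A := ⟨inferInstance, hsurj⟩
  obtain ⟨M₀, hM₀, hl₀, he₀⟩ := exists_isLift_of_residual_isEquiv hA ρA (fun _ => rfl) hres
  obtain ⟨g, hlg, hng⟩ := F.exists_normal hA hl₀
  have hMc := hM₀.conj g
  have heA : ρA.IsEquiv (matRep (conjRep g M₀) hMc) :=
    isEquiv_trans he₀ ((isEquiv_matRep_iff hM₀ hMc).mpr ⟨g, rfl⟩)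
  have hDM : 𝒟 (matRep (conjRep g M₀) hMc) := by
    refine (h𝒟.iff_forall_surjective hA.isLocalHom hA.residue_surjective _).mpr ?_
    intro B _ _ _ hB q hq hqs
    exact h𝒟.of_isEquiv hB (heA.elim fun e => ⟨e.baseChangeAlong _ hq⟩)
      ((h𝒟.iff_forall_surjective hA.isLocalHom hA.residue_surjective _).mp hDA hB q hq hqs)
  obtain ⟨φ, hφ, huniq⟩ := T.exists_lift h𝒟 hN hA _ hMc hlg hng hDM
  have hφloc := hR.isLocalHom_algHom hA φ
  refine ⟨φ, ⟨hφloc, isEquiv_trans (matRep_baseChangeAlong _ hφloc N hNc) (isEquiv_trans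
    (matRep_congr _ hMc (MonoidHom.ext fun σ => Matrix.ext fun i j => hφ σ i j))
    (isEquiv_symm heA))⟩, ?_⟩
  rintro φ' ⟨hφ'loc, hφ'⟩
  obtain ⟨u, hu⟩ := (isEquiv_matRep_iff _ hMc).mp
    (isEquiv_trans (isEquiv_baseChangeAlong_matRep _ hφ'loc N hNc) (isEquiv_trans hφ' heA))
  have heq := F.eq_of_conj hA (hl.map hA φ') hlg (F.isNormal_map hn φ') hng u hu
  exact huniq φ' fun σ i j => (congrFun (congrFun (DFunLike.congr_fun heq σ) i) j).symm

end Universal

end FLTAgent.Deformation
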