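import Fermat.Agent.Deformation.Coeff

/-!
# Galois representations by `2 × 2` matrices

Dictionary between `GaloisRepAdic`, its equivalences, base changes and reductions, and matrices.
-/

set_option autoImplicit false
set_option linter.unusedSectionVars false

noncomputable section

open IsLocalRing
open scoped TensorProduct

namespace FLTAgent.Deformation

/-- The absolute Galois group of `ℚ`. -/
abbrev Gal : Type := AlgebraicClosure ℚ ≃ₐ[ℚ] AlgebraicClosure ℚ

/-- Two by two matrices. -/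
abbrev Mat (A : Type) : Type := Matrix (Fin 2) (Fin 2) A

/-- Continuity of a matrix representation for the adic topology. -/
def MatCont {A : Type} [CommRing A] [IsLocalRing A] (N : Gal →* Mat A) : Prop :=
  ∀ n : ℕ, ∃ L : IntermediateField ℚ (AlgebraicClosure ℚ), FiniteDimensional ℚ L ∧
    ∀ σ : Gal, (∀ x ∈ L, σ x = x) → ∀ i j, N σ i j - (1 : Mat A) i j ∈ maximalIdeal A ^ n

variable {A : Type} [CommRing A]

/-- Post-composition of a matrix representation with a ring map. -/
def mapRep {B : Type} [CommRing B] (φ : A →+* B) (N : Gal →* Mat A) : Gal →* Mat B :=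
  (RingHom.mapMatrix (m := Fin 2) φ).toMonoidHom.comp N

theorem mapRep_apply {B : Type} [CommRing B] (φ : A →+* B) (N : Gal →* Mat A) (σ : Gal) :
    mapRep φ N σ = (N σ).map φ := rfl

theorem mapRep_mapRep {B C : Type} [CommRing B] [CommRing C] (φ : A →+* B) (ψ : B →+* C)
    (N : Gal →* Mat A) : mapRep ψ (mapRep φ N) = mapRep (ψ.comp φ) N := rfl

/-- Conjugation of a matrix representation by an invertible matrix. -/
def conjRep (g : (Mat A)ˣ) (N : Gal →* Mat A) : Gal →* Mat A where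
  toFun σ := g * N σ * ↑g⁻¹
  map_one' := by simp
  map_mul' σ τ := by simp [mul_assoc]

theorem conjRep_apply (g : (Mat A)ˣ) (N : Gal →* Mat A) (σ : Gal) :
    conjRep g N σ = g * N σ * ↑g⁻¹ := rfl

/-- The matrices of a representation in a basis. -/
def repMatrix {V : Type} [AddCommGroup V] [Module A V] (ρ : Gal →* Module.End A V)
    (b : Module.Basis (Fin 2) A V) : Gal →* Mat A :=
  ((LinearMap.toMatrixAlgEquiv b).toAlgHom.toRingHom.toMonoidHom).comp ρ

theorem repMatrix_apply {V : Type} [AddCommGroup V] [Module A V] (ρ : Gal →* Module.End A V)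
    (b : Module.Basis (Fin 2) A V) (σ : Gal) :
    repMatrix ρ b σ = LinearMap.toMatrix b b (ρ σ) := rfl

theorem repMatrix_mulVec {V : Type} [AddCommGroup V] [Module A V] (ρ : Gal →* Module.End A V)
    (b : Module.Basis (Fin 2) A V) (σ : Gal) (x : V) :
    (repMatrix ρ b σ).mulVec (b.equivFun x) = b.equivFun (ρ σ x) :=
  LinearMap.toMatrix_mulVec_repr b b (ρ σ) x

variable [IsLocalRing A]

theorem MatCont.conj {N : Gal →* Mat A} (hN : MatCont N) (g : (Mat A)ˣ) :
    MatCont (conjRep g N) := by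
  intro n
  obtain ⟨L, hL, h⟩ := hN n
  refine ⟨L, hL, fun σ hσ i j => ?_⟩
  have e : conjRep g N σ - 1 = (g : Mat A) * (N σ - 1) * ↑g⁻¹ := by
    rw [mul_sub, sub_mul, mul_one, Units.mul_inv, conjRep_apply]
  rw [← Matrix.sub_apply, e, Matrix.mul_apply]
  refine Ideal.sum_mem _ fun a _ => Ideal.mul_mem_right _ _ ?_
  rw [Matrix.mul_apply]
  exact Ideal.sum_mem _ fun b _ => Ideal.mul_mem_left _ _ (h σ hσ b a)

theorem MatCont.map {B : Type} [CommRing B] [IsLocalRing B] {N : Gal →* Mat A} (hN : MatCont N)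
    (φ : A →+* B) (hφ : IsLocalHom φ) : MatCont (mapRep φ N) := by
  intro n
  obtain ⟨L, hL, h⟩ := hN n
  refine ⟨L, hL, fun σ hσ i j => ?_⟩
  have e : mapRep φ N σ i j - (1 : Mat B) i j = φ (N σ i j - (1 : Mat A) i j) := by
    rw [map_sub, mapRep_apply, Matrix.map_apply, ← Matrix.map_apply (M := (1 : Mat A)) (f := φ),
      Matrix.map_one φ (map_zero φ) (map_one φ)]
  rw [e]
  have hmap : (maximalIdeal A ^ n).map φ ≤ maximalIdeal B ^ n := by
    rw [Ideal.map_pow]
    exact Ideal.pow_right_mono (((local_hom_TFAE φ).out 0 2).mp hφ) n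
  exact hmap (Ideal.mem_map_of_mem φ (h σ hσ i j))

theorem MatCont.of_eventually_one {N : Gal →* Mat A}
    (L : IntermediateField ℚ (AlgebraicClosure ℚ)) [FiniteDimensional ℚ L]
    (h : ∀ σ : Gal, (∀ x ∈ L, σ x = x) → N σ = 1) : MatCont N := fun _ =>
  ⟨L, inferInstance, fun σ hσ i j => by rw [h σ hσ, sub_self]; exact zero_mem _⟩

theorem MatCont.exists_eq_one {N : Gal →* Mat A} (hN : MatCont N) {n : ℕ}
    (hn : maximalIdeal A ^ n = ⊥) : ∃ L : IntermediateField ℚ (AlgebraicClosure ℚ),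
      FiniteDimensional ℚ L ∧ ∀ σ : Gal, (∀ x ∈ L, σ x = x) → N σ = 1 := by
  obtain ⟨L, hL, h⟩ := hN n
  refine ⟨L, hL, fun σ hσ => ?_⟩
  ext i j
  have := h σ hσ i j
  rwa [hn, Ideal.mem_bot, sub_eq_zero] at this

theorem mem_smul_top_pi {I : Ideal A} {v : Fin 2 → A} (h : ∀ i, v i ∈ I) :
    v ∈ I • (⊤ : Submodule A (Fin 2 → A)) := by
  have e : v = ∑ i, v i • (Pi.single i 1 : Fin 2 → A) := by
    funext j
    simp [Finset.sum_apply, Pi.single_apply]
  rw [e]
  exact Submodule.sum_mem _ fun i _ => Submodule.smul_mem_smul (h i) Submodule.mem_top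

/-- The representation on `A ^ 2` attached to a matrix representation. -/
def matRep (N : Gal →* Mat A) (hN : MatCont N) : GaloisRepAdic A where
  V := Fin 2 → A
  finrank_eq := Module.finrank_fin_fun A
  ρ := (Matrix.toLinAlgEquiv' : Mat A ≃ₐ[A] _).toAlgHom.toRingHom.toMonoidHom.comp N
  isAdicContinuous := fun n => by
    obtain ⟨L, hL, h⟩ := hN n
    refine ⟨L, hL, fun σ hσ v => mem_smul_top_pi fun i => ?_⟩
    show (Matrix.mulVec (N σ) v) i - v i ∈ _
    have e : (Matrix.mulVec (N σ) v) i - v i = ∑ j, (N σ i j - (1 : Mat A) i j) * v j := by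
      simp only [sub_mul, Finset.sum_sub_distrib]
      congr 1
      simp [Matrix.one_apply]
    rw [e]
    exact Ideal.sum_mem _ fun j _ => Ideal.mul_mem_right _ _ (h σ hσ i j)

theorem matRep_apply (N : Gal →* Mat A) (hN : MatCont N) (σ : Gal) (v : Fin 2 → A) :
    (matRep N hN).ρ σ v = Matrix.mulVec (N σ) v := rfl

theorem smul_top_coord {V : Type} [AddCommGroup V] [Module A V] (f : V →ₗ[A] A) {I : Ideal A}
    {x : V} (hx : x ∈ I • (⊤ : Submodule A V)) : f x ∈ I := by
  refine Submodule.smul_induction_on (p := fun x => f x ∈ I) hx (fun a ha v _ => ?_)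
    fun u v hu hv => ?_
  · rw [map_smul, smul_eq_mul]
    exact Ideal.mul_mem_right _ _ ha
  · rw [map_add]
    exact add_mem hu hv

theorem matCont_repMatrix (ρ : GaloisRepAdic A) (b : Module.Basis (Fin 2) A ρ.V) :
    MatCont (repMatrix ρ.ρ b) := by
  intro n
  obtain ⟨L, hL, h⟩ := ρ.isAdicContinuous n
  refine ⟨L, hL, fun σ hσ i j => ?_⟩
  have := smul_top_coord (b.coord i) (h σ hσ (b j))
  rw [map_sub] at this
  convert this using 1
  rw [repMatrix_apply, LinearMap.toMatrix_apply, Module.Basis.coord_apply, Module.Basis.coord_apply,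
    Module.Basis.repr_self]
  by_cases hij : i = j
  · subst hij; simp
  · simp [Matrix.one_apply_ne hij, Finsupp.single_eq_of_ne hij]

/-- A choice of basis. -/
def stdBasis (ρ : GaloisRepAdic A) : Module.Basis (Fin 2) A ρ.V :=
  Module.finBasisOfFinrankEq A ρ.V ρ.finrank_eq

theorem isEquiv_matRep (ρ : GaloisRepAdic A) (b : Module.Basis (Fin 2) A ρ.V) :
    ρ.IsEquiv (matRep (repMatrix ρ.ρ b) (matCont_repMatrix ρ b)) :=
  ⟨{ toLinearEquiv := b.equivFun
     map_apply := fun σ x => (repMatrix_mulVec ρ.ρ b σ x).symm }⟩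

section Conj

omit [IsLocalRing A]

theorem exists_conj_of_equiv {V W : Type} [AddCommGroup V] [Module A V] [AddCommGroup W]
    [Module A W] {ρ : Gal →* Module.End A V} {τ : Gal →* Module.End A W}
    (b : Module.Basis (Fin 2) A V) (c : Module.Basis (Fin 2) A W) (e : V ≃ₗ[A] W)
    (he : ∀ σ x, e (ρ σ x) = τ σ (e x)) :
    ∃ g : (Mat A)ˣ, repMatrix τ c = conjRep g (repMatrix ρ b) := by
  refine ⟨⟨LinearMap.toMatrix b c e, LinearMap.toMatrix c b e.symm, ?_, ?_⟩,
    MonoidHom.ext fun σ => ?_⟩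
  · rw [← LinearMap.toMatrix_comp, LinearEquiv.comp_symm, LinearMap.toMatrix_id]
  · rw [← LinearMap.toMatrix_comp, LinearEquiv.symm_comp, LinearMap.toMatrix_id]
  · rw [conjRep_apply, repMatrix_apply, repMatrix_apply]
    show _ = LinearMap.toMatrix b c e * LinearMap.toMatrix b b (ρ σ) *
      LinearMap.toMatrix c b e.symm
    rw [← LinearMap.toMatrix_comp, ← LinearMap.toMatrix_comp]
    congr 1
    ext x
    simp [he]

theorem exists_equiv_of_conj {V W : Type} [AddCommGroup V] [Module A V] [AddCommGroup W]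
    [Module A W] {ρ : Gal →* Module.End A V} {τ : Gal →* Module.End A W}
    (b : Module.Basis (Fin 2) A V) (c : Module.Basis (Fin 2) A W) (g : (Mat A)ˣ)
    (hg : repMatrix τ c = conjRep g (repMatrix ρ b)) :
    ∃ e : V ≃ₗ[A] W, ∀ σ x, e (ρ σ x) = τ σ (e x) := by
  let e : V ≃ₗ[A] W := LinearEquiv.ofLinearMap (Matrix.toLin b c g) (Matrix.toLin c b (↑g⁻¹ : Mat A))
    (by rw [← Matrix.toLin_mul, Units.mul_inv, Matrix.toLin_one])
    (by rw [← Matrix.toLin_mul, Units.inv_mul, Matrix.toLin_one])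
  refine ⟨e, fun σ x => ?_⟩
  have h : (Matrix.toLin b c g).comp (ρ σ) = (τ σ).comp (Matrix.toLin b c g) := by
    apply (LinearMap.toMatrix b c).injective
    have hs : LinearMap.toMatrix c c (τ σ) =
        (g : Mat A) * LinearMap.toMatrix b b (ρ σ) * ((g⁻¹ : (Mat A)ˣ) : Mat A) :=
      DFunLike.congr_fun hg σ
    rw [LinearMap.toMatrix_comp b b c, LinearMap.toMatrix_comp b c c, LinearMap.toMatrix_toLin, hs,
      mul_assoc, Units.inv_mul, mul_one]
  exact DFunLike.congr_fun h x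

end Conj

theorem repMatrix_matRep (N : Gal →* Mat A) (hN : MatCont N) :
    repMatrix (matRep N hN).ρ (Pi.basisFun A (Fin 2)) = N := by
  refine MonoidHom.ext fun σ => ?_
  ext i j
  show LinearMap.toMatrix (Pi.basisFun A (Fin 2)) (Pi.basisFun A (Fin 2))
    (Matrix.toLin' (N σ)) i j = _
  rw [LinearMap.toMatrix_apply, Pi.basisFun_apply, Pi.basisFun_repr, Matrix.toLin'_apply,
    Matrix.mulVec_single_one, Matrix.col_apply]

theorem isEquiv_matRep_iff {N N' : Gal →* Mat A} (hN : MatCont N) (hN' : MatCont N') :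
    (matRep N hN).IsEquiv (matRep N' hN') ↔ ∃ g : (Mat A)ˣ, N' = conjRep g N := by
  refine ⟨fun ⟨e⟩ => ?_, fun ⟨g, hg⟩ => ?_⟩
  · obtain ⟨g, hg⟩ := exists_conj_of_equiv (ρ := (matRep N hN).ρ) (τ := (matRep N' hN').ρ)
      (Pi.basisFun A (Fin 2)) (Pi.basisFun A (Fin 2)) e.toLinearEquiv e.map_apply
    rw [repMatrix_matRep, repMatrix_matRep] at hg
    exact ⟨g, hg⟩
  · obtain ⟨e, he⟩ := exists_equiv_of_conj (ρ := (matRep N hN).ρ) (τ := (matRep N' hN').ρ)
      (Pi.basisFun A (Fin 2)) (Pi.basisFun A (Fin 2)) g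
      (by rw [repMatrix_matRep, repMatrix_matRep]; exact hg)
    exact ⟨⟨e, he⟩⟩

theorem matRep_congr {N N' : Gal →* Mat A} (hN : MatCont N) (hN' : MatCont N') (h : N = N') :
    (matRep N hN).IsEquiv (matRep N' hN') := by
  subst h
  exact ⟨GaloisRepAdic.Equiv.refl _⟩

section BaseChange

variable {B : Type} [CommRing B] [IsLocalRing B]

theorem baseChangeAlong_isEquiv_matRep (φ : A →+* B) (hφ : IsLocalHom φ) {ρ : GaloisRepAdic A}
    {N : Gal →* Mat A} {hN : MatCont N} (h : ρ.IsEquiv (matRep N hN)) :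
    (ρ.baseChangeAlong φ hφ).IsEquiv (matRep (mapRep φ N) (hN.map φ hφ)) := by
  obtain ⟨e⟩ := h
  refine ⟨(e.baseChangeAlong φ hφ).trans (Classical.choice ?_)⟩
  letI : Algebra A B := φ.toAlgebra
  let b : Module.Basis (Fin 2) B ((matRep N hN).baseChangeAlong φ hφ).V :=
    Algebra.TensorProduct.basis B (Pi.basisFun A (Fin 2))
  have hb : repMatrix ((matRep N hN).baseChangeAlong φ hφ).ρ b = mapRep φ N := by
    refine MonoidHom.ext fun σ => ?_
    have h2 : LinearMap.toMatrix (Pi.basisFun A (Fin 2)) (Pi.basisFun A (Fin 2))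
        ((matRep N hN).ρ σ) = N σ := DFunLike.congr_fun (repMatrix_matRep N hN) σ
    exact (LinearMap.toMatrix_baseChange B ((matRep N hN).ρ σ) (Pi.basisFun A (Fin 2))
      (Pi.basisFun A (Fin 2))).trans (congrArg (fun M => Matrix.map M φ) h2)
  obtain ⟨e'⟩ := isEquiv_matRep _ b
  obtain ⟨e''⟩ := matRep_congr (matCont_repMatrix _ b) (hN.map φ hφ) hb
  exact ⟨e'.trans e''⟩

theorem matRep_baseChangeAlong (φ : A →+* B) (hφ : IsLocalHom φ) (N : Gal →* Mat A)
    (hN : MatCont N) :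
    ((matRep N hN).baseChangeAlong φ hφ).IsEquiv (matRep (mapRep φ N) (hN.map φ hφ)) :=
  baseChangeAlong_isEquiv_matRep φ hφ ⟨GaloisRepAdic.Equiv.refl _⟩

theorem isEquiv_baseChangeAlong_matRep (φ : A →+* B) (hφ : IsLocalHom φ) (N : Gal →* Mat A)
    (hN : MatCont N) :
    (matRep (mapRep φ N) (hN.map φ hφ)).IsEquiv ((matRep N hN).baseChangeAlong φ hφ) := by
  obtain ⟨e⟩ := matRep_baseChangeAlong φ hφ N hN
  exact ⟨e.symm⟩

end BaseChange

end FLTAgent.Deformation
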