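import Fermat.Agent.Deformation.Burnside

/-!
# Normalised lifts

If the image of `ρbar` spans the matrix algebra, two linear combinations `X`, `Y` of group elements
reduce to the matrix units `E₁₁`, `E₂₁`. A lift is normalised when the first basis vector is an
eigenvector of `X` and is sent to the second one by `Y`. Over a complete algebra every lift is
equivalent to exactly one normalised lift.
-/

set_option autoImplicit false
set_option linter.unusedSectionVars false

noncomputable section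

open IsLocalRing

namespace FLTAgent.Deformation

variable {𝒪 : Type} [CommRing 𝒪] [IsLocalRing 𝒪]

/-- Coefficients of two combinations of group elements. -/
structure Frame (ρbar : ResidualGaloisRep (ResidueField 𝒪)) where
  s : Finset Gal
  c : Gal → 𝒪
  d : Gal → 𝒪
  hc : ∑ σ ∈ s, residue 𝒪 (c σ) • barMatrix ρbar σ = !![1, 0; 0, 0]
  hd : ∑ σ ∈ s, residue 𝒪 (d σ) • barMatrix ρbar σ = !![0, 0; 1, 0]

variable {ρbar : ResidualGaloisRep (ResidueField 𝒪)}

theorem exists_frame (habs : ρbar.IsAbsolutelyIrreducible) : Nonempty (Frame ρbar) := by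
  classical
  have htop := span_range_repMatrix_eq_top ρbar habs (residualBasis ρbar)
  obtain ⟨l₁, h₁⟩ := Finsupp.mem_span_range_iff_exists_finsupp.mp
    (show (!![1, 0; 0, 0] : Mat (ResidueField 𝒪)) ∈
      Submodule.span (ResidueField 𝒪) (Set.range (barMatrix ρbar)) from htop ▸ Submodule.mem_top)
  obtain ⟨l₂, h₂⟩ := Finsupp.mem_span_range_iff_exists_finsupp.mp
    (show (!![0, 0; 1, 0] : Mat (ResidueField 𝒪)) ∈
      Submodule.span (ResidueField 𝒪) (Set.range (barMatrix ρbar)) from htop ▸ Submodule.mem_top)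
  choose sec hsec using (IsLocalRing.residue_surjective : Function.Surjective (residue 𝒪))
  refine ⟨⟨l₁.support ∪ l₂.support, fun σ => sec (l₁ σ), fun σ => sec (l₂ σ), ?_, ?_⟩⟩
  · simp only [hsec]
    rw [← h₁, Finsupp.sum_of_support_subset l₁ Finset.subset_union_left _ (by simp)]
  · simp only [hsec]
    rw [← h₂, Finsupp.sum_of_support_subset l₂ Finset.subset_union_right _ (by simp)]

namespace Frame

variable (F : Frame ρbar) {A : Type} [CommRing A] [Algebra 𝒪 A]

/-- The combination reducing to `E₁₁`. -/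
def X (N : Gal → Mat A) : Mat A := ∑ σ ∈ F.s, F.c σ • N σ

/-- The combination reducing to `E₂₁`. -/
def Y (N : Gal → Mat A) : Mat A := ∑ σ ∈ F.s, F.d σ • N σ

/-- A matrix representation is normalised for the frame. -/
def IsNormal (N : Gal → Mat A) : Prop := F.X N 1 0 = 0 ∧ F.Y N 0 0 = 0 ∧ F.Y N 1 0 = 1

variable {B : Type} [CommRing B] [Algebra 𝒪 B]

theorem X_map (f : A →ₐ[𝒪] B) (N : Gal → Mat A) :
    F.X (fun σ => (N σ).map f) = (F.X N).map f := by
  ext i j
  simp [X, Matrix.sum_apply, map_sum, map_smul]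

theorem Y_map (f : A →ₐ[𝒪] B) (N : Gal → Mat A) :
    F.Y (fun σ => (N σ).map f) = (F.Y N).map f := by
  ext i j
  simp [Y, Matrix.sum_apply, map_sum, map_smul]

theorem isNormal_map {N : Gal →* Mat A} (h : F.IsNormal N) (f : A →ₐ[𝒪] B) :
    F.IsNormal (mapRep (f : A →+* B) N) := by
  have hX := F.X_map f N
  have hY := F.Y_map f N
  obtain ⟨h1, h2, h3⟩ := h
  refine ⟨?_, ?_, ?_⟩
  · show F.X (fun σ => (N σ).map f) 1 0 = 0
    rw [hX, Matrix.map_apply, h1, map_zero]
  · show F.Y (fun σ => (N σ).map f) 0 0 = 0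
    rw [hY, Matrix.map_apply, h2, map_zero]
  · show F.Y (fun σ => (N σ).map f) 1 0 = 1
    rw [hY, Matrix.map_apply, h3, map_one]

theorem isNormal_of_map {N : Gal →* Mat A} (f : A →ₐ[𝒪] B) (hf : Function.Injective f)
    (h : F.IsNormal (mapRep (f : A →+* B) N)) : F.IsNormal N := by
  obtain ⟨h1, h2, h3⟩ := h
  rw [show F.X (mapRep (f : A →+* B) N) = (F.X N).map f from F.X_map f N, Matrix.map_apply] at h1
  rw [show F.Y (mapRep (f : A →+* B) N) = (F.Y N).map f from F.Y_map f N, Matrix.map_apply] at h2 h3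
  exact ⟨hf (h1.trans (map_zero f).symm), hf (h2.trans (map_zero f).symm),
    hf (h3.trans (map_one f).symm)⟩

theorem X_conjRep (g : (Mat A)ˣ) (N : Gal →* Mat A) :
    F.X (conjRep g N) = g * F.X N * ↑g⁻¹ := by
  rw [X, X, Finset.mul_sum, Finset.sum_mul]
  refine Finset.sum_congr rfl fun σ _ => ?_
  rw [conjRep_apply, mul_smul_comm, smul_mul_assoc]

theorem Y_conjRep (g : (Mat A)ˣ) (N : Gal →* Mat A) :
    F.Y (conjRep g N) = g * F.Y N * ↑g⁻¹ := by
  rw [Y, Y, Finset.mul_sum, Finset.sum_mul]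
  refine Finset.sum_congr rfl fun σ _ => ?_
  rw [conjRep_apply, mul_smul_comm, smul_mul_assoc]

variable [IsLocalRing A]

theorem X_toK (hA : IsCoeff 𝒪 A) {N : Gal →* Mat A} (hl : IsLift ρbar hA N) :
    (F.X N).map hA.toK = !![1, 0; 0, 0] := by
  rw [← F.hc, ← F.X_map hA.toK N, X]
  refine Finset.sum_congr rfl fun σ _ => ?_
  have h : (N σ).map hA.toK = barMatrix ρbar σ := DFunLike.congr_fun hl σ
  rw [h, ← IsScalarTower.algebraMap_smul (ResidueField 𝒪) (F.c σ)]
  rfl

theorem Y_toK (hA : IsCoeff 𝒪 A) {N : Gal →* Mat A} (hl : IsLift ρbar hA N) :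
    (F.Y N).map hA.toK = !![0, 0; 1, 0] := by
  rw [← F.hd, ← F.Y_map hA.toK N, Y]
  refine Finset.sum_congr rfl fun σ _ => ?_
  have h : (N σ).map hA.toK = barMatrix ρbar σ := DFunLike.congr_fun hl σ
  rw [h, ← IsScalarTower.algebraMap_smul (ResidueField 𝒪) (F.d σ)]
  rfl

/-- Two conjugate normalised lifts are equal. -/
theorem eq_of_conj (hA : IsCoeff 𝒪 A) {N N' : Gal →* Mat A} (hl : IsLift ρbar hA N)
    (hl' : IsLift ρbar hA N') (hn : F.IsNormal N) (hn' : F.IsNormal N') (g : (Mat A)ˣ)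
    (hg : N' = conjRep g N) : N' = N := by
  obtain ⟨x10, y00, y10⟩ := hn
  obtain ⟨x10', y00', y10'⟩ := hn'
  have hX : F.X N' * g = g * F.X N := by
    rw [hg, X_conjRep, mul_assoc, Units.inv_mul, mul_one]
  have hY : F.Y N' * g = g * F.Y N := by
    rw [hg, Y_conjRep, mul_assoc, Units.inv_mul, mul_one]
  have hu : IsUnit (F.X N' 1 1 - F.X N 0 0) := by
    have a := congrFun (congrFun (F.X_toK hA hl') 1) 1
    have b := congrFun (congrFun (F.X_toK hA hl) 0) 0
    simp only [Matrix.map_apply] at a b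
    rw [hA.isUnit_iff, map_sub, a, b]
    simp
  have e1 := congrFun (congrFun hX 1) 0
  have e2 := congrFun (congrFun hY 0) 0
  have e3 := congrFun (congrFun hY 1) 0
  simp only [Matrix.mul_apply, Fin.sum_univ_two, x10, x10', y00, y00', y10, y10'] at e1 e2 e3
  have g10 : (g : Mat A) 1 0 = 0 := by
    refine hu.mul_left_cancel ?_
    linear_combination e1
  have g01 : (g : Mat A) 0 1 = 0 := by
    rw [g10] at e2
    linear_combination -e2
  have g11 : (g : Mat A) 1 1 = (g : Mat A) 0 0 := by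
    rw [g10] at e3
    linear_combination -e3
  have hgs : (g : Mat A) = (g : Mat A) 0 0 • 1 := by
    ext i j
    fin_cases i <;> fin_cases j <;> simp [g10, g01, g11]
  refine MonoidHom.ext fun σ => ?_
  have : ((g : Mat A) 0 0) • ((g⁻¹ : (Mat A)ˣ) : Mat A) = 1 := by
    have h := Units.mul_inv g
    rwa [hgs, smul_mul_assoc, one_mul] at h
  rw [hg, conjRep_apply, hgs, smul_mul_assoc, one_mul, smul_mul_assoc, ← mul_smul_comm, this,
    mul_one]

/-- Every lift to a complete algebra is conjugate to a normalised lift. -/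
theorem exists_normal [IsAdicComplete (maximalIdeal A) A] (hA : IsCoeff 𝒪 A) {N : Gal →* Mat A}
    (hl : IsLift ρbar hA N) :
    ∃ g : (Mat A)ˣ, IsLift ρbar hA (conjRep g N) ∧ F.IsNormal (conjRep g N) := by
  set M := F.X N
  set W := F.Y N
  have hM := F.X_toK hA hl
  have hW := F.Y_toK hA hl
  have hM' : ∀ i j, hA.toK (M i j) = (!![1, 0; 0, 0] : Mat (ResidueField 𝒪)) i j := fun i j =>
    congrFun (congrFun hM i) j
  have hW' : ∀ i j, hA.toK (W i j) = (!![0, 0; 1, 0] : Mat (ResidueField 𝒪)) i j := fun i j =>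
    congrFun (congrFun hW i) j
  let f : Polynomial A := Polynomial.X ^ 2 - Polynomial.C (M 0 0 + M 1 1) * Polynomial.X +
    Polynomial.C (M 0 0 * M 1 1 - M 0 1 * M 1 0)
  have hfm : f.Monic := by
    show (Polynomial.X ^ 2 - Polynomial.C (M 0 0 + M 1 1) * Polynomial.X +
      Polynomial.C (M 0 0 * M 1 1 - M 0 1 * M 1 0)).Monic
    monicity!
  obtain ⟨lam, hlam, hlam1⟩ := (IsAdicComplete.henselianRing A (maximalIdeal A)).is_henselian
    f hfm 1 (by
      rw [← hA.toK_eq_zero]
      simp [f, hM']) (by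
      refine IsUnit.map _ (hA.isUnit_iff.mpr ?_)
      simp [f, hM'])
  have hlam' : hA.toK lam = 1 := by
    have := hA.toK_eq_zero.mpr hlam1
    rwa [map_sub, map_one, sub_eq_zero] at this
  have hroot : lam ^ 2 - (M 0 0 + M 1 1) * lam + (M 0 0 * M 1 1 - M 0 1 * M 1 0) = 0 := by
    simpa [f, Polynomial.IsRoot] using hlam
  -- the new basis: an eigenvector and its image
  let P : Mat A := !![lam - M 1 1, W 0 0 * (lam - M 1 1) + W 0 1 * M 1 0;
                     M 1 0, W 1 0 * (lam - M 1 1) + W 1 1 * M 1 0]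
  have hP : P.map hA.toK = 1 := by
    ext i j
    fin_cases i <;> fin_cases j <;> simp [P, hM', hW', hlam']
  have hPdet : IsUnit P.det := by
    rw [hA.isUnit_iff]
    have h := RingHom.map_det (hA.toK : A →+* ResidueField 𝒪) P
    rw [RingHom.mapMatrix_apply] at h
    show (hA.toK : A →+* ResidueField 𝒪) P.det ≠ 0
    rw [h]
    show (P.map hA.toK).det ≠ 0
    rw [hP, Matrix.det_one]
    exact one_ne_zero
  let u : (Mat A)ˣ := ((Matrix.isUnit_iff_isUnit_det P).mpr hPdet).unit
  have hu : (u : Mat A) = P := rfl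
  refine ⟨u⁻¹, ?_, ?_⟩
  · rw [IsLift, mapRep_conjRep]
    have h1 : Units.map (RingHom.mapMatrix (m := Fin 2) (hA.toK : A →+* ResidueField 𝒪)).toMonoidHom
        u⁻¹ = 1 := by
      rw [map_inv, inv_eq_one]
      exact Units.ext hP
    rw [h1, conjRep_one]
    exact hl
  · have hX : F.X (conjRep u⁻¹ N) = ↑u⁻¹ * M * P := by rw [X_conjRep, inv_inv, hu]
    have hY : F.Y (conjRep u⁻¹ N) = ↑u⁻¹ * W * P := by rw [Y_conjRep, inv_inv, hu]
    have hv : ((u⁻¹ : (Mat A)ˣ) : Mat A) * P = 1 := Units.inv_mul u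
    generalize ((u⁻¹ : (Mat A)ˣ) : Mat A) = U at hX hY hv
    have c00 := congrFun (congrFun hv 0) 0
    have c01 := congrFun (congrFun hv 0) 1
    have c10 := congrFun (congrFun hv 1) 0
    have c11 := congrFun (congrFun hv 1) 1
    simp [Matrix.mul_apply, Fin.sum_univ_two, P] at c00 c01 c10 c11
    refine ⟨?_, ?_, ?_⟩
    · rw [hX]
      simp [Matrix.mul_apply, Fin.sum_univ_two, P]
      linear_combination lam * c10 - U 1 0 * hroot
    · rw [hY]
      simp [Matrix.mul_apply, Fin.sum_univ_two, P]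
      linear_combination c01
    · rw [hY]
      simp [Matrix.mul_apply, Fin.sum_univ_two, P]
      linear_combination c11

end Frame

end FLTAgent.Deformation
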