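import Fermat.Agent.Deformation.Coeff
import Fermat.Prelude.Thm_IsLocalRing_isAdicComplete_of_module_finite

/-!
# Power series over a complete local ring

`𝒪⟦X₁,…,Xᵣ⟧` is complete for its maximal ideal, it can be evaluated at any tuple of elements of
the maximal ideal of a complete coefficient algebra, and this evaluation is surjective as soon as
the elements generate the maximal ideal together with that of `𝒪`.
-/

set_option autoImplicit false
set_option linter.unusedSectionVars false

noncomputable section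

open IsLocalRing Finsupp

namespace FLTAgent.Deformation

variable {𝒪 : Type} [CommRing 𝒪] [IsLocalRing 𝒪]
variable {σ : Type} [Finite σ]

local notation "𝔓" => MvPowerSeries σ 𝒪

theorem mem_maximalIdeal_powerSeries {f : MvPowerSeries σ 𝒪} :
    f ∈ maximalIdeal (MvPowerSeries σ 𝒪) ↔ MvPowerSeries.constantCoeff f ∈ maximalIdeal 𝒪 := by
  rw [IsLocalRing.mem_maximalIdeal, mem_nonunits_iff, MvPowerSeries.isUnit_iff_constantCoeff,
    IsLocalRing.mem_maximalIdeal, mem_nonunits_iff]

theorem span_X_le_maximalIdeal :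
    Ideal.span (Set.range MvPowerSeries.X) ≤ maximalIdeal (MvPowerSeries σ 𝒪) := by
  rw [Ideal.span_le]
  rintro _ ⟨i, rfl⟩
  rw [SetLike.mem_coe, mem_maximalIdeal_powerSeries, MvPowerSeries.constantCoeff_X]
  exact zero_mem _

theorem constantCoeff_algebraMap (a : 𝒪) :
    MvPowerSeries.constantCoeff (algebraMap 𝒪 (MvPowerSeries σ 𝒪) a) = a := by
  rw [MvPowerSeries.algebraMap_apply, MvPowerSeries.constantCoeff_C, Algebra.algebraMap_self_apply]

theorem isCoeff_powerSeries : IsCoeff 𝒪 (MvPowerSeries σ 𝒪) := by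
  refine ⟨⟨fun a ha => ?_⟩, fun z => ?_⟩
  · have := MvPowerSeries.isUnit_iff_constantCoeff.mp ha
    rwa [constantCoeff_algebraMap] at this
  · obtain ⟨f, rfl⟩ := IsLocalRing.residue_surjective z
    refine ⟨MvPowerSeries.constantCoeff f, ?_⟩
    show residue _ (algebraMap 𝒪 _ _) = _
    rw [← sub_eq_zero, ← map_sub, residue_eq_zero_iff, mem_maximalIdeal_powerSeries, map_sub,
      constantCoeff_algebraMap, sub_self]
    exact zero_mem _

theorem coeff_mem_of_mem_pow {n : ℕ} {f : MvPowerSeries σ 𝒪}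
    (hf : f ∈ maximalIdeal (MvPowerSeries σ 𝒪) ^ n) (d : σ →₀ ℕ) :
    MvPowerSeries.coeff d f ∈ maximalIdeal 𝒪 ^ (n - d.degree) := by
  classical
  induction n generalizing f d with
  | zero => simp
  | succ n ih =>
    rw [pow_succ] at hf
    refine Submodule.mul_induction_on hf (fun a ha b hb => ?_) (fun a b ha hb => ?_)
    · rw [MvPowerSeries.coeff_mul]
      refine Ideal.sum_mem _ fun p hp => ?_
      have hd : p.1.degree + p.2.degree = d.degree := by
        rw [← map_add, Finset.HasAntidiagonal.mem_antidiagonal.mp hp]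
      rcases eq_or_ne p.2 0 with h0 | h0
      · rw [h0, map_zero] at hd
        have hb' : MvPowerSeries.coeff p.2 b ∈ maximalIdeal 𝒪 := by
          rw [h0, MvPowerSeries.coeff_zero_eq_constantCoeff_apply]
          exact mem_maximalIdeal_powerSeries.mp hb
        refine Ideal.pow_le_pow_right (show n + 1 - d.degree ≤ (n - p.1.degree) + 1 by omega) ?_
        rw [pow_succ]
        exact Ideal.mul_mem_mul (ih ha p.1) hb'
      · have : p.2.degree ≠ 0 := fun h => h0 ((Finsupp.degree_eq_zero_iff _).mp h)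
        exact Ideal.mul_mem_right _ _
          (Ideal.pow_le_pow_right (show n + 1 - d.degree ≤ n - p.1.degree by omega) (ih ha p.1))
    · rw [map_add]
      exact Ideal.add_mem _ ha hb

omit [IsLocalRing 𝒪] in
theorem coeff_eq_zero_of_mem_span_X_pow {n : ℕ} {f : MvPowerSeries σ 𝒪}
    (hf : f ∈ Ideal.span (Set.range MvPowerSeries.X) ^ n) (d : σ →₀ ℕ) (hd : d.degree < n) :
    MvPowerSeries.coeff d f = 0 := by
  classical
  induction n generalizing f d with
  | zero => omega
  | succ n ih =>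
    have h0 : ∀ {b : MvPowerSeries σ 𝒪}, b ∈ Ideal.span (Set.range MvPowerSeries.X) →
        MvPowerSeries.constantCoeff b = 0 := by
      intro b hb
      refine RingHom.mem_ker.mp ((Ideal.span_le (I := RingHom.ker _)).mpr ?_ hb)
      rintro _ ⟨i, rfl⟩
      simp [RingHom.mem_ker]
    rw [pow_succ] at hf
    refine Submodule.mul_induction_on hf (fun a ha b hb => ?_) (fun a b ha hb => ?_)
    · rw [MvPowerSeries.coeff_mul]
      refine Finset.sum_eq_zero fun p hp => ?_
      have hd' : p.1.degree + p.2.degree = d.degree := by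
        rw [← map_add, Finset.HasAntidiagonal.mem_antidiagonal.mp hp]
      rcases eq_or_ne p.2 0 with h2 | h2
      · rw [h2, MvPowerSeries.coeff_zero_eq_constantCoeff_apply, h0 hb, mul_zero]
      · have : p.2.degree ≠ 0 := fun h => h2 ((Finsupp.degree_eq_zero_iff _).mp h)
        rw [ih ha p.1 (by omega), zero_mul]
    · rw [map_add, ha, hb, add_zero]

omit [IsLocalRing 𝒪] in
theorem sub_truncTotal_mem_span_X_pow (f : MvPowerSeries σ 𝒪) (n : ℕ) :
    f - (MvPowerSeries.truncTotal n f : MvPowerSeries σ 𝒪) ∈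
      Ideal.span (Set.range MvPowerSeries.X) ^ n := by
  have hmap : (MvPolynomial.idealOfVars σ 𝒪).map (MvPolynomial.coeToMvPowerSeries.ringHom) ≤
      Ideal.span (Set.range MvPowerSeries.X) := by
    rw [Ideal.map_span, Ideal.span_le]
    rintro _ ⟨_, ⟨i, rfl⟩, rfl⟩
    exact Ideal.subset_span ⟨i, (MvPolynomial.coe_X i).symm⟩
  have hstep : ∀ m, (MvPowerSeries.truncTotal (m + 1) f : MvPowerSeries σ 𝒪) -
      (MvPowerSeries.truncTotal m f : MvPowerSeries σ 𝒪) ∈
        Ideal.span (Set.range MvPowerSeries.X) ^ m := by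
    intro m
    have h := MvPowerSeries.truncTotal_sub_truncTotal_mem_pow_idealOfVars
      (show m ≤ m + 1 by omega) (le_refl m) f
    have h' := Ideal.mem_map_of_mem (MvPolynomial.coeToMvPowerSeries.ringHom) h
    rw [Ideal.map_pow] at h'
    have := Ideal.pow_right_mono hmap m h'
    rwa [map_sub] at this
  obtain ⟨g, hg⟩ := exists_adic_limit (I := Ideal.span (Set.range MvPowerSeries.X))
    (fun m => (MvPowerSeries.truncTotal m f : MvPowerSeries σ 𝒪)) hstep
  have hfg : g = f := by
    ext d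
    have := coeff_eq_zero_of_mem_span_X_pow (hg (d.degree + 1)) d (by omega)
    rw [map_sub, sub_eq_zero, MvPolynomial.coeff_coe,
      MvPowerSeries.coeff_truncTotal _ (by omega)] at this
    exact this
  exact hfg ▸ hg n

theorem mem_maximalIdeal_pow_powerSeries {n : ℕ} {f : MvPowerSeries σ 𝒪} :
    f ∈ maximalIdeal (MvPowerSeries σ 𝒪) ^ n ↔
      ∀ d : σ →₀ ℕ, MvPowerSeries.coeff d f ∈ maximalIdeal 𝒪 ^ (n - d.degree) := by
  refine ⟨coeff_mem_of_mem_pow, fun h => ?_⟩
  rw [← sub_add_cancel f (MvPowerSeries.truncTotal n f : MvPowerSeries σ 𝒪)]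
  refine Ideal.add_mem _
    (Ideal.pow_right_mono span_X_le_maximalIdeal n (sub_truncTotal_mem_span_X_pow f n)) ?_
  change MvPolynomial.coeToMvPowerSeries.ringHom (MvPowerSeries.truncTotal n f) ∈ _
  rw [MvPolynomial.as_sum (MvPowerSeries.truncTotal n f), map_sum]
  refine Ideal.sum_mem _ fun d hd => ?_
  have hdn : d.degree < n := by
    by_contra hcon
    exact MvPolynomial.mem_support_iff.mp hd
      (MvPowerSeries.coeff_truncTotal_eq_zero _ (not_lt.mp hcon))
  rw [MvPowerSeries.coeff_truncTotal _ hdn,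
    show MvPolynomial.monomial d (MvPowerSeries.coeff d f) =
      MvPolynomial.C (MvPowerSeries.coeff d f) * MvPolynomial.monomial d 1 by
        rw [MvPolynomial.C_mul_monomial, mul_one], map_mul,
    show n = (n - d.degree) + d.degree by omega, pow_add]
  refine Ideal.mul_mem_mul ?_ ?_
  · have hC : (maximalIdeal 𝒪).map (MvPowerSeries.C (σ := σ)) ≤
        maximalIdeal (MvPowerSeries σ 𝒪) := by
      rw [Ideal.map_le_iff_le_comap]
      intro a ha
      rw [Ideal.mem_comap, mem_maximalIdeal_powerSeries, MvPowerSeries.constantCoeff_C]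
      exact ha
    refine Ideal.pow_right_mono hC _ ?_
    rw [← Ideal.map_pow]
    have : MvPolynomial.coeToMvPowerSeries.ringHom (MvPolynomial.C (MvPowerSeries.coeff d f)) =
        MvPowerSeries.C (σ := σ) (MvPowerSeries.coeff d f) := MvPolynomial.coe_C _
    rw [this]
    exact Ideal.mem_map_of_mem _ (h d)
  · have hmap : (MvPolynomial.idealOfVars σ 𝒪).map (MvPolynomial.coeToMvPowerSeries.ringHom) ≤
        maximalIdeal (MvPowerSeries σ 𝒪) := by
      rw [Ideal.map_span, Ideal.span_le]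
      rintro _ ⟨_, ⟨i, rfl⟩, rfl⟩
      exact span_X_le_maximalIdeal (Ideal.subset_span ⟨i, (MvPolynomial.coe_X i).symm⟩)
    refine Ideal.pow_right_mono hmap _ ?_
    rw [← Ideal.map_pow]
    exact Ideal.mem_map_of_mem _
      ((MvPolynomial.monomial_mem_pow_idealOfVars_iff _ _ one_ne_zero).mpr le_rfl)

theorem isAdicComplete_powerSeries [IsAdicComplete (maximalIdeal 𝒪) 𝒪] :
    IsAdicComplete (maximalIdeal (MvPowerSeries σ 𝒪)) (MvPowerSeries σ 𝒪) where
  haus' f hf := by
    ext d
    rw [map_zero]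
    refine eq_zero_of_forall_mem_pow (I := maximalIdeal 𝒪) fun n => ?_
    have := hf (n + d.degree)
    rw [SModEq.sub_mem, sub_zero, smul_eq_mul, Ideal.mul_top] at this
    simpa using coeff_mem_of_mem_pow this d
  prec' f hf := by
    have hf' : ∀ {m n}, m ≤ n → f n - f m ∈ maximalIdeal (MvPowerSeries σ 𝒪) ^ m := by
      intro m n h
      have := hf h
      rw [SModEq.sub_mem, smul_eq_mul, Ideal.mul_top, ← neg_sub] at this
      exact neg_mem_iff.mp this
    have hd : ∀ d : σ →₀ ℕ, ∃ L : 𝒪, ∀ n,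
        L - MvPowerSeries.coeff d (f (n + d.degree)) ∈ maximalIdeal 𝒪 ^ n := fun d =>
      exists_adic_limit _ fun n => by
        rw [← map_sub]
        simpa using coeff_mem_of_mem_pow
          (hf' (show n + d.degree ≤ n + 1 + d.degree by omega)) d
    choose L hL using hd
    let g : MvPowerSeries σ 𝒪 := fun d => L d
    refine ⟨g, fun n => ?_⟩
    rw [SModEq.sub_mem, smul_eq_mul, Ideal.mul_top, ← neg_sub]
    refine neg_mem (mem_maximalIdeal_pow_powerSeries.mpr fun d => ?_)
    rw [map_sub, MvPowerSeries.coeff_apply]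
    show L d - _ ∈ _
    rcases le_or_gt n d.degree with h | h
    · rw [Nat.sub_eq_zero_of_le h, pow_zero, Ideal.one_eq_top]
      trivial
    · have := hL d (n - d.degree)
      rwa [Nat.sub_add_cancel h.le] at this

/-! ### Evaluation -/

variable {A : Type} [CommRing A] [IsLocalRing A] [Algebra 𝒪 A]

theorem aeval_mem_pow_of_mem_idealOfVars_pow {x : σ → A} (hx : ∀ i, x i ∈ maximalIdeal A) {n : ℕ}
    {q : MvPolynomial σ 𝒪} (hq : q ∈ MvPolynomial.idealOfVars σ 𝒪 ^ n) :
    MvPolynomial.aeval x q ∈ maximalIdeal A ^ n := by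
  have : (MvPolynomial.idealOfVars σ 𝒪 ^ n).map
      (MvPolynomial.aeval (R := 𝒪) x : MvPolynomial σ 𝒪 →+* A) ≤ maximalIdeal A ^ n := by
    rw [Ideal.map_pow]
    refine Ideal.pow_right_mono ?_ n
    rw [Ideal.map_span, Ideal.span_le]
    rintro _ ⟨_, ⟨i, rfl⟩, rfl⟩
    simpa using hx i
  exact this (Ideal.mem_map_of_mem _ hq)

variable [IsAdicComplete (maximalIdeal A) A] (x : σ → A) (hx : ∀ i, x i ∈ maximalIdeal A)

/-- Evaluation of power series modulo a power of the maximal ideal. -/
def psEvalAux (n : ℕ) : MvPowerSeries σ 𝒪 →ₐ[𝒪] A ⧸ maximalIdeal A ^ n :=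
  (Ideal.Quotient.liftₐ _ ((Ideal.Quotient.mkₐ 𝒪 _).comp (MvPolynomial.aeval x)) fun _ hq =>
    Ideal.Quotient.eq_zero_iff_mem.mpr (aeval_mem_pow_of_mem_idealOfVars_pow hx hq)).comp
  ((MvPowerSeries.truncTotalAlgHom σ 𝒪 n).restrictScalars 𝒪)

theorem psEvalAux_apply (n : ℕ) (f : MvPowerSeries σ 𝒪) :
    psEvalAux x hx n f = Ideal.Quotient.mk _ (MvPolynomial.aeval x (MvPowerSeries.truncTotal n f)) :=
  rfl

theorem psEvalAux_compat {m n : ℕ} (h : m ≤ n) :
    (Ideal.Quotient.factorₐ 𝒪 (Ideal.pow_le_pow_right h)).comp (psEvalAux x hx n) =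
      psEvalAux x hx m := by
  ext f
  rw [AlgHom.comp_apply, psEvalAux_apply, psEvalAux_apply]
  show Ideal.Quotient.mk _ _ = _
  rw [Ideal.Quotient.eq, ← map_sub]
  exact aeval_mem_pow_of_mem_idealOfVars_pow hx
    (MvPowerSeries.truncTotal_sub_truncTotal_mem_pow_idealOfVars h le_rfl f)

/-- Evaluation of power series at elements of the maximal ideal of a complete algebra. -/
def psEval : MvPowerSeries σ 𝒪 →ₐ[𝒪] A :=
  IsAdicComplete.liftAlgHom (maximalIdeal A) (psEvalAux x hx)
    (fun h => psEvalAux_compat x hx h)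

theorem psEval_coe (q : MvPolynomial σ 𝒪) :
    psEval x hx (q : MvPowerSeries σ 𝒪) = MvPolynomial.aeval x q := by
  rw [← sub_eq_zero]
  refine eq_zero_of_forall_mem_pow (I := maximalIdeal A) fun n => ?_
  rw [← Ideal.Quotient.eq]
  show Ideal.Quotient.mk _ (IsAdicComplete.liftAlgHom _ _ _ _) = _
  rw [IsAdicComplete.mk_liftAlgHom, psEvalAux_apply, Ideal.Quotient.eq, ← map_sub]
  refine aeval_mem_pow_of_mem_idealOfVars_pow hx
    ((MvPolynomial.mem_pow_idealOfVars_iff' ..).mpr fun d hd => ?_)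
  rw [MvPolynomial.coeff_sub, MvPowerSeries.coeff_truncTotal _ hd, MvPolynomial.coeff_coe,
    sub_self]

theorem psEval_X (i : σ) : psEval x hx (MvPowerSeries.X i : MvPowerSeries σ 𝒪) = x i := by
  simpa using psEval_coe x hx (MvPolynomial.X i)

omit [IsAdicComplete (maximalIdeal A) A] in
/-- Two algebra maps out of a power series ring which send the variables to the same elements of
the maximal ideal agree, when the target is separated. -/
theorem powerSeries_algHom_ext [IsHausdorff (maximalIdeal A) A]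
    {f g : MvPowerSeries σ 𝒪 →ₐ[𝒪] A} (hX : ∀ i, f (MvPowerSeries.X i) = g (MvPowerSeries.X i))
    (hm : ∀ i, f (MvPowerSeries.X i) ∈ maximalIdeal A) : f = g := by
  ext h
  rw [← sub_eq_zero]
  refine eq_zero_of_forall_mem_pow (I := maximalIdeal A) fun n => ?_
  have hle : ∀ F : MvPowerSeries σ 𝒪 →ₐ[𝒪] A, (∀ i, F (MvPowerSeries.X i) ∈ maximalIdeal A) →
      F (h - (MvPowerSeries.truncTotal n h : MvPowerSeries σ 𝒪)) ∈ maximalIdeal A ^ n := by
    intro F hF
    have hle' : (Ideal.span (Set.range MvPowerSeries.X) ^ n).map F ≤ maximalIdeal A ^ n := by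
      rw [Ideal.map_pow]
      refine Ideal.pow_right_mono ?_ n
      rw [Ideal.map_span, Ideal.span_le]
      rintro _ ⟨_, ⟨i, rfl⟩, rfl⟩
      exact hF i
    exact hle' (Ideal.mem_map_of_mem _ (sub_truncTotal_mem_span_X_pow h n))
  have hq : ∀ q : MvPolynomial σ 𝒪, f (q : MvPowerSeries σ 𝒪) = g (q : MvPowerSeries σ 𝒪) := by
    intro q
    have : f.comp (MvPolynomial.coeToMvPowerSeries.algHom 𝒪) =
        g.comp (MvPolynomial.coeToMvPowerSeries.algHom 𝒪) :=
      MvPolynomial.algHom_ext fun i => by simpa using hX i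
    simpa using DFunLike.congr_fun this q
  have h1 := hle f hm
  have h2 := hle g (fun i => hX i ▸ hm i)
  rw [map_sub] at h1 h2
  have := Ideal.sub_mem _ h1 h2
  rwa [hq, sub_sub_sub_cancel_right] at this

omit [IsAdicComplete (maximalIdeal A) A] in
/-- A map from `𝒪⟦X⟧` to a separated algebra with residue field `k` is surjective as soon as the
image of the maximal ideal generates the maximal ideal. -/
theorem powerSeries_surjective [IsAdicComplete (maximalIdeal 𝒪) 𝒪]
    [IsHausdorff (maximalIdeal A) A]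
    (hA : Function.Surjective (residue A ∘ algebraMap 𝒪 A))
    (f : MvPowerSeries σ 𝒪 →ₐ[𝒪] A)
    (hm : (maximalIdeal (MvPowerSeries σ 𝒪)).map f = maximalIdeal A) : Function.Surjective f := by
  have := isAdicComplete_powerSeries (σ := σ) (𝒪 := 𝒪)
  have hres : ∀ a : A, ∃ r : 𝒪, a - algebraMap 𝒪 A r ∈ maximalIdeal A := fun a => by
    obtain ⟨r, hr⟩ := hA (residue A a)
    refine ⟨r, ?_⟩
    rw [← residue_eq_zero_iff, map_sub, sub_eq_zero]
    exact hr.symm
  have hstep : ∀ n, ∀ z ∈ maximalIdeal A ^ n, ∃ e ∈ maximalIdeal (MvPowerSeries σ 𝒪) ^ n,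
      z - f e ∈ maximalIdeal A ^ (n + 1) := by
    intro n z hz
    rw [← hm, ← Ideal.map_pow] at hz
    refine Submodule.span_induction (p := fun z _ => ∃ e ∈ maximalIdeal (MvPowerSeries σ 𝒪) ^ n,
      z - f e ∈ maximalIdeal A ^ (n + 1)) ?_ ?_ ?_ ?_ hz
    · rintro _ ⟨e, he, rfl⟩
      exact ⟨e, he, by simp⟩
    · exact ⟨0, zero_mem _, by simp⟩
    · rintro y z - - ⟨d, hd, hd'⟩ ⟨e, he, he'⟩
      refine ⟨d + e, add_mem hd he, ?_⟩
      rw [map_add, add_sub_add_comm]
      exact add_mem hd' he'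
    · rintro a z - ⟨e, he, he'⟩
      obtain ⟨r, hr⟩ := hres a
      refine ⟨algebraMap 𝒪 _ r * e, Ideal.mul_mem_left _ _ he, ?_⟩
      have hfe : f e ∈ maximalIdeal A ^ n := by
        rw [← hm, ← Ideal.map_pow]
        exact Ideal.mem_map_of_mem _ he
      rw [map_mul, AlgHom.commutes, smul_eq_mul,
        show a * z - algebraMap 𝒪 A r * f e =
          a * (z - f e) + (a - algebraMap 𝒪 A r) * f e by ring]
      refine add_mem (Ideal.mul_mem_left _ _ he') ?_
      rw [pow_succ']
      exact Ideal.mul_mem_mul hr hfe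
  intro y
  have hex : ∀ n, ∀ g : MvPowerSeries σ 𝒪, ∃ g' : MvPowerSeries σ 𝒪,
      y - f g ∈ maximalIdeal A ^ n →
        g' - g ∈ maximalIdeal (MvPowerSeries σ 𝒪) ^ n ∧ y - f g' ∈ maximalIdeal A ^ (n + 1) := by
    intro n g
    by_cases h : y - f g ∈ maximalIdeal A ^ n
    · obtain ⟨e, he, he'⟩ := hstep n _ h
      refine ⟨g + e, fun _ => ⟨by simpa using he, ?_⟩⟩
      rwa [map_add, ← sub_sub]
    · exact ⟨g, fun h' => absurd h' h⟩
  choose next hnext using hex
  let seq : ℕ → MvPowerSeries σ 𝒪 := fun n => n.rec 0 next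
  have hseq : ∀ n, y - f (seq n) ∈ maximalIdeal A ^ n := by
    intro n
    induction n with
    | zero => simp
    | succ n ih => exact (hnext n (seq n) ih).2
  obtain ⟨L, hL⟩ := exists_adic_limit seq fun n => (hnext n (seq n) (hseq n)).1
  refine ⟨L, (sub_eq_zero.mp ?_).symm⟩
  refine eq_zero_of_forall_mem_pow (I := maximalIdeal A) fun n => ?_
  have hLn : f (L - seq n) ∈ maximalIdeal A ^ n := by
    rw [← hm, ← Ideal.map_pow]
    exact Ideal.mem_map_of_mem _ (hL n)
  rw [map_sub] at hLn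
  simpa using sub_mem (hseq n) hLn

end FLTAgent.Deformation
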