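import Fermat.Agent.Deformation.MatRep

/-!
# Lifts of a residual representation in matrix form

A matrix representation over a coefficient algebra lifts `ρbar` when its image under the residue
map is the matrix of `ρbar` in the chosen basis. Having residual representation equivalent to
`ρbar` is the same as being equivalent to such a lift.
-/

set_option autoImplicit false
set_option linter.unusedSectionVars false

noncomputable section

open IsLocalRing
open scoped TensorProduct

namespace FLTAgent.Deformation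

theorem mapRep_conjRep {A B : Type} [CommRing A] [CommRing B] (φ : A →+* B) (g : (Mat A)ˣ)
    (N : Gal →* Mat A) :
    mapRep φ (conjRep g N) =
      conjRep (Units.map (RingHom.mapMatrix (m := Fin 2) φ).toMonoidHom g) (mapRep φ N) := by
  refine MonoidHom.ext fun σ => ?_
  show φ.mapMatrix ((g : Mat A) * N σ * ((g⁻¹ : (Mat A)ˣ) : Mat A)) = _
  rw [map_mul, map_mul]
  rfl

theorem conjRep_conjRep {A : Type} [CommRing A] (g h : (Mat A)ˣ) (N : Gal →* Mat A) :
    conjRep g (conjRep h N) = conjRep (g * h) N := by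
  refine MonoidHom.ext fun σ => ?_
  simp [conjRep_apply, mul_assoc]

theorem conjRep_one {A : Type} [CommRing A] (N : Gal →* Mat A) : conjRep 1 N = N := by
  refine MonoidHom.ext fun σ => ?_
  simp [conjRep_apply]

variable {𝒪 : Type} [CommRing 𝒪] [IsLocalRing 𝒪]
variable (ρbar : ResidualGaloisRep (ResidueField 𝒪))

/-- The chosen basis of a residual representation. -/
def residualBasis : Module.Basis (Fin 2) (ResidueField 𝒪) ρbar.V :=
  Module.finBasisOfFinrankEq _ ρbar.V ρbar.finrank_eq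

/-- The matrices of a residual representation in the chosen basis. -/
def barMatrix : Gal →* Mat (ResidueField 𝒪) := repMatrix ρbar.ρ (residualBasis ρbar)

variable {A : Type} [CommRing A] [IsLocalRing A] [Algebra 𝒪 A]

/-- A matrix representation whose reduction is `ρbar`. -/
def IsLift (hA : IsCoeff 𝒪 A) (N : Gal →* Mat A) : Prop :=
  mapRep (hA.toK : A →+* ResidueField 𝒪) N = barMatrix ρbar

variable {ρbar}

theorem IsLift.map {B : Type} [CommRing B] [IsLocalRing B] [Algebra 𝒪 B] {hA : IsCoeff 𝒪 A}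
    {N : Gal →* Mat A} (h : IsLift ρbar hA N) (hB : IsCoeff 𝒪 B) (f : A →ₐ[𝒪] B) :
    IsLift ρbar hB (mapRep (f : A →+* B) N) := by
  rw [IsLift, mapRep_mapRep]
  exact (show (hB.toK : B →+* ResidueField 𝒪).comp (f : A →+* B) = (hA.toK : A →+* ResidueField 𝒪)
    from RingHom.ext (hA.toK_map hB f)) ▸ h

theorem IsCoeff.residue_eq_comp (hA : IsCoeff 𝒪 A) :
    residue A = hA.resEquiv.toRingHom.comp (hA.toK : A →+* ResidueField 𝒪) :=
  RingHom.ext fun x => (hA.resEquiv_toK x).symm

/-- The matrices of the residual representation. -/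
theorem exists_repMatrix_residual (ρ : GaloisRepAdic A) (b : Module.Basis (Fin 2) A ρ.V) :
    ∃ c : Module.Basis (Fin 2) (ResidueField A) ρ.residual.V,
      repMatrix ρ.residual.ρ c = mapRep (residue A) (repMatrix ρ.ρ b) :=
  ⟨Algebra.TensorProduct.basis (ResidueField A) b, MonoidHom.ext fun σ =>
    LinearMap.toMatrix_baseChange (ResidueField A) (ρ.ρ σ) b b⟩

theorem exists_repMatrix_baseChangeAlong {k k' : Type} [Field k] [Field k']
    (ρ : ResidualGaloisRep k) (b : Module.Basis (Fin 2) k ρ.V) (ι : k →+* k') :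
    ∃ c : Module.Basis (Fin 2) k' (ρ.baseChangeAlong ι).V,
      repMatrix (ρ.baseChangeAlong ι).ρ c = mapRep ι (repMatrix ρ.ρ b) :=
  letI : Algebra k k' := ι.toAlgebra
  ⟨Algebra.TensorProduct.basis k' b, MonoidHom.ext fun σ =>
    LinearMap.toMatrix_baseChange k' (ρ.ρ σ) b b⟩

theorem IsCoeff.comparison_eq (hA : IsCoeff 𝒪 A) {ι : ResidueField 𝒪 →+* ResidueField A}
    (hι : ∀ r, ι (residue 𝒪 r) = residue A (algebraMap 𝒪 A r)) : ι = hA.resEquiv.toRingHom := by
  refine RingHom.ext fun x => ?_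
  obtain ⟨r, rfl⟩ := IsLocalRing.residue_surjective x
  exact hι r

/-- The representation of a lift reduces to `ρbar`. -/
theorem residual_isEquiv_of_isLift (hA : IsCoeff 𝒪 A) {N : Gal →* Mat A}
    (hl : IsLift ρbar hA N) (hN : MatCont N) {ι : ResidueField 𝒪 →+* ResidueField A}
    (hι : ∀ r, ι (residue 𝒪 r) = residue A (algebraMap 𝒪 A r)) :
    (matRep N hN).residual.IsEquiv (ρbar.baseChangeAlong ι) := by
  obtain rfl := hA.comparison_eq hι
  obtain ⟨c, hc⟩ := exists_repMatrix_residual (matRep N hN) (Pi.basisFun A (Fin 2))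
  obtain ⟨d, hd⟩ := exists_repMatrix_baseChangeAlong ρbar (residualBasis ρbar) hA.resEquiv.toRingHom
  rw [repMatrix_matRep, hA.residue_eq_comp, ← mapRep_mapRep, hl] at hc
  obtain ⟨e, he⟩ := exists_equiv_of_conj (ρ := (matRep N hN).residual.ρ)
    (τ := (ρbar.baseChangeAlong hA.resEquiv.toRingHom).ρ) c d 1 (by
      rw [conjRep_one]
      exact hd.trans hc.symm)
  exact ⟨⟨e, he⟩⟩

theorem exists_lift_units (hA : IsCoeff 𝒪 A) (g : (Mat (ResidueField 𝒪))ˣ) :
    ∃ G : (Mat A)ˣ,
      Units.map (RingHom.mapMatrix (m := Fin 2) (hA.toK : A →+* ResidueField 𝒪)).toMonoidHom G =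
        g := by
  choose t ht using hA.toK_surjective
  let G : Mat A := (g : Mat (ResidueField 𝒪)).map t
  have hG : G.map (hA.toK : A →+* ResidueField 𝒪) = g := by
    ext i j
    exact ht _
  have hdet : IsUnit G.det := by
    rw [hA.isUnit_iff]
    have h := RingHom.map_det (hA.toK : A →+* ResidueField 𝒪) G
    rw [RingHom.mapMatrix_apply, hG] at h
    show (hA.toK : A →+* ResidueField 𝒪) G.det ≠ 0
    rw [h]
    exact ((Matrix.isUnit_iff_isUnit_det _).mp g.isUnit).ne_zero
  refine ⟨((Matrix.isUnit_iff_isUnit_det G).mpr hdet).unit, Units.ext ?_⟩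
  exact hG

/-- A representation with residual representation `ρbar` is equivalent to a matrix lift. -/
theorem exists_isLift_of_residual_isEquiv (hA : IsCoeff 𝒪 A) (ρ : GaloisRepAdic A)
    {ι : ResidueField 𝒪 →+* ResidueField A}
    (hι : ∀ r, ι (residue 𝒪 r) = residue A (algebraMap 𝒪 A r))
    (h : ρ.residual.IsEquiv (ρbar.baseChangeAlong ι)) :
    ∃ (N : Gal →* Mat A) (hN : MatCont N), IsLift ρbar hA N ∧ ρ.IsEquiv (matRep N hN) := by
  obtain rfl := hA.comparison_eq hι
  obtain ⟨e⟩ := h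
  obtain ⟨c, hc⟩ := exists_repMatrix_residual ρ (stdBasis ρ)
  obtain ⟨d, hd⟩ := exists_repMatrix_baseChangeAlong ρbar (residualBasis ρbar) hA.resEquiv.toRingHom
  obtain ⟨g, hg⟩ := exists_conj_of_equiv (ρ := ρ.residual.ρ) (τ := (ρbar.baseChangeAlong hA.resEquiv.toRingHom).ρ)
    c d e.toLinearEquiv e.map_apply
  rw [hc, hd, hA.residue_eq_comp, ← mapRep_mapRep] at hg
  replace hg := congrArg (mapRep hA.resEquiv.symm.toRingHom) hg
  rw [mapRep_mapRep, mapRep_conjRep, mapRep_mapRep] at hg
  have hsymm : hA.resEquiv.symm.toRingHom.comp hA.resEquiv.toRingHom = RingHom.id _ :=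
    RingHom.ext fun x => hA.resEquiv.symm_apply_apply x
  rw [hsymm] at hg
  obtain ⟨G, hG⟩ := exists_lift_units hA
    (Units.map (RingHom.mapMatrix (m := Fin 2) hA.resEquiv.symm.toRingHom).toMonoidHom g)
  have hN := matCont_repMatrix ρ (stdBasis ρ)
  refine ⟨conjRep G (repMatrix ρ.ρ (stdBasis ρ)), hN.conj G, ?_, ?_⟩
  · rw [IsLift, mapRep_conjRep, hG]
    exact hg.symm
  · obtain ⟨e₁⟩ := isEquiv_matRep ρ (stdBasis ρ)
    obtain ⟨e₂⟩ := (isEquiv_matRep_iff hN (hN.conj G)).mpr ⟨G, rfl⟩
    exact ⟨e₁.trans e₂⟩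

end FLTAgent.Deformation
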