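import Fermat.Agent.Deformation.Limit

/-!
# Existence of the universal deformation ring (Mazur)

The least deformation ideals at each level form a tower, hence give a `DeformationRingData`.
-/

set_option autoImplicit false
set_option linter.unusedSectionVars false

noncomputable section

open IsLocalRing

namespace FLTAgent.Deformation

theorem maximalIdeal_powerSeries_le {𝒪 : Type} [CommRing 𝒪] [IsLocalRing 𝒪] {σ : Type} [Finite σ] :
    maximalIdeal (MvPowerSeries σ 𝒪) ≤ Ideal.span (Set.range MvPowerSeries.X) ⊔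
      (maximalIdeal 𝒪).map (algebraMap 𝒪 (MvPowerSeries σ 𝒪)) := by
  classical
  intro f hf
  have h1 := sub_truncTotal_mem_span_X_pow f 1
  have h2 : (MvPowerSeries.truncTotal 1 f : MvPowerSeries σ 𝒪) =
      algebraMap 𝒪 (MvPowerSeries σ 𝒪) (MvPowerSeries.constantCoeff f) := by
    ext d
    rw [MvPowerSeries.algebraMap_apply, Algebra.algebraMap_self_apply, MvPolynomial.coeff_coe,
      MvPowerSeries.coeff_truncTotal_eq_ite, MvPowerSeries.coeff_C]
    by_cases hd : d = 0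
    · simp [hd, MvPowerSeries.coeff_zero_eq_constantCoeff_apply]
    · rw [if_neg hd, if_neg (by rw [Nat.lt_one_iff]; exact fun h => hd ((Finsupp.degree_eq_zero_iff _).mp h))]
  rw [pow_one, h2] at h1
  exact (sub_add_cancel f _) ▸ add_mem (Ideal.mem_sup_left h1)
    (Ideal.mem_sup_right (Ideal.mem_map_of_mem _ (mem_maximalIdeal_powerSeries.mp hf)))

variable {𝒪 : Type} [CommRing 𝒪] [IsDomain 𝒪] [IsDiscreteValuationRing 𝒪]
  [IsAdicComplete (maximalIdeal 𝒪) 𝒪] [Finite (ResidueField 𝒪)]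
  {ρbar : ResidualGaloisRep (ResidueField 𝒪)}
  {𝒟 : ∀ ⦃A : Type⦄ [CommRing A] [IsLocalRing A] [Algebra 𝒪 A], GaloisRepAdic A → Prop}
  {F : Frame ρbar}

/-- Among the deformation ideals containing `M ^ (n+1)` there is a least one. -/
theorem exists_least_defIdeal (h𝒟 : GaloisRep.IsDeformationCondition 𝒪 𝒟)
    (hbar : 𝒟 (GaloisRepAdic.ofResidualGaloisRep ρbar))
    (hfin : GaloisRep.TangentFinite 𝒪 ρbar 𝒟) (n : ℕ) :
    ∃ I, IsDefIdeal 𝒟 F I ∧ barIdeal ρbar ^ (n + 1) ≤ I ∧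
      ∀ J, IsDefIdeal 𝒟 F J → barIdeal ρbar ^ (n + 1) ≤ J → I ≤ J := by
  let s : Set ℕ := {c | ∃ I, IsDefIdeal 𝒟 F I ∧ barIdeal ρbar ^ (n + 1) ≤ I ∧
    Nat.card (EntryRing 𝒪 ⧸ I) = c}
  have hne : s.Nonempty := ⟨_, barIdeal ρbar, isDefIdeal_barIdeal h𝒟 hbar,
    Ideal.pow_le_self n.succ_ne_zero, rfl⟩
  have hbdd : BddAbove s := ⟨Nat.card (MvPowerSeries (Fin (Nat.card (TangentClasses 𝒟 ρbar))) 𝒪 ⧸
      maximalIdeal (MvPowerSeries (Fin (Nat.card (TangentClasses 𝒟 ρbar))) 𝒪) ^ (n + 1)), by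
    rintro _ ⟨I, hI, hle, rfl⟩
    exact hI.natCard_le h𝒟 hfin n hle⟩
  obtain ⟨I, hI, hle, hcard⟩ := Nat.sSup_mem hne hbdd
  refine ⟨I, hI, hle, fun J hJ hJle => ?_⟩
  have hK := hI.inf h𝒟 hJ
  have hmax : Nat.card (EntryRing 𝒪 ⧸ (I ⊓ J)) ≤ Nat.card (EntryRing 𝒪 ⧸ I) :=
    hcard ▸ le_csSup hbdd ⟨_, hK, le_inf hle hJle, rfl⟩
  obtain ⟨_, htK, -⟩ := id hK
  haveI := htK.finite
  have hbij := (Ideal.Quotient.factor_surjective (inf_le_left (a := I) (b := J))).bijective_of_nat_card_le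
    hmax
  intro x hx
  have h0 : Ideal.Quotient.mk (I ⊓ J) x = 0 := hbij.1 (by
    rw [map_zero]
    exact Ideal.Quotient.eq_zero_iff_mem.mpr hx)
  exact (Ideal.Quotient.eq_zero_iff_mem.mp h0).2

/-- Mazur's theorem. -/
theorem nonempty_deformationRingData (habs : ρbar.IsAbsolutelyIrreducible)
    (h𝒟 : GaloisRep.IsDeformationCondition 𝒪 𝒟)
    (hbar : 𝒟 (GaloisRepAdic.ofResidualGaloisRep ρbar))
    (hfin : GaloisRep.TangentFinite 𝒪 ρbar 𝒟) :
    Nonempty (GaloisRep.DeformationRingData 𝒪 ρbar 𝒟) := by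
  obtain ⟨F⟩ := exists_frame habs
  choose I hI hpow hmin using exists_least_defIdeal (F := F) h𝒟 hbar hfin
  haveI hloc : ∀ n, IsLocalRing (EntryRing 𝒪 ⧸ I n) := fun n => (hI n).fst
  have ht : ∀ n, GaloisRep.IsArtinianTestAlgebra 𝒪 (EntryRing 𝒪 ⧸ I n) := fun n => (hI n).snd.fst
  choose _ _ N hN heq hl hn hD using hI
  have hI' : ∀ n, IsDefIdeal 𝒟 F (I n) := fun n =>
    ⟨hloc n, ht n, N n, hN n, heq n, hl n, hn n, hD n⟩
  have hanti : ∀ n, I (n + 1) ≤ I n := fun n =>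
    hmin (n + 1) _ (hI' n) (le_trans (Ideal.pow_le_pow_right (by omega)) (hpow n))
  have hle : ∀ n, I n ≤ I (n + 1) ⊔ barIdeal ρbar ^ (n + 1) := fun n =>
    hmin n _ ((hI' (n + 1)).sup_pow h𝒟 n) le_sup_right
  have hentry : ∀ n σ i j, N n σ i j = Ideal.Quotient.mk (I n) (MvPolynomial.X (σ, i, j)) :=
    fun n σ i j => by rw [heq n]; rfl
  -- generators of the maximal ideal, chosen at level one
  set r := Nat.card (TangentClasses 𝒟 ρbar)
  obtain ⟨γ, hγ⟩ := (hI' 1).exists_powerSeries_surjective h𝒟 hfin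
  choose x hx using fun i : Fin r =>
    Ideal.Quotient.mk_surjective (γ (MvPowerSeries.X i : MvPowerSeries (Fin r) 𝒪))
  have hxM : ∀ i, x i ∈ barIdeal ρbar := fun i => by
    rw [barIdeal, RingHom.mem_ker, ← (hI' 1).toK_mk (ht 1).isCoeff, hx,
      isCoeff_powerSeries.toK_map (ht 1).isCoeff γ, isCoeff_powerSeries.toK_eq_zero]
    exact span_X_le_maximalIdeal (Ideal.subset_span ⟨i, rfl⟩)
  let S : Ideal (EntryRing 𝒪) :=
    Ideal.span (Set.range x) ⊔ (maximalIdeal 𝒪).map (algebraMap 𝒪 (EntryRing 𝒪))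
  have hS1 : barIdeal ρbar ≤ S ⊔ I 1 := by
    intro p hp
    obtain ⟨f, hf⟩ := hγ (Ideal.Quotient.mk (I 1) p)
    have hfm : f ∈ maximalIdeal (MvPowerSeries (Fin r) 𝒪) := by
      rw [← isCoeff_powerSeries.toK_eq_zero, ← isCoeff_powerSeries.toK_map (ht 1).isCoeff γ, hf,
        (hI' 1).toK_mk]
      exact hp
    have hmem : γ f ∈ S.map (Ideal.Quotient.mk (I 1)) := by
      refine (Ideal.map_le_iff_le_comap.mpr ?_ : (maximalIdeal (MvPowerSeries (Fin r) 𝒪)).map γ ≤ _)
        (Ideal.mem_map_of_mem _ hfm)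
      refine maximalIdeal_powerSeries_le.trans (sup_le ?_ ?_)
      · rw [Ideal.span_le]
        rintro _ ⟨i, rfl⟩
        rw [SetLike.mem_coe, Ideal.mem_comap, ← hx i]
        exact Ideal.mem_map_of_mem _ (Ideal.mem_sup_left (Ideal.subset_span ⟨i, rfl⟩))
      · rw [Ideal.map_le_iff_le_comap]
        intro a ha
        rw [Ideal.mem_comap, Ideal.mem_comap, AlgHom.commutes]
        exact Ideal.mem_map_of_mem (Ideal.Quotient.mk (I 1))
          (Ideal.mem_sup_right (Ideal.mem_map_of_mem (algebraMap 𝒪 (EntryRing 𝒪)) ha))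
    rw [hf, Ideal.mem_quotient_iff_mem_sup] at hmem
    exact hmem
  have hgen : ∀ n, barIdeal ρbar ≤ S ⊔ (I n ⊔ barIdeal ρbar ^ 2) := by
    intro n
    rcases n with _ | n
    · calc barIdeal ρbar ≤ I 0 := by simpa using hpow 0
        _ ≤ _ := le_sup_of_le_right le_sup_left
    · refine hS1.trans (sup_le le_sup_left (le_sup_of_le_right ?_))
      exact hmin 1 _ ((hI' (n + 1)).sup_pow h𝒟 1) le_sup_right
  have hcomp : ∀ n, IsAdicComplete (maximalIdeal (EntryRing 𝒪 ⧸ I n)) (EntryRing 𝒪 ⧸ I n) :=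
    fun n => by
      refine isAdicComplete_of_pow_eq_bot (n := n + 1) ?_
      rw [(hI' n).maximalIdeal_eq, ← Ideal.map_pow, Ideal.map_eq_bot_iff_le_ker, Ideal.mk_ker]
      exact hpow n
  have hy : ∀ n i, Ideal.Quotient.mk (I n) (x i) ∈ maximalIdeal (EntryRing 𝒪 ⧸ I n) := fun n i => by
    rw [(hI' n).maximalIdeal_eq]
    exact Ideal.mem_map_of_mem _ (hxM i)
  let ψ : ∀ n, MvPowerSeries (Fin r) 𝒪 →ₐ[𝒪] EntryRing 𝒪 ⧸ I n := fun n =>
    haveI := hcomp n
    psEval (fun i => Ideal.Quotient.mk (I n) (x i)) (hy n)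
  have hψX : ∀ n i, ψ n (MvPowerSeries.X i : MvPowerSeries (Fin r) 𝒪) = Ideal.Quotient.mk (I n) (x i) :=
    fun n i => haveI := hcomp n; psEval_X _ _ i
  have hψmax : ∀ n, (maximalIdeal (MvPowerSeries (Fin r) 𝒪)).map (ψ n) =
      maximalIdeal (EntryRing 𝒪 ⧸ I n) := by
    intro n
    refine le_antisymm (Ideal.map_le_iff_le_comap.mpr fun f hf =>
      isCoeff_powerSeries.map_mem_maximalIdeal (ht n).isCoeff _ hf) ?_
    refine le_of_le_sup_sq ?_ (n + 1) (by
      rw [(hI' n).maximalIdeal_eq, ← Ideal.map_pow, Ideal.map_eq_bot_iff_le_ker, Ideal.mk_ker]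
      exact hpow n)
    rw [(hI' n).maximalIdeal_eq, ← Ideal.map_pow]
    refine (Ideal.map_mono (hgen n)).trans ?_
    rw [Ideal.map_sup, Ideal.map_sup (Ideal.Quotient.mk (I n)) (I n), Ideal.map_quotient_self,
      bot_sup_eq]
    refine sup_le_sup ?_ le_rfl
    rw [Ideal.map_sup]
    refine sup_le ?_ ?_
    · rw [Ideal.map_span, Ideal.span_le]
      rintro _ ⟨_, ⟨i, rfl⟩, rfl⟩
      rw [SetLike.mem_coe, ← hψX n i]
      exact Ideal.mem_map_of_mem _ (span_X_le_maximalIdeal (Ideal.subset_span ⟨i, rfl⟩))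
    · rw [Ideal.map_map, Ideal.map_le_iff_le_comap]
      intro a ha
      rw [Ideal.mem_comap]
      show algebraMap 𝒪 (EntryRing 𝒪 ⧸ I n) a ∈ _
      rw [← (ψ n).commutes a]
      refine Ideal.mem_map_of_mem _ (mem_maximalIdeal_powerSeries.mpr ?_)
      rwa [constantCoeff_algebraMap]
  have hψsurj : ∀ n, Function.Surjective (ψ n) := fun n =>
    haveI := hcomp n
    powerSeries_surjective (ht n).residue_surjective (ψ n) (hψmax n)
  let τ : ∀ n, EntryRing 𝒪 ⧸ I (n + 1) →ₐ[𝒪] EntryRing 𝒪 ⧸ I n := fun n =>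
    Ideal.Quotient.factorₐ 𝒪 (hanti n)
  have hτψ : ∀ n, (τ n).comp (ψ (n + 1)) = ψ n := by
    intro n
    haveI := hcomp n
    refine powerSeries_algHom_ext (fun i => ?_) fun i => ?_
    · rw [AlgHom.comp_apply, hψX, hψX]
      rfl
    · rw [AlgHom.comp_apply, hψX]
      exact hy n i
  let T : Tower 𝒟 F r (fun n => EntryRing 𝒪 ⧸ I n) :=
    { test := ht
      N := N
      cont := hN
      lift := hl
      normal := hn
      cond := hD
      gen := fun n => by
        rw [heq n, evalRep_tautMat]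
        exact Ideal.Quotient.mk_surjective
      pres := ψ
      pres_surjective := hψsurj
      trans := τ
      trans_N := fun n σ i j => by rw [hentry, hentry]; rfl
      trans_pres := hτψ
      pres_pow := fun n f hf => by
        have := isCoeff_powerSeries.map_mem_maximalIdeal_pow (ht n).isCoeff (ψ n) hf
        rw [(hI' n).maximalIdeal_eq, ← Ideal.map_pow] at this
        have hz : (barIdeal ρbar ^ (n + 1)).map (Ideal.Quotient.mk (I n)) = ⊥ := by
          rw [Ideal.map_eq_bot_iff_le_ker, Ideal.mk_ker]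
          exact hpow n
        rwa [hz, Ideal.mem_bot, ← RingHom.mem_ker] at this
      pres_le := fun n f hf => by
        obtain ⟨p, hp⟩ := Ideal.Quotient.mk_surjective (ψ (n + 1) f)
        have hp0 : Ideal.Quotient.mk (I n) p = 0 := by
          rw [RingHom.mem_ker, ← hτψ, AlgHom.comp_apply, ← hp] at hf
          exact hf
        have h2 : ψ (n + 1) f ∈
            (maximalIdeal (MvPowerSeries (Fin r) 𝒪) ^ (n + 1)).map (ψ (n + 1)) := by
          rw [Ideal.map_pow, hψmax, (hI' (n + 1)).maximalIdeal_eq, ← Ideal.map_pow, ← hp,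
            Ideal.mem_quotient_iff_mem_sup, sup_comm]
          exact hle n (Ideal.Quotient.eq_zero_iff_mem.mp hp0)
        obtain ⟨g, hg, hgf⟩ := (Ideal.mem_map_iff_of_surjective _ (hψsurj (n + 1))).mp h2
        exact Submodule.mem_sup.mpr
          ⟨f - g, by rw [RingHom.mem_ker, map_sub, hgf, sub_self], g, hg, sub_add_cancel f g⟩
      univ := fun n A _ _ _ hA hm M hM hlM hnM hDM => by
        have hker := isDefIdeal_ker (F := F) h𝒟 hA M hM hlM hnM hDM
        have hMle : barIdeal ρbar ^ (n + 1) ≤ RingHom.ker (evalRep (𝒪 := 𝒪) M) := by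
          intro p hp
          have hmap : (barIdeal ρbar).map (evalRep (𝒪 := 𝒪) M) ≤ maximalIdeal A := by
            rw [Ideal.map_le_iff_le_comap]
            intro q hq
            rw [Ideal.mem_comap, ← hA.isCoeff.toK_eq_zero, ← AlgHom.comp_apply,
              toK_evalRep hlM]
            exact hq
          have := Ideal.pow_right_mono hmap (n + 1)
            (Ideal.map_pow (evalRep (𝒪 := 𝒪) M) _ _ ▸ Ideal.mem_map_of_mem _ hp)
          rwa [hm, Ideal.mem_bot] at this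
        refine ⟨Ideal.Quotient.liftₐ (I n) (evalRep M) fun p hp =>
          RingHom.mem_ker.mp (hmin n _ hker hMle hp), fun σ i j => ?_⟩
        rw [hentry]
        exact evalRep_X M σ i j }
  haveI := T.isLocalRing_ring
  exact T.nonempty_deformationRingData habs h𝒟

end FLTAgent.Deformation
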